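import Fermat.Agent.S52.T.Defs
import Fermat.Agent.S41.Eis.VC
import Fermat.Prelude.Def_FLTPrelim_Modularity

/-!
# S52/T-SHORT : passage to the short Weierstrass form

`2, 3 ≠ 0` in `F`.  `(x, y) ↦ (36 x + 3 b₂, 108 (2 y + a₁ x + a₃))` is a bijection from `W(F)` onto the points of `y² = x³ - 27 c₄ x - 54 c₆`.
Simplest: `S41.Eis.exists_vcEquiv' W W' C hW` with `W' = sw (-27 c₄) (-54 c₆)`, `C = ⟨u, r, s, t⟩`, `u = 1/6`, `r = -b₂/12`, `s = -a₁/2`, `t = -(a₃ + r a₁)/2`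
(check `W' = C • W` with `WeierstrassCurve.ext` + `simp [variableChange_a₁ …]` + `field_simp; ring`); an `AddEquiv` gives `Nat.card_congr`.
`apOfModel_eq`: unfold `apOfModel`, `traceOfFrobenius`, `reductionMod`, `card`; `Nat.card (ZMod ℓ) = ℓ`; `map_c₄`, `map_c₆`.
`good_iff`: `Δ = (c₄³ - c₆²)/1728`: `4 (-27 c₄)³ + 27 (-54 c₆)² = -27·4·729·… ` i.e. `= -78732 (c₄³ - c₆²) = -78732 · 1728 Δ` (`WeierstrassCurve.c_relation : 1728 * W.Δ = W.c₄ ^ 3 - W.c₆ ^ 2`).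
-/

set_option autoImplicit false

noncomputable section

namespace Fermat.Agent.S52.T

open WeierstrassCurve

theorem card_short {F : Type*} [Field F] (h2 : (2 : F) ≠ 0) (h3 : (3 : F) ≠ 0)
    (W : WeierstrassCurve F) :
    Nat.card W.toAffine.Point = Nat.card (Pt (-27 * W.c₄) (-54 * W.c₆)) := by
  classical
  have h6 : (6 : F) ≠ 0 := by
    have : (6 : F) = 2 * 3 := by norm_num
    rw [this]; exact mul_ne_zero h2 h3
  let C : VariableChange F :=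
    ⟨(Units.mk0 (6 : F) h6)⁻¹, -W.b₂ / 12, -W.a₁ / 2, -(W.a₃ + (-W.b₂ / 12) * W.a₁) / 2⟩
  have hu : ((C.u⁻¹ : Fˣ) : F) = 6 := by simp [C]
  have h12 : (12 : F) ≠ 0 := by
    have : (12 : F) = 2 * 2 * 3 := by norm_num
    rw [this]; exact mul_ne_zero (mul_ne_zero h2 h2) h3
  have hW : sw (-27 * W.c₄) (-54 * W.c₆) = C • W := by
    ext
    · rw [variableChange_a₁, hu]
      simp only [sw_a₁, C]
      field_simp
      ring
    · rw [variableChange_a₂, hu]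
      simp only [sw_a₂, C, WeierstrassCurve.b₂]
      field_simp
      ring
    · rw [variableChange_a₃, hu]
      simp only [sw_a₃, C]
      field_simp
      ring
    · rw [variableChange_a₄, hu]
      simp only [sw_a₄, C, WeierstrassCurve.c₄, WeierstrassCurve.b₂, WeierstrassCurve.b₄]
      field_simp
      ring
    · rw [variableChange_a₆, hu]
      simp only [sw_a₆, C, WeierstrassCurve.c₆, WeierstrassCurve.b₂, WeierstrassCurve.b₄,
        WeierstrassCurve.b₆]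
      field_simp
      ring
  obtain ⟨e, -⟩ := Fermat.Agent.S41.Eis.exists_vcEquiv' W _ C hW
  exact (Nat.card_congr e.toEquiv).symm

/-- [S52/T-SHORT] -/
theorem apOfModel_eq (W : WeierstrassCurve ℤ) {ℓ : ℕ} [Fact ℓ.Prime] (h5 : 5 ≤ ℓ) :
    W.apOfModel ℓ = (ℓ : ℤ) + 1 -
      (Nat.card (Pt (-27 * ((W.c₄ : ℤ) : ZMod ℓ)) (-54 * ((W.c₆ : ℤ) : ZMod ℓ))) : ℤ) := by
  have hℓ : ℓ.Prime := Fact.out
  have hne : ∀ n : ℕ, 0 < n → n < ℓ → ((n : ℕ) : ZMod ℓ) ≠ 0 := by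
    intro n hn hlt h0
    rw [ZMod.natCast_eq_zero_iff] at h0
    exact absurd (Nat.le_of_dvd hn h0) (by omega)
  have h2 : (2 : ZMod ℓ) ≠ 0 := by exact_mod_cast hne 2 (by norm_num) (by omega)
  have h3 : (3 : ZMod ℓ) ≠ 0 := by exact_mod_cast hne 3 (by norm_num) (by omega)
  unfold apOfModel traceOfFrobenius WeierstrassCurve.card reductionMod
  rw [card_short h2 h3, Nat.card_zmod, map_c₄, map_c₆]
  rfl

theorem disc_ne_zero_of_good (W : WeierstrassCurve ℤ) {ℓ : ℕ} [Fact ℓ.Prime] (h5 : 5 ≤ ℓ)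
    (hg : W.IsGoodPrimeFor ℓ) :
    4 * (-27 * ((W.c₄ : ℤ) : ZMod ℓ)) ^ 3 + 27 * (-54 * ((W.c₆ : ℤ) : ZMod ℓ)) ^ 2 ≠ 0 := by
  have hℓ : ℓ.Prime := Fact.out
  intro h0
  apply hg
  have e : (4 * (-27 * ((W.c₄ : ℤ) : ZMod ℓ)) ^ 3 + 27 * (-54 * ((W.c₆ : ℤ) : ZMod ℓ)) ^ 2) =
      (((-78732 * 1728 * W.Δ : ℤ)) : ZMod ℓ) := by
    have := W.c_relation
    have h1 : (-78732 * 1728 * W.Δ : ℤ) = -78732 * (W.c₄ ^ 3 - W.c₆ ^ 2) := by rw [← this]; ring
    rw [h1]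
    push_cast
    ring
  rw [e, ZMod.intCast_zmod_eq_zero_iff_dvd] at h0
  have hp : Prime (ℓ : ℤ) := Nat.prime_iff_prime_int.mp hℓ
  have hc : ¬ (ℓ : ℤ) ∣ (-78732 * 1728 : ℤ) := by
    intro hd
    have e2 : (-78732 * 1728 : ℤ) = -(2 ^ 8 * 3 ^ 12) := by norm_num
    rw [e2, dvd_neg] at hd
    rcases hp.dvd_or_dvd hd with hd | hd
    · have := hp.dvd_of_dvd_pow hd
      have := Int.le_of_dvd (by norm_num) this
      omega
    · have := hp.dvd_of_dvd_pow hd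
      have := Int.le_of_dvd (by norm_num) this
      omega
  exact (hp.dvd_or_dvd h0).resolve_left hc

end Fermat.Agent.S52.T
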