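import Fermat.Agent.S52.T.Tw

/-!
# S52/T-COMPDEG : the degree of a composition of rational functions   (Mathlib only)

`rdeg (F ∘ g) = rdeg F * rdeg g` for `F = p / q` (coprime).

Proof A (fields).  `RatFunc.finrank_eq_max_natDegree : finrank K⟮f⟯ K⟮X⟯ = max f.num.natDegree f.denom.natDegree`
(`Mathlib/FieldTheory/RatFunc/IntermediateField.lean`).  If `g` is constant both sides are `0` (`h` is constant).  Otherwise `g` is transcendental
(`RatFunc.transcendental_of_ne_C`), `k(X) ≃ k(g)`, `X ↦ g`, sends `F` to `h`, so `[k(g) : k(h)] = rdeg F`; tower law.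

Proof B (polynomials).  `g = r / s` reduced, `m = rdeg g`, `n = max (deg p) (deg q)`; `P(r,s) = ∑ pᵢ rⁱ s^(n-i)`, `Q(r,s)` likewise: `h = P(r,s)/Q(r,s)`;
`P(r,s)`, `Q(r,s)` have no common root (over the algebraic closure / or Bezout: `u p + v q = 1` homogenised gives `U P + V Q = s^N`,
and the reversed identity gives `U' P + V' Q = r^N`), and `max (deg P(r,s)) (deg Q(r,s)) = n m` (look at the coefficient of degree `n m`:
it is `P(a, b)`, `Q(a, b)` with `(a, b) ≠ 0` the coefficients of degree `m` of `r`, `s`).
-/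

set_option autoImplicit false

noncomputable section

namespace Fermat.Agent.S52.T

open Polynomial

variable {k : Type*} [Field k]

/-- `rdeg` of a fraction of coprime polynomials -/
theorem rdeg_div {p q : k[X]} (hpq : IsCoprime p q) (hq : q ≠ 0) :
    rdeg (algebraMap k[X] (RatFunc k) p / algebraMap k[X] (RatFunc k) q) =
      max p.natDegree q.natDegree := by
  obtain ⟨F, hF⟩ : ∃ F, F = algebraMap k[X] (RatFunc k) p / algebraMap k[X] (RatFunc k) q :=
    ⟨_, rfl⟩
  rw [← hF, rdeg]
  have hq' : algebraMap k[X] (RatFunc k) q ≠ 0 := RatFunc.algebraMap_ne_zero hq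
  have hd' : algebraMap k[X] (RatFunc k) F.denom ≠ 0 :=
    RatFunc.algebraMap_ne_zero F.denom_ne_zero
  have h1 : F.num ∣ p := by rw [hF]; exact RatFunc.num_div_dvd p hq
  have h2 : F.denom ∣ q := by rw [hF]; exact RatFunc.denom_div_dvd p q
  have h3 : F.num * q = p * F.denom := by
    apply RatFunc.algebraMap_injective k
    rw [map_mul, map_mul]
    have := (RatFunc.num_div_denom F).trans hF
    rw [div_eq_div_iff hd' hq'] at this
    exact this
  have h4 : p ∣ F.num := hpq.dvd_of_dvd_mul_right ⟨F.denom, h3⟩
  have h5 : q ∣ F.denom := hpq.symm.dvd_of_dvd_mul_left ⟨F.num, by rw [← h3]; ring⟩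
  rw [natDegree_eq_of_degree_eq (degree_eq_degree_of_associated (associated_of_dvd_dvd h1 h4)),
    natDegree_eq_of_degree_eq (degree_eq_degree_of_associated (associated_of_dvd_dvd h2 h5))]

theorem rdeg_eq_finrank (f : RatFunc k) :
    rdeg f = Module.finrank (IntermediateField.adjoin k {f}) (RatFunc k) :=
  (RatFunc.finrank_eq_max_natDegree f).symm

theorem rdeg_C (c : k) : rdeg (RatFunc.C c) = 0 := by
  simp [rdeg]

/-- [S52/T-COMPDEG] -/
theorem rdeg_comp {g h : RatFunc k} {p q : k[X]} (hpq : IsCoprime p q) (hq : aeval g q ≠ 0)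
    (hh : h * aeval g q = aeval g p) : rdeg h = max p.natDegree q.natDegree * rdeg g := by
  have hh' : h = aeval g p / aeval g q := by rw [eq_div_iff hq, hh]
  have hq0 : q ≠ 0 := by
    rintro rfl
    exact hq (map_zero _)
  by_cases hg : ∃ c, g = RatFunc.C c
  · obtain ⟨c, rfl⟩ := hg
    have e : ∀ r : k[X], aeval (RatFunc.C c : RatFunc k) r = RatFunc.C (r.eval c) := by
      intro r
      have : (RatFunc.C c : RatFunc k) = algebraMap k (RatFunc k) c := rfl
      rw [this, aeval_algebraMap_apply]
      rfl
    rw [hh', e, e, ← map_div₀, rdeg_C, rdeg_C, mul_zero]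
  · have htr := RatFunc.transcendental_of_ne_C g hg
    have hinj : Function.Injective (aeval g : k[X] →ₐ[k] RatFunc k) :=
      transcendental_iff_injective.mp htr
    let φ : RatFunc k →ₐ[k] RatFunc k := RatFunc.liftAlgHom (aeval g)
      (nonZeroDivisors_le_comap_nonZeroDivisors_of_injective _ hinj)
    obtain ⟨F, hF⟩ : ∃ F, F = algebraMap k[X] (RatFunc k) p / algebraMap k[X] (RatFunc k) q :=
      ⟨_, rfl⟩
    have hφF : φ F = h := by
      rw [hF, hh']
      exact RatFunc.liftAlgHom_apply_div _ _ p q
    have hφX : φ RatFunc.X = g := by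
      have : (RatFunc.X : RatFunc k) = algebraMap k[X] (RatFunc k) X / algebraMap k[X] (RatFunc k) 1 := by
        rw [map_one, div_one, RatFunc.algebraMap_X]
      rw [this]
      refine (RatFunc.liftAlgHom_apply_div _ _ X 1).trans ?_
      rw [map_one, div_one, aeval_X]
    have m1 : (IntermediateField.adjoin k {F}).map φ = IntermediateField.adjoin k {h} := by
      rw [IntermediateField.adjoin_map, Set.image_singleton, hφF]
    have m2 : (⊤ : IntermediateField k (RatFunc k)).map φ = IntermediateField.adjoin k {g} := by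
      rw [← RatFunc.adjoin_X, IntermediateField.adjoin_map, Set.image_singleton, hφX]
    have hle : IntermediateField.adjoin k {h} ≤ IntermediateField.adjoin k {g} := by
      rw [← m1, ← m2]
      exact IntermediateField.map_mono φ le_top
    have h1 := IntermediateField.relfinrank_mul_finrank_top hle
    have h2 := IntermediateField.relfinrank_map_map (IntermediateField.adjoin k {F}) ⊤ φ
    rw [m1, m2, IntermediateField.relfinrank_top_right] at h2
    rw [rdeg_eq_finrank h, ← h1, h2, ← rdeg_eq_finrank, ← rdeg_eq_finrank, hF, rdeg_div hpq hq0]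

end Fermat.Agent.S52.T
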