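import Fermat.Agent.S52.T.Zero
import Fermat.Agent.S52.T.CompDeg

/-!
# S52/T-COMP : `dg` is multiplicative for compositions

`Realizes Q₁ α₁`, `Realizes Q₂ α₂`, `Realizes Q₃ (α₁ * α₂)` (`*` = composition in `AddMonoid.End`)  ⟹  `dg Q₃ = dg Q₁ * dg Q₂`.

* `dg Q₂ = 0`: `α₂ = 0` (`eq_zero_of_dg`), `α₁ * α₂ = 0`, `Q₃ = 0` (`realizes_inj` with `realizes_zero`).  Both sides `0`.
* `Q₁ = 0`: `α₁ = 0` (`realizes_unique`), the same.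
* Otherwise `Qᵢ = (ξᵢ, υᵢ)` (`i = 1, 2`), `𝒳ᵢ = ξᵢ/λ`, `𝒳₂` not constant.  `Q₃ ≠ 0` and `𝒳₃ = 𝒳₁ ∘ 𝒳₂`:
  with `p = num 𝒳₁`, `q = denom 𝒳₁`:  `aeval 𝒳₂ q ≠ 0` (`𝒳₂` is transcendental over `k`: `RatFunc.transcendental_of_ne_C`, or: a non constant
  rational function takes a given value at finitely many points only) and `𝒳₃ * aeval 𝒳₂ q = aeval 𝒳₂ p`  (`eq_of_rv_eq`):
  for almost all `x₀` (choose `y₀`, `y₀² = f(x₀) ≠ 0`): `P₀ = (x₀,y₀)`, `α₂ P₀ = (x₁, y₁)` with `x₁ = rv x₀ ξ₂ / y₀² = rv x₀ 𝒳₂`;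
  the `x₀` with `x₁ ∈ S₁` or `y₁ = 0` (i.e. `f(x₁) = 0`) are finitely many (`finite_rv_eq_zero` applied to `𝒳₂ - C s`, `s ∈ S₁ ∪ roots f`);
  then `α₁ (α₂ P₀) = (rv x₁ 𝒳₁, _)`, which is affine, so `Q₃ ≠ 0` and `rv x₀ 𝒳₃ = rv x₁ 𝒳₁ = p(x₁)/q(x₁)`, and
  `rv x₀ (aeval 𝒳₂ p) = p (rv x₀ 𝒳₂)` (`evr x₀` is a ring hom: `Polynomial.hom_eval₂` / `aeval_algHom_apply`-style induction).
  Then `rdeg_comp`.
-/

set_option autoImplicit false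

noncomputable section

namespace Fermat.Agent.S52.T

open Polynomial WeierstrassCurve

variable {k : Type*} [Field k] [DecidableEq k] {A B : k}

omit [DecidableEq k] in
theorem rv_mul {a : k} {g g' : RatFunc k} (hg : g ∈ regRing a) (hg' : g' ∈ regRing a) :
    rv a (g * g') = rv a g * rv a g' :=
  map_mul (evr a) ⟨g, hg⟩ ⟨g', hg'⟩

omit [DecidableEq k] in
theorem rv_sub {a : k} {g g' : RatFunc k} (hg : g ∈ regRing a) (hg' : g' ∈ regRing a) :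
    rv a (g - g') = rv a g - rv a g' :=
  map_sub (evr a) ⟨g, hg⟩ ⟨g', hg'⟩

/-- the constants, as a ring hom to `regRing a` -/
def Creg (a : k) : k →+* regRing a :=
  (RatFunc.C : k →+* RatFunc k).codRestrict (regRing a) (C_mem_regRing a)

omit [DecidableEq k] in
theorem rv_aeval {a : k} {g : RatFunc k} (hg : g ∈ regRing a) (p : k[X]) :
    aeval g p ∈ regRing a ∧ rv a (aeval g p) = p.eval (rv a g) := by
  have h1 : aeval g p = ((p.eval₂ (Creg a) ⟨g, hg⟩ : regRing a) : RatFunc k) :=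
    (Polynomial.hom_eval₂ p (Creg a) (regRing a).subtype ⟨g, hg⟩).symm
  have h2 : evr a (p.eval₂ (Creg a) ⟨g, hg⟩) = p.eval (rv a g) := by
    rw [Polynomial.hom_eval₂]
    have : (evr a).comp (Creg a) = RingHom.id k := by
      ext c; exact rv_C a c
    rw [this, eval₂_id]; rfl
  rw [h1]
  exact ⟨Subtype.property _, h2⟩

omit [DecidableEq k] in
/-- what `Rel` says about `𝒳 = ξ / λ` -/
theorem rel_X {x₀ y₀ : k} {hy : y₀ ≠ 0} {h : y₀ ^ 2 = x₀ ^ 3 + A * x₀ + B} {ξ υ : RatFunc k}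
    {hn : (sw (TA A B) (TB A B)).toAffine.Nonsingular ξ υ} {R : Pt A B}
    (hr : (evData A B x₀ y₀ hy h).Rel (.some ξ υ hn) R) :
    ∃ (x' y' : k) (h' : (sw A B).toAffine.Nonsingular x' y'), R = .some x' y' h' ∧
      ξ / lam A B ∈ regRing x₀ ∧ rv x₀ (ξ / lam A B) = x' := by
  obtain ⟨X₁, Y₁, x', y', h', eX, eY, e, ex, ey⟩ := RedData.rel_some_elim hr
  have hy2 : y₀ ^ 2 ≠ 0 := pow_ne_zero _ hy
  let L : (evData A B x₀ y₀ hy h).O := ⟨lam A B, lam_mem_regRing A B x₀⟩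
  have eL : (evData A B x₀ y₀ hy h).π L = y₀ ^ 2 := by
    show rv x₀ (lam A B) = _
    rw [rv_lam, h]
  obtain ⟨I, eI, hI⟩ := (evData A B x₀ y₀ hy h).toPlace.exists_inv L (by rw [eL]; exact hy2)
  have e1 : ξ / lam A B = ((X₁ * I : (evData A B x₀ y₀ hy h).O) : RatFunc k) := by
    rw [div_eq_mul_inv, ← eX]
    show _ = (X₁ : RatFunc k) * (I : RatFunc k)
    rw [eI]
  refine ⟨x', y', h', e, ?_, ?_⟩
  · rw [e1]; exact (X₁ * I).2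
  · rw [e1]
    show (evData A B x₀ y₀ hy h).π (X₁ * I) = x'
    rw [map_mul, hI, ex, eL]
    show x' * y₀ ^ 2 * (y₀ ^ 2)⁻¹ = x'
    field_simp

/-- [S52/T-COMP] -/
theorem dg_comp [IsAlgClosed k] (h2 : (2 : k) ≠ 0) (hΔ : 4 * A ^ 3 + 27 * B ^ 2 ≠ 0)
    {Q₁ Q₂ Q₃ : TPt A B} {α₁ α₂ : AddMonoid.End (Pt A B)} (h₁ : Realizes A B Q₁ α₁)
    (h₂ : Realizes A B Q₂ α₂) (h₃ : Realizes A B Q₃ (α₁ * α₂)) :
    dg A B Q₃ = dg A B Q₁ * dg A B Q₂ := by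
  have hinf : Infinite k := IsAlgClosed.instInfinite
  by_cases hd2 : dg A B Q₂ = 0
  · have e2 := eq_zero_of_dg h2 hΔ h₂ hd2
    rw [e2, mul_zero] at h₃
    rw [realizes_inj h2 hΔ h₃ realizes_zero, hd2, mul_zero]; rfl
  rcases Q₁ with _ | ⟨ξ₁, υ₁, n₁⟩
  · have e1 := realizes_unique h2 hΔ h₁ realizes_zero
    rw [e1, zero_mul] at h₃
    rw [realizes_inj h2 hΔ h₃ realizes_zero]
    show (0 : ℤ) = 0 * _
    rw [zero_mul]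
  rcases Q₂ with _ | ⟨ξ₂, υ₂, n₂⟩
  · exact absurd rfl hd2
  obtain ⟨X1, hX1⟩ : ∃ X1, X1 = ξ₁ / lam A B := ⟨_, rfl⟩
  obtain ⟨X2, hX2⟩ : ∃ X2, X2 = ξ₂ / lam A B := ⟨_, rfl⟩
  have hnc : ¬ ∃ c, X2 = RatFunc.C c := by
    rintro ⟨c, hc⟩
    apply hd2
    show (rdeg (ξ₂ / lam A B) : ℤ) = 0
    rw [← hX2, hc, rdeg_C]; rfl
  obtain ⟨S₁, hS₁, h₁⟩ := h₁
  obtain ⟨S₂, hS₂, h₂⟩ := h₂
  obtain ⟨S₃, hS₃, h₃⟩ := h₃
  obtain ⟨T, hTd⟩ : ∃ T : Set k, T = S₁ ∪ {x | x ^ 3 + A * x + B = 0} := ⟨_, rfl⟩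
  have hT : T.Finite := by rw [hTd]; exact hS₁.union (gen_finite_roots A B)
  obtain ⟨S₄, hS₄d⟩ : ∃ S₄ : Set k, S₄ = ⋃ s ∈ T,
    {a | X2 - RatFunc.C s ∈ regRing a ∧ rv a (X2 - RatFunc.C s) = 0} := ⟨_, rfl⟩
  have hS₄ : S₄.Finite := by
    rw [hS₄d]
    exact hT.biUnion fun s _ => finite_rv_eq_zero (fun h0 => hnc ⟨s, sub_eq_zero.mp h0⟩)
  obtain ⟨S, hSd⟩ : ∃ S : Set k, S = S₂ ∪ S₃ ∪ S₄ ∪ {x | x ^ 3 + A * x + B = 0} := ⟨_, rfl⟩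
  have hS : S.Finite := by
    rw [hSd]; exact ((hS₂.union hS₃).union hS₄).union (gen_finite_roots A B)
  have key : ∀ x₀, x₀ ∉ S → ∃ (y₀ : k) (hy : y₀ ≠ 0) (h : y₀ ^ 2 = x₀ ^ 3 + A * x₀ + B)
      (x₂ y₂ : k) (hn₂ : (sw A B).toAffine.Nonsingular x₂ y₂),
      (evData A B x₀ y₀ hy h).Rel Q₃ (.some x₂ y₂ hn₂) ∧ X2 ∈ regRing x₀ ∧
        X1 ∈ regRing (rv x₀ X2) ∧ rv (rv x₀ X2) X1 = x₂ := by
    intro x₀ hx₀
    rw [hSd] at hx₀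
    simp only [Set.mem_union, not_or, Set.mem_ofPred_eq] at hx₀
    obtain ⟨⟨⟨a2, a3⟩, a4⟩, a5⟩ := hx₀
    obtain ⟨y₀, he, hn⟩ := gen_exists_pt (A := A) (B := B) h2 hΔ x₀
    have hy : y₀ ≠ 0 := by
      rintro rfl
      apply a5
      rw [← he]; ring
    have r₂ := h₂ x₀ y₀ hy he hn a2
    have r₃ := h₃ x₀ y₀ hy he hn a3
    obtain ⟨x₁, y₁, hn₁, e₁, m₁, v₁⟩ := rel_X r₂
    rw [← hX2] at m₁ v₁
    have hx₁ : x₁ ∉ T := by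
      intro hmem
      apply a4
      rw [hS₄d]
      simp only [Set.mem_iUnion]
      refine ⟨x₁, hmem, sub_mem m₁ (C_mem_regRing _ _), ?_⟩
      rw [rv_sub m₁ (C_mem_regRing _ _), rv_C, v₁, sub_self]
    have he₁ : y₁ ^ 2 = x₁ ^ 3 + A * x₁ + B := (sw_equation A B x₁ y₁).mp hn₁.1
    have hy₁ : y₁ ≠ 0 := by
      rintro rfl
      apply hx₁
      rw [hTd]
      right
      show x₁ ^ 3 + A * x₁ + B = 0
      rw [← he₁]; ring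
    have r₁ := h₁ x₁ y₁ hy₁ he₁ hn₁ (fun h => hx₁ (by rw [hTd]; exact Or.inl h))
    obtain ⟨x₂, y₂, hn₂, e₂, m₂, v₂⟩ := rel_X r₁
    rw [← hX1] at m₂ v₂
    refine ⟨y₀, hy, he, x₂, y₂, hn₂, ?_, m₁, by rw [v₁]; exact m₂, by rw [v₁]; exact v₂⟩
    have e3 : (α₁ * α₂) (.some x₀ y₀ hn) = .some x₂ y₂ hn₂ := by
      show α₁ (α₂ _) = _
      rw [e₁, e₂]
    rw [e3] at r₃
    exact r₃
  rcases Q₃ with _ | ⟨ξ₃, υ₃, n₃⟩
  · exfalso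
    obtain ⟨x₀, hx₀⟩ := hS.infinite_compl.nonempty
    obtain ⟨y₀, hy, h, x₂, y₂, hn₂, r, _⟩ := key x₀ hx₀
    exact Affine.Point.some_ne_zero hn₂ r
  · show (rdeg (ξ₃ / lam A B) : ℤ) = (rdeg (ξ₁ / lam A B) : ℤ) * (rdeg (ξ₂ / lam A B) : ℤ)
    have hq : aeval X2 X1.denom ≠ 0 := by
      have hinj : Function.Injective (aeval X2 : k[X] →ₐ[k] RatFunc k) :=
        transcendental_iff_injective.mp (RatFunc.transcendental_of_ne_C X2 hnc)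
      intro h0
      exact X1.denom_ne_zero (hinj (h0.trans (map_zero _).symm))
    have hh : (ξ₃ / lam A B) * aeval X2 X1.denom = aeval X2 X1.num := by
      refine eq_of_rv_eq hS fun a ha _ _ => ?_
      obtain ⟨y₀, hy, h, x₂, y₂, hn₂, r, mX2, mX1, v⟩ := key a ha
      obtain ⟨x₃, y₃, hn₃, e₃, m₃, v₃⟩ := rel_X r
      rw [Affine.Point.some.injEq] at e₃
      rw [rv_mul m₃ (rv_aeval mX2 _).1, (rv_aeval mX2 _).2, (rv_aeval mX2 _).2, v₃, ← e₃.1, ← v,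
        rv_eq, div_mul_cancel₀ _ mX1]
    have h5 : rdeg (ξ₃ / lam A B) = rdeg X1 * rdeg X2 :=
      rdeg_comp (RatFunc.isCoprime_num_denom X1) hq hh
    rw [h5, ← hX1, ← hX2]
    push_cast
    rfl

end Fermat.Agent.S52.T
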