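import Mathlib

/-!
# S52, block T : basic definitions

* `sw A B` : the short Weierstrass curve `y² = x³ + A x + B`, `Pt A B` its group of points.
* `Place K κ` : a place of the field `K` with values in the field `κ` (subring `O`, ring hom `π`).
* `RedData K κ` : a place together with a short Weierstrass curve over `K` with coefficients in `O`
  and a curve over `κ` which is the reduction *up to the scaling* `u`.
* `RedData.Rel` : the graph of the reduction map (affine points with integral coordinates go to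
  affine points, `0` goes to `0`).
-/

set_option autoImplicit false

namespace Fermat.Agent.S52.T

open WeierstrassCurve

/-- the short Weierstrass curve `y² = x³ + A x + B` -/
def sw {R : Type*} [CommRing R] (A B : R) : WeierstrassCurve R := ⟨0, 0, 0, A, B⟩

/-- its points -/
abbrev Pt {F : Type*} [Field F] (A B : F) := (sw A B).toAffine.Point

section sw
variable {R : Type*} [CommRing R] (A B : R)
@[simp] lemma sw_a₁ : (sw A B).a₁ = 0 := rfl
@[simp] lemma sw_a₂ : (sw A B).a₂ = 0 := rfl
@[simp] lemma sw_a₃ : (sw A B).a₃ = 0 := rfl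
@[simp] lemma sw_a₄ : (sw A B).a₄ = A := rfl
@[simp] lemma sw_a₆ : (sw A B).a₆ = B := rfl
lemma sw_b₂ : (sw A B).b₂ = 0 := by simp [WeierstrassCurve.b₂]
lemma sw_b₄ : (sw A B).b₄ = 2 * A := by simp [WeierstrassCurve.b₄]
lemma sw_b₆ : (sw A B).b₆ = 4 * B := by simp [WeierstrassCurve.b₆]
lemma sw_b₈ : (sw A B).b₈ = - A ^ 2 := by simp [WeierstrassCurve.b₈]
lemma sw_Δ : (sw A B).Δ = -16 * (4 * A ^ 3 + 27 * B ^ 2) := by
  simp only [WeierstrassCurve.Δ, sw_b₂, sw_b₄, sw_b₆, sw_b₈]; ring
lemma sw_map {S : Type*} [CommRing S] (f : R →+* S) : (sw A B).map f = sw (f A) (f B) := by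
  ext <;> simp [sw]
lemma sw_equation (x y : R) : (sw A B).toAffine.Equation x y ↔ y ^ 2 = x ^ 3 + A * x + B := by
  rw [Affine.equation_iff]; simp
lemma sw_negY (x y : R) : (sw A B).toAffine.negY x y = -y := by simp [Affine.negY]
end sw

/-- on a short Weierstrass curve with non zero discriminant every point is non singular -/
lemma sw_nonsingular {F : Type*} [Field F] {A B : F} (hΔ : 4 * A ^ 3 + 27 * B ^ 2 ≠ 0)
    (h2 : (2 : F) ≠ 0) {x y : F} (h : y ^ 2 = x ^ 3 + A * x + B) :
    (sw A B).toAffine.Nonsingular x y := by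
  have hE : (sw A B).toAffine.Equation x y := (sw_equation A B x y).mpr h
  rw [Affine.nonsingular_iff]
  refine ⟨hE, ?_⟩
  simp only [sw_a₁, sw_a₂, sw_a₃, sw_a₄]
  by_contra hc
  push Not at hc
  obtain ⟨h1, h3⟩ := hc
  have hy : y = 0 := by
    have : 2 * y = 0 := by linear_combination h3
    rcases mul_eq_zero.mp this with h | h
    · exact absurd h h2
    · exact h
  subst hy
  apply hΔ
  have e1 : 3 * x ^ 2 + A = 0 := by linear_combination -h1
  have e2 : x ^ 3 + A * x + B = 0 := by linear_combination -h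
  linear_combination (-(18 : F) * A * x + 27 * B + 0) * e2 + (6 * A * x ^ 2 - 9 * B * x + 4 * A ^ 2) * e1

/-- a place of `K` with values in `κ` -/
structure Place (K κ : Type*) [Field K] [Field κ] where
  O : Subring K
  π : O →+* κ
  mem_or : ∀ g : K, g ∈ O ∨ ∃ h : g⁻¹ ∈ O, π ⟨g⁻¹, h⟩ = 0
  unit : ∀ g : O, π g ≠ 0 → (g : K)⁻¹ ∈ O

/-- a place + a short Weierstrass curve over `K` + its (scaled) reduction -/
structure RedData (K κ : Type*) [Field K] [Field κ] extends Place K κ where
  A : K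
  B : K
  hA : A ∈ O
  hB : B ∈ O
  A' : κ
  B' : κ
  u : κ
  hu : u ≠ 0
  eA : π ⟨A, hA⟩ = A' * u ^ 4
  eB : π ⟨B, hB⟩ = B' * u ^ 6

/-- the graph of the reduction map `(x, y) ↦ (π x / u², π y / u³)` -/
def RedData.Rel {K κ : Type*} [Field K] [Field κ] (D : RedData K κ) :
    Pt D.A D.B → Pt D.A' D.B' → Prop
  | .zero, Q => Q = 0
  | .some x y _, Q => ∃ (hx : x ∈ D.O) (hy : y ∈ D.O)
      (h : (sw D.A' D.B').toAffine.Nonsingular (D.π ⟨x, hx⟩ / D.u ^ 2) (D.π ⟨y, hy⟩ / D.u ^ 3)),
      Q = .some _ _ h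

end Fermat.Agent.S52.T
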