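import Fermat.Agent.S52.T.Gen

/-!
# S52/T-ETA : the points `Φⁿ η = (X^(ℓⁿ), λ^((ℓⁿ-1)/2))` of the twisted curve

`q = ℓⁿ` (odd).  In the coordinates of the Weierstrass model: `ξ = λ X^q`, `υ = λ² λ^((q-1)/2)`.
* `phi_nonsingular`: `sw_nonsingular` over `RatFunc k`: discriminant `4 (Aλ²)³ + 27 (Bλ³)² = λ⁶ (4A³ + 27B²) ≠ 0` (`lam_ne_zero`, `RatFunc.C` injective),
  `2 ≠ 0` in `RatFunc k` (image of `2 ≠ 0` of `k`; `ℓ ≠ 2`: `CharP.cast_eq_zero_iff`), equation: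
  `υ² = λ⁴ λ^(q-1) = λ³ λ^q` and `λ^q = X^(3q) + A X^q + B` (`add_pow_char_pow` in `RatFunc k`, which has characteristic `ℓ`
  (`charP_of_injective_algebraMap` / `RatFunc.instCharP`?), `A^q = A` by induction from `hA`).
* `dg_PhiPt`: `ξ / λ = X^q = algebraMap (X^q)`; `RatFunc.num_algebraMap`, `RatFunc.denom_algebraMap`.
* `realizes_PhiPt`: `S = ∅`.  `φⁿ (x₀,y₀) = (x₀^q, y₀^q)` by induction; `rv x₀ ξ / y₀² = y₀² x₀^q / y₀²`, `rv x₀ υ / y₀³ = y₀⁴ (y₀²)^((q-1)/2) / y₀³ = y₀^q`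
  (`rv` is multiplicative on `regRing`: use the ring hom `evr x₀`, as in the proof of `rv_lam`).
-/

set_option autoImplicit false

noncomputable section

namespace Fermat.Agent.S52.T

open Polynomial WeierstrassCurve

/-- the standing hypotheses: `E : y² = x³ + A x + B` is an elliptic curve defined over `𝔽_ℓ ⊂ k`, `ℓ` odd -/
structure FrobHyp (k : Type*) [Field k] (ℓ : ℕ) (A B : k) : Prop where
  prime : ℓ.Prime
  char : CharP k ℓ
  odd : ℓ ≠ 2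
  hA : A ^ ℓ = A
  hB : B ^ ℓ = B
  hΔ : 4 * A ^ 3 + 27 * B ^ 2 ≠ 0

variable {k : Type*} [Field k] {ℓ : ℕ} {A B : k}

theorem FrobHyp.two_ne_zero (H : FrobHyp k ℓ A B) : (2 : k) ≠ 0 := by
  have := H.char
  intro h
  have h' : ((2 : ℕ) : k) = 0 := by exact_mod_cast h
  rw [CharP.cast_eq_zero_iff k ℓ] at h'
  exact H.odd ((Nat.prime_dvd_prime_iff_eq H.prime Nat.prime_two).mp h')

theorem lam_ne_zero (A B : k) : lam A B ≠ 0 := gen_lam_ne_zero A B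

theorem FrobHyp.exists_odd (H : FrobHyp k ℓ A B) (n : ℕ) : ∃ m, ℓ ^ n = 2 * m + 1 :=
  ((H.prime.eq_two_or_odd').resolve_left H.odd).pow

theorem eta_pow_fix {a : k} (h : a ^ ℓ = a) (n : ℕ) : a ^ (ℓ ^ n) = a := by
  induction n with
  | zero => simp
  | succ n ih => rw [pow_succ, pow_mul, ih, h]

theorem eta_lam_pow (H : FrobHyp k ℓ A B) (n : ℕ) :
    lam A B ^ (ℓ ^ n) = (RatFunc.X ^ (ℓ ^ n)) ^ 3 + RatFunc.C A * RatFunc.X ^ (ℓ ^ n) +
      RatFunc.C B := by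
  have := H.char
  have : ExpChar k ℓ := ExpChar.prime H.prime
  have : ExpChar (RatFunc k) ℓ :=
    expChar_of_injective_algebraMap (algebraMap k (RatFunc k)).injective ℓ
  have h := iterateFrobenius_def (R := RatFunc k) ℓ n (lam A B)
  rw [← h, lam, map_add, map_add, map_mul, map_pow]
  simp only [iterateFrobenius_def]
  rw [← map_pow, ← map_pow, eta_pow_fix H.hA, eta_pow_fix H.hB]

theorem phi_nonsingular (H : FrobHyp k ℓ A B) (n : ℕ) :
    (sw (TA A B) (TB A B)).toAffine.Nonsingular (xPhi A B ℓ n) (yPhi A B ℓ n) := by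
  have hl := lam_ne_zero A B
  refine sw_nonsingular ?_ ?_ ?_
  · have e : 4 * TA A B ^ 3 + 27 * TB A B ^ 2 =
        RatFunc.C (4 * A ^ 3 + 27 * B ^ 2) * lam A B ^ 6 := by
      simp only [TA, TB, map_add, map_mul, map_pow, map_ofNat]
      ring
    rw [e]
    exact mul_ne_zero ((_root_.map_ne_zero _).mpr H.hΔ) (pow_ne_zero _ hl)
  · have e : (2 : RatFunc k) = RatFunc.C 2 := by rw [map_ofNat]
    rw [e]
    exact (_root_.map_ne_zero _).mpr H.two_ne_zero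
  · obtain ⟨m, hm⟩ := H.exists_odd n
    have h1 := eta_lam_pow H n
    have e1 : (ℓ ^ n - 1) / 2 = m := by omega
    rw [yPhi, xPhi, e1]
    rw [hm] at h1 ⊢
    have e2 : (lam A B ^ 2 * lam A B ^ m) ^ 2 = lam A B ^ 3 * lam A B ^ (2 * m + 1) := by ring
    rw [e2, h1]
    ring

/-- the point `Φⁿ η` -/
def PhiPt (H : FrobHyp k ℓ A B) (n : ℕ) : TPt A B := .some _ _ (phi_nonsingular H n)

theorem dg_PhiPt (H : FrobHyp k ℓ A B) (n : ℕ) : dg A B (PhiPt H n) = (ℓ : ℤ) ^ n := by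
  have hl := lam_ne_zero A B
  show (rdeg (xPhi A B ℓ n / lam A B) : ℤ) = _
  have e : xPhi A B ℓ n / lam A B = algebraMap k[X] (RatFunc k) (X ^ (ℓ ^ n)) := by
    rw [xPhi, mul_div_cancel_left₀ _ hl, map_pow, RatFunc.algebraMap_X]
  rw [e, rdeg, RatFunc.num_algebraMap, RatFunc.denom_algebraMap, natDegree_X_pow, natDegree_one,
    max_eq_left (Nat.zero_le _)]
  push_cast
  rfl

/-- `φ` is the Frobenius endomorphism of `E(k)` -/
def IsFrob [DecidableEq k] (ℓ : ℕ) (φ : AddMonoid.End (Pt A B)) : Prop :=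
  ∀ (x y : k) (h : (sw A B).toAffine.Nonsingular x y),
    ∃ h' : (sw A B).toAffine.Nonsingular (x ^ ℓ) (y ^ ℓ), φ (.some x y h) = .some (x ^ ℓ) (y ^ ℓ) h'

theorem IsFrob.pow_apply [DecidableEq k] {φ : AddMonoid.End (Pt A B)} (hφ : IsFrob ℓ φ) (n : ℕ)
    (x y : k) (h : (sw A B).toAffine.Nonsingular x y) :
    ∃ h' : (sw A B).toAffine.Nonsingular (x ^ (ℓ ^ n)) (y ^ (ℓ ^ n)),
      (φ ^ n) (.some x y h) = .some (x ^ (ℓ ^ n)) (y ^ (ℓ ^ n)) h' := by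
  induction n with
  | zero =>
    rw [pow_zero]
    exact redadd_some_eq h (by simp) (by simp)
  | succ n ih =>
    obtain ⟨h', e⟩ := ih
    obtain ⟨h'', e'⟩ := hφ _ _ h'
    obtain ⟨h3, e3⟩ := redadd_some_eq h'' (x' := x ^ (ℓ ^ (n + 1))) (y' := y ^ (ℓ ^ (n + 1)))
      (by rw [pow_succ, pow_mul]) (by rw [pow_succ, pow_mul])
    refine ⟨h3, ?_⟩
    rw [pow_succ']
    show φ ((φ ^ n) _) = _
    rw [e, e', e3]

/-- [S52/T-ETA] -/
theorem realizes_PhiPt [DecidableEq k] (H : FrobHyp k ℓ A B) {φ : AddMonoid.End (Pt A B)}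
    (hφ : IsFrob ℓ φ) (n : ℕ) : Realizes A B (PhiPt H n) (φ ^ n) := by
  refine ⟨∅, Set.finite_empty, fun x₀ y₀ hy h hn _ => ?_⟩
  obtain ⟨h', e⟩ := hφ.pow_apply n x₀ y₀ hn
  rw [e]
  obtain ⟨m, hm⟩ := H.exists_odd n
  have e1 : (ℓ ^ n - 1) / 2 = m := by omega
  let L : (evData A B x₀ y₀ hy h).O := ⟨lam A B, lam_mem_regRing A B x₀⟩
  let Xr : (evData A B x₀ y₀ hy h).O := ⟨RatFunc.X, X_mem_regRing x₀⟩
  have eL : (evData A B x₀ y₀ hy h).π L = y₀ ^ 2 := by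
    show rv x₀ (lam A B) = _
    rw [rv_lam, h]
  have eX : (evData A B x₀ y₀ hy h).π Xr = x₀ := by
    show rv x₀ RatFunc.X = _
    rw [rv_X]
  refine RedData.rel_some _ (L * Xr ^ (ℓ ^ n)) (L ^ 2 * L ^ ((ℓ ^ n - 1) / 2)) rfl rfl h' ?_ ?_
  · rw [map_mul, map_pow, eL, eX]
    exact mul_comm _ _
  · rw [map_mul, map_pow, map_pow, eL, e1, hm]
    show _ = y₀ ^ (2 * m + 1) * y₀ ^ 3
    ring

/-- the Frobenius endomorphism exists (`exists_mapPt` for `frobenius k ℓ`) -/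
theorem exists_isFrob [DecidableEq k] (H : FrobHyp k ℓ A B) :
    ∃ φ : AddMonoid.End (Pt A B), IsFrob ℓ φ ∧ Function.Injective φ := by
  have := H.char
  have : ExpChar k ℓ := ExpChar.prime H.prime
  obtain ⟨F, hinj, hF⟩ := exists_mapPt (frobenius k ℓ) H.two_ne_zero (A := A) (B := B)
    (A' := A) (B' := B) H.hA H.hB
  exact ⟨F, fun x y h => hF x y h, hinj⟩

end Fermat.Agent.S52.T
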