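import Fermat.Agent.S52.T.Tw

/-!
# S52/T-GA : generic additivity of the evaluation; calculus of `Realizes`

`k` algebraically closed (only used: `k` infinite, and `E(k)` is infinite: for every `x₀` there is `y₀` with `y₀² = f(x₀)`), `2 ≠ 0`, `Δ ≠ 0`.

* `realizes_zero`: `Rel 0 0`.   `realizes_neg`: `RedData.rel_neg`.
* `realizes_add`: `S := S₁ ∪ S₂ ∪ S'` where `S'` is chosen so that the hypotheses `hi`, `hi'` of `RedData.rel_add` hold for `x₀ ∉ S'`:
  if `Q₁` or `Q₂ = 0` they are trivial (`Rel` sends affine points to affine points).  `Qᵢ = (ξᵢ, υᵢ)`: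
  if `ξ₁ ≠ ξ₂` take `S' = {x₀ | rv x₀ (ξ₁ - ξ₂) = 0}` (`finite_rv_eq_zero`) : the reductions have different abscissae, so `hi`, `hi'` are vacuous.
  if `ξ₁ = ξ₂` and `υ₁ = υ₂`: `hi` is true; `hi'`: if `υ₁ = 0` then `Q₁ = -Q₂` is true; otherwise `S' = {rv x₀ υ₁ = 0}`: the reductions
  `(x̄, ȳ)`, `(x̄, ȳ)` with `ȳ ≠ 0` are not opposite (`2 ≠ 0`).   `ξ₁ = ξ₂`, `υ₁ = -υ₂ ≠ υ₂`: symmetric.
* `realizes_zsmul`: induction.
* `realizes_inj`: `Q`, `Q'` realise the same `α`: for `x₀ ∉ S ∪ S'` (and `f(x₀) ≠ 0`) choose `y₀`; `Rel Q R`, `Rel Q' R`: both `0` or both affine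
  with `rv x₀ ξ = rv x₀ ξ'`, `rv x₀ υ = rv x₀ υ'`; `eq_of_rv_eq`.
* `realizes_unique`: `α`, `α'` agree on the cofinite set `{(x₀,y₀) | x₀ ∉ S ∪ S', y₀ ≠ 0}` of the infinite group `E(k)`
  (`RedData.rel_unique`).  Two homomorphisms which agree outside a finite set `T` agree everywhere: given `P`, choose `P'` with `P' ∉ T`,
  `P + P' ∉ T` (possible: infinitely many `P'`).   `cofinite_ext` is this statement.
-/

set_option autoImplicit false
set_option linter.unusedSectionVars false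

noncomputable section

namespace Fermat.Agent.S52.T

open Polynomial WeierstrassCurve

variable {k : Type*} [Field k] [DecidableEq k] {A B : k}

theorem realizes_zero : Realizes A B 0 0 :=
  ⟨∅, Set.finite_empty, fun _ _ _ _ _ _ => rfl⟩

theorem realizes_neg {Q : TPt A B} {α : AddMonoid.End (Pt A B)} (h : Realizes A B Q α) :
    Realizes A B (-Q) (-α) := by
  obtain ⟨S, hS, h⟩ := h
  exact ⟨S, hS, fun x₀ y₀ hy he hn hx => RedData.rel_neg (h x₀ y₀ hy he hn hx)⟩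

omit [DecidableEq k] in
/-- two different points of the twisted curve have different reductions at almost all points -/
theorem gen_sep (Q₁ Q₂ : TPt A B) : ∃ S : Set k, S.Finite ∧
    ∀ (x₀ y₀ : k) (hy : y₀ ≠ 0) (h : y₀ ^ 2 = x₀ ^ 3 + A * x₀ + B), x₀ ∉ S → ∀ R : Pt A B,
      (evData A B x₀ y₀ hy h).Rel Q₁ R → (evData A B x₀ y₀ hy h).Rel Q₂ R → Q₁ = Q₂ := by
  rcases Q₁ with _ | ⟨ξ₁, υ₁, n₁⟩ <;> rcases Q₂ with _ | ⟨ξ₂, υ₂, n₂⟩
  · exact ⟨∅, Set.finite_empty, fun _ _ _ _ _ _ _ _ => rfl⟩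
  · refine ⟨∅, Set.finite_empty, fun x₀ y₀ hy h _ R r₁ r₂ => ?_⟩
    have hR : R = 0 := r₁
    subst hR
    exact (RedData.rel_eq_zero r₂).symm
  · refine ⟨∅, Set.finite_empty, fun x₀ y₀ hy h _ R r₁ r₂ => ?_⟩
    have hR : R = 0 := r₂
    subst hR
    exact RedData.rel_eq_zero r₁
  · by_cases hx : ξ₁ - ξ₂ = 0
    · by_cases hy' : υ₁ - υ₂ = 0
      · have e1 := sub_eq_zero.mp hx
        have e2 := sub_eq_zero.mp hy'
        subst e1 e2
        exact ⟨∅, Set.finite_empty, fun _ _ _ _ _ _ _ _ => rfl⟩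
      · refine ⟨_, finite_rv_eq_zero hy', fun x₀ y₀ hy h hS R r₁ r₂ => (hS ?_).elim⟩
        obtain ⟨X₁, Y₁, x₁', y₁', h₁', eX₁, eY₁, rfl, ex₁, ey₁⟩ := RedData.rel_some_elim r₁
        obtain ⟨X₂, Y₂, x₂', y₂', h₂', eX₂, eY₂, e, ex₂, ey₂⟩ := RedData.rel_some_elim r₂
        rw [Affine.Point.some.injEq] at e
        have h0 : (evData A B x₀ y₀ hy h).π (Y₁ - Y₂) = 0 := by
          rw [map_sub]
          exact sub_eq_zero.mpr (ey₁.trans (by rw [e.2]; exact ey₂.symm))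
        rw [← eY₁, ← eY₂]
        exact ⟨(Y₁ - Y₂).2, h0⟩
    · refine ⟨_, finite_rv_eq_zero hx, fun x₀ y₀ hy h hS R r₁ r₂ => (hS ?_).elim⟩
      obtain ⟨X₁, Y₁, x₁', y₁', h₁', eX₁, eY₁, rfl, ex₁, ey₁⟩ := RedData.rel_some_elim r₁
      obtain ⟨X₂, Y₂, x₂', y₂', h₂', eX₂, eY₂, e, ex₂, ey₂⟩ := RedData.rel_some_elim r₂
      rw [Affine.Point.some.injEq] at e
      have h0 : (evData A B x₀ y₀ hy h).π (X₁ - X₂) = 0 := by
        rw [map_sub]
        exact sub_eq_zero.mpr (ex₁.trans (by rw [e.1]; exact ex₂.symm))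
      rw [← eX₁, ← eX₂]
      exact ⟨(X₁ - X₂).2, h0⟩

/-- [S52/T-GA] -/
theorem realizes_add (h2 : (2 : k) ≠ 0) {Q₁ Q₂ : TPt A B} {α₁ α₂ : AddMonoid.End (Pt A B)}
    (h₁ : Realizes A B Q₁ α₁) (h₂ : Realizes A B Q₂ α₂) : Realizes A B (Q₁ + Q₂) (α₁ + α₂) := by
  obtain ⟨S₁, hS₁, h₁⟩ := h₁
  obtain ⟨S₂, hS₂, h₂⟩ := h₂
  obtain ⟨S₃, hS₃, h₃⟩ := gen_sep Q₁ Q₂
  obtain ⟨S₄, hS₄, h₄⟩ := gen_sep Q₁ (-Q₂)
  refine ⟨S₁ ∪ S₂ ∪ S₃ ∪ S₄, ((hS₁.union hS₂).union hS₃).union hS₄, fun x₀ y₀ hy h hn hx => ?_⟩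
  simp only [Set.mem_union, not_or] at hx
  obtain ⟨⟨⟨a1, a2⟩, a3⟩, a4⟩ := hx
  have r₁ := h₁ x₀ y₀ hy h hn a1
  have r₂ := h₂ x₀ y₀ hy h hn a2
  exact RedData.rel_add h2 r₁ r₂ (fun e => h₃ x₀ y₀ hy h a3 _ r₁ (e ▸ r₂))
    (fun e => h₄ x₀ y₀ hy h a4 _ r₁ (e ▸ RedData.rel_neg r₂))

theorem realizes_sub (h2 : (2 : k) ≠ 0) {Q₁ Q₂ : TPt A B} {α₁ α₂ : AddMonoid.End (Pt A B)}
    (h₁ : Realizes A B Q₁ α₁) (h₂ : Realizes A B Q₂ α₂) : Realizes A B (Q₁ - Q₂) (α₁ - α₂) := by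
  rw [sub_eq_add_neg, sub_eq_add_neg]
  exact realizes_add h2 h₁ (realizes_neg h₂)

theorem realizes_zsmul (h2 : (2 : k) ≠ 0) {Q : TPt A B} {α : AddMonoid.End (Pt A B)}
    (h : Realizes A B Q α) (n : ℤ) : Realizes A B (n • Q) (n • α) := by
  induction n using Int.induction_on with
  | zero => rw [zero_zsmul, zero_zsmul]; exact realizes_zero
  | succ n ih => rw [add_zsmul, add_zsmul, one_zsmul, one_zsmul]; exact realizes_add h2 ih h
  | pred n ih => rw [sub_zsmul, sub_zsmul, one_zsmul, one_zsmul]; exact realizes_sub h2 ih h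

omit [DecidableEq k] in
theorem gen_fpol_ne_zero (A B : k) : (X ^ 3 + C A * X + C B : k[X]) ≠ 0 := by
  intro h
  have := congrArg (fun p => coeff p 3) h
  simp at this

omit [DecidableEq k] in
theorem gen_lam_eq (A B : k) :
    lam A B = algebraMap k[X] (RatFunc k) (X ^ 3 + C A * X + C B) := by
  simp [lam, RatFunc.algebraMap_X, RatFunc.algebraMap_C]

omit [DecidableEq k] in
theorem gen_lam_ne_zero (A B : k) : lam A B ≠ 0 := by
  rw [gen_lam_eq]
  exact RatFunc.algebraMap_ne_zero (gen_fpol_ne_zero A B)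

omit [DecidableEq k] in
theorem gen_finite_roots (A B : k) : {x : k | x ^ 3 + A * x + B = 0}.Finite := by
  refine (Polynomial.finite_setOfPred_isRoot (gen_fpol_ne_zero A B)).subset fun a ha => ?_
  rw [Set.mem_ofPred_eq] at ha
  show IsRoot _ a
  simp [IsRoot, ha]

omit [DecidableEq k] in
theorem gen_finite_sqrt (c : k) : {y : k | y ^ 2 = c}.Finite := by
  by_cases h : ∃ y₁ : k, y₁ ^ 2 = c
  · obtain ⟨y₁, rfl⟩ := h
    refine (Set.toFinite {y₁, -y₁}).subset fun y hy => ?_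
    rw [Set.mem_ofPred_eq] at hy
    exact sq_eq_sq_iff_eq_or_eq_neg.mp hy
  · refine Set.finite_empty.subset fun y hy => ?_
    exact (h ⟨y, hy⟩).elim

/-- the set of points of `E(k)` with abscissa in a finite set is finite -/
theorem finite_pts {S : Set k} (hS : S.Finite) :
    {P : Pt A B | P = 0 ∨ ∃ x y h, P = .some x y h ∧ (x ∈ S ∨ y = 0)}.Finite := by
  have hS' : (S ∪ {x : k | x ^ 3 + A * x + B = 0}).Finite := hS.union (gen_finite_roots A B)
  let g : Pt A B → Option (k × k) := fun P => match P with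
    | .zero => none
    | .some x y _ => some (x, y)
  have hg : Function.Injective g := by
    rintro (_ | ⟨x₁, y₁, h₁⟩) (_ | ⟨x₂, y₂, h₂⟩) h
    · rfl
    · exact absurd h (by simp [g])
    · exact absurd h (by simp [g])
    · have h' : (some (x₁, y₁) : Option (k × k)) = some (x₂, y₂) := h
      simp only [Option.some.injEq, Prod.mk.injEq] at h'
      obtain ⟨rfl, rfl⟩ := h'
      rfl
  have hT : (⋃ x ∈ (S ∪ {x : k | x ^ 3 + A * x + B = 0}),
      (fun y => (x, y)) '' {y : k | y ^ 2 = x ^ 3 + A * x + B}).Finite :=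
    hS'.biUnion fun x _ => (gen_finite_sqrt _).image _
  have hT' := (hT.image (some : k × k → Option (k × k))).union (Set.finite_singleton none)
  refine (hT'.preimage hg.injOn).subset ?_
  rintro P (rfl | ⟨x, y, h, rfl, hxy⟩)
  · right
    rfl
  · left
    have he : y ^ 2 = x ^ 3 + A * x + B := (sw_equation A B x y).mp h.1
    refine ⟨(x, y), ?_, rfl⟩
    simp only [Set.mem_iUnion]
    refine ⟨x, ?_, y, he, rfl⟩
    rcases hxy with hx | hy
    · exact Or.inl hx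
    · right
      rw [hy] at he
      show x ^ 3 + A * x + B = 0
      rw [← he]; ring

omit [DecidableEq k] in
theorem gen_exists_pt [IsAlgClosed k] (h2 : (2 : k) ≠ 0) (hΔ : 4 * A ^ 3 + 27 * B ^ 2 ≠ 0)
    (x : k) : ∃ y : k, y ^ 2 = x ^ 3 + A * x + B ∧ (sw A B).toAffine.Nonsingular x y := by
  obtain ⟨y, hy⟩ := IsAlgClosed.exists_pow_nat_eq (x ^ 3 + A * x + B) (n := 2) (by norm_num)
  exact ⟨y, hy, sw_nonsingular hΔ h2 hy⟩

theorem infinite_pts [IsAlgClosed k] (h2 : (2 : k) ≠ 0) (hΔ : 4 * A ^ 3 + 27 * B ^ 2 ≠ 0) :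
    Infinite (Pt A B) := by
  have : Infinite k := IsAlgClosed.instInfinite
  choose y hy hn using gen_exists_pt (A := A) (B := B) h2 hΔ
  refine Infinite.of_injective (fun x => (Affine.Point.some x (y x) (hn x) : Pt A B)) ?_
  intro x₁ x₂ h
  have h' : (Affine.Point.some x₁ (y x₁) (hn x₁) : Pt A B) = Affine.Point.some x₂ (y x₂) (hn x₂) := h
  rw [Affine.Point.some.injEq] at h'
  exact h'.1

/-- two endomorphisms of an infinite group which agree outside a finite set are equal -/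
theorem cofinite_ext {G : Type*} [AddCommGroup G] [Infinite G] {α β : AddMonoid.End G} {T : Set G}
    (hT : T.Finite) (h : ∀ P, P ∉ T → α P = β P) : α = β := by
  ext P
  have hfin : (T ∪ (fun P' => P + P') ⁻¹' T).Finite :=
    hT.union (hT.preimage (add_right_injective P).injOn)
  obtain ⟨P', hP'⟩ := hfin.infinite_compl.nonempty
  simp only [Set.mem_compl_iff, Set.mem_union, Set.mem_preimage, not_or] at hP'
  have h1 := h _ hP'.1
  have h2 := h _ hP'.2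
  rw [map_add, map_add, h1] at h2
  exact add_right_cancel h2

theorem realizes_unique [IsAlgClosed k] (h2 : (2 : k) ≠ 0) (hΔ : 4 * A ^ 3 + 27 * B ^ 2 ≠ 0)
    {Q : TPt A B} {α α' : AddMonoid.End (Pt A B)} (h : Realizes A B Q α) (h' : Realizes A B Q α') :
    α = α' := by
  obtain ⟨S, hS, h⟩ := h
  obtain ⟨S', hS', h'⟩ := h'
  have := infinite_pts (A := A) (B := B) h2 hΔ
  refine cofinite_ext (finite_pts (A := A) (B := B) (hS.union hS')) fun P hP => ?_
  rw [Set.mem_ofPred_eq, not_or] at hP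
  rcases P with _ | ⟨x, y, hn⟩
  · exact absurd rfl hP.1
  · have hxy : ¬ ((x ∈ S ∪ S') ∨ y = 0) := fun hc => hP.2 ⟨x, y, hn, rfl, hc⟩
    rw [not_or, Set.mem_union, not_or] at hxy
    have he : y ^ 2 = x ^ 3 + A * x + B := (sw_equation A B x y).mp hn.1
    exact RedData.rel_unique (h x y hxy.2 he hn hxy.1.1) (h' x y hxy.2 he hn hxy.1.2)

theorem realizes_inj [IsAlgClosed k] (h2 : (2 : k) ≠ 0) (hΔ : 4 * A ^ 3 + 27 * B ^ 2 ≠ 0)
    {Q Q' : TPt A B} {α : AddMonoid.End (Pt A B)} (h : Realizes A B Q α) (h' : Realizes A B Q' α) :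
    Q = Q' := by
  obtain ⟨S, hS, h⟩ := h
  obtain ⟨S', hS', h'⟩ := h'
  obtain ⟨S₃, hS₃, h₃⟩ := gen_sep Q Q'
  have : Infinite k := IsAlgClosed.instInfinite
  have hfin := ((hS.union hS').union hS₃).union (gen_finite_roots A B)
  obtain ⟨x, hx⟩ := hfin.infinite_compl.nonempty
  simp only [Set.mem_compl_iff, Set.mem_union, not_or, Set.mem_ofPred_eq] at hx
  obtain ⟨⟨⟨a1, a2⟩, a3⟩, a4⟩ := hx
  obtain ⟨y, he, hn⟩ := gen_exists_pt (A := A) (B := B) h2 hΔ x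
  have hy : y ≠ 0 := by
    rintro rfl
    apply a4
    rw [← he]; ring
  exact h₃ x y hy he a3 _ (h x y hy he hn a1) (h' x y hy he hn a2)

end Fermat.Agent.S52.T
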