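import Mathlib

/-!
# S52/T-PL : the exact parallelogram law for degrees of rational functions (Mathlib only)

`k` algebraically closed, `2 ≠ 0`, `4 A³ + 27 B² ≠ 0`.
`g0 g1 g2` are the three quadratic forms in `(t, u, v) = (q₁q₂, p₁q₂ + p₂q₁, p₁p₂)` with
`[1 : x₃ + x₄ : x₃ x₄] = [g0 : g1 : g2]` for `x₃ = x(P₁+P₂)`, `x₄ = x(P₁-P₂)` on `y² = x³ + A x + B`.

## `ncz` (no common zero, any field)
`t = 0`: `g0 = u² = 0`, then `g2 = v² = 0`.  `t ≠ 0`: put `x = u / (2 t)`; `g0 = 0` gives `v = x² t`;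
`g1 = t² ψ(x)`, `ψ = 4x³ + 4Ax + 4B`; `g2 = t² φ(x)`, `φ = x⁴ - 2Ax² - 8Bx + A²`, and
`(12x² + 16A) φ - (3x³ - 5Ax - 27B) ψ = 4 (4A³ + 27B²)`.

## `sym_ncz`
`(a₁,b₁) ≠ 0`, `(a₂,b₂) ≠ 0` (pairs in a field) ⇒ `(b₁b₂, a₁b₂ + a₂b₁, a₁a₂) ≠ 0`.

## `PL`
Call a triple `(L0, L1, L2)` of polynomials *primitive of degree `D`* if the three have no common root,
`natDegree ≤ D` and the coefficients of degree `D` are not all `0`.
* `(q₃q₄, p₃q₄+p₄q₃, p₃p₄)` is primitive of degree `hd p₃ q₃ + hd p₄ q₄` (`sym_ncz` applied to the values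
  at a root, resp. to the coefficients of degree `hd`; `Polynomial.coeff_mul_add_eq_of_natDegree_le`).
* `(t,u,v)` is primitive of degree `D = hd p₁ q₁ + hd p₂ q₂`, hence `(g0,g1,g2)(t,u,v)` is primitive of
  degree `2 D` (`ncz` applied to the values at a root, resp. to the coefficients of degree `D`:
  the coefficient of degree `2D` of `g_i(t,u,v)` is `g_i` of the coefficients of degree `D`).
* two primitive triples with `r L = r' R`, `r, r' ≠ 0`: a root `c` of `r` of multiplicity `m` is a root of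
  `r'` of multiplicity `≥ m` (some `R_i(c) ≠ 0` ...); simplest: `gcd` of a primitive triple is a unit
  (alg. closed), so `r ∣ r'` and `r' ∣ r`, `r' = c r` with `c` a non zero constant, `L = c R`,
  and the degrees agree.
-/

set_option autoImplicit false

namespace Fermat.Agent.S52.T

open Polynomial

section forms
variable {R : Type*} [CommRing R] (A B t u v : R)
/-- `(x₁ - x₂)²` -/
def g0 : R := u ^ 2 - 4 * t * v
/-- numerator of `x₃ + x₄` -/
def g1 : R := 2 * u * (A * t + v) + 4 * B * t ^ 2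
/-- numerator of `x₃ x₄` -/
def g2 : R := (v - A * t) ^ 2 - 4 * B * t * u
end forms

/-- no common zero -/
theorem ncz {F : Type*} [Field F] (h2 : (2 : F) ≠ 0) {A B : F} (hΔ : 4 * A ^ 3 + 27 * B ^ 2 ≠ 0)
    {t u v : F} (e0 : g0 t u v = 0) (e1 : g1 A B t u v = 0) (e2 : g2 A B t u v = 0) :
    t = 0 ∧ u = 0 ∧ v = 0 := by
  unfold g0 at e0
  unfold g1 at e1
  unfold g2 at e2
  have h4 : (4 : F) ≠ 0 := by
    have : (4 : F) = 2 * 2 := by norm_num
    rw [this]; exact mul_ne_zero h2 h2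
  by_cases ht : t = 0
  · subst ht
    have hu : u = 0 := by
      have : u ^ 2 = 0 := by linear_combination e0
      exact pow_eq_zero_iff (two_ne_zero) |>.1 this
    subst hu
    have hv : v = 0 := by
      have : v ^ 2 = 0 := by linear_combination e2
      exact pow_eq_zero_iff (two_ne_zero) |>.1 this
    exact ⟨rfl, rfl, hv⟩
  · exfalso
    set x := u / (2 * t) with hx
    have hu : u = 2 * t * x := by rw [hx]; field_simp
    have hv : v = t * x ^ 2 := by
      have h : 4 * t * (t * x ^ 2 - v) = 0 := by rw [hu] at e0; linear_combination e0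
      rcases mul_eq_zero.1 h with h | h
      · exact absurd h (mul_ne_zero h4 ht)
      · linear_combination -h
    have ht2 : t ^ 2 ≠ 0 := pow_ne_zero 2 ht
    have hψ : 4 * x ^ 3 + 4 * A * x + 4 * B = 0 := by
      have h : t ^ 2 * (4 * x ^ 3 + 4 * A * x + 4 * B) = 0 := by
        rw [hu, hv] at e1; linear_combination e1
      exact (mul_eq_zero.1 h).resolve_left ht2
    have hφ : x ^ 4 - 2 * A * x ^ 2 - 8 * B * x + A ^ 2 = 0 := by
      have h : t ^ 2 * (x ^ 4 - 2 * A * x ^ 2 - 8 * B * x + A ^ 2) = 0 := by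
        rw [hu, hv] at e2; linear_combination e2
      exact (mul_eq_zero.1 h).resolve_left ht2
    have : 4 * (4 * A ^ 3 + 27 * B ^ 2) = 0 := by
      linear_combination (12 * x ^ 2 + 16 * A) * hφ - (3 * x ^ 3 - 5 * A * x - 27 * B) * hψ
    exact (mul_ne_zero h4 hΔ) this

theorem sym_ncz {F : Type*} [Field F] {a₁ b₁ a₂ b₂ : F} (h₁ : a₁ ≠ 0 ∨ b₁ ≠ 0) (h₂ : a₂ ≠ 0 ∨ b₂ ≠ 0) :
    b₁ * b₂ ≠ 0 ∨ a₁ * b₂ + a₂ * b₁ ≠ 0 ∨ a₁ * a₂ ≠ 0 := by
  by_cases hb₁ : b₁ = 0
  · have ha₁ : a₁ ≠ 0 := h₁.resolve_right (not_not.2 hb₁)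
    by_cases hb₂ : b₂ = 0
    · exact Or.inr (Or.inr (mul_ne_zero ha₁ (h₂.resolve_right (not_not.2 hb₂))))
    · refine Or.inr (Or.inl ?_)
      rw [hb₁, mul_zero, add_zero]
      exact mul_ne_zero ha₁ hb₂
  · by_cases hb₂ : b₂ = 0
    · refine Or.inr (Or.inl ?_)
      rw [hb₂, mul_zero, zero_add]
      exact mul_ne_zero (h₂.resolve_right (not_not.2 hb₂)) hb₁
    · exact Or.inl (mul_ne_zero hb₁ hb₂)

/-- the degree of a projective pair of polynomials -/
noncomputable def hd {k : Type*} [Field k] (p q : k[X]) : ℕ := max p.natDegree q.natDegree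

/-- primitive triples of degree `D` -/
structure PLPrim {k : Type*} [Field k] (L0 L1 L2 : k[X]) (D : ℕ) : Prop where
  root : ∀ c : k, L0.eval c ≠ 0 ∨ L1.eval c ≠ 0 ∨ L2.eval c ≠ 0
  d0 : L0.natDegree ≤ D
  d1 : L1.natDegree ≤ D
  d2 : L2.natDegree ≤ D
  top : L0.coeff D ≠ 0 ∨ L1.coeff D ≠ 0 ∨ L2.coeff D ≠ 0

theorem pl_bezout {k : Type*} [Field k] [IsAlgClosed k] {L0 L1 L2 : k[X]} {D : ℕ}
    (h : PLPrim L0 L1 L2 D) : ∃ a0 a1 a2 : k[X], a0 * L0 + a1 * L1 + a2 * L2 = 1 := by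
  classical
  set G := EuclideanDomain.gcd L0 (EuclideanDomain.gcd L1 L2) with hG
  have g0' : G ∣ L0 := EuclideanDomain.gcd_dvd_left _ _
  have g12 : G ∣ EuclideanDomain.gcd L1 L2 := EuclideanDomain.gcd_dvd_right _ _
  have g1' : G ∣ L1 := g12.trans (EuclideanDomain.gcd_dvd_left _ _)
  have g2' : G ∣ L2 := g12.trans (EuclideanDomain.gcd_dvd_right _ _)
  have hG0 : G ≠ 0 := by
    intro h0
    rw [h0] at g0' g1' g2'
    rcases h.top with t | t | t
    · exact t (by rw [zero_dvd_iff.1 g0', coeff_zero])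
    · exact t (by rw [zero_dvd_iff.1 g1', coeff_zero])
    · exact t (by rw [zero_dvd_iff.1 g2', coeff_zero])
  have hunit : IsUnit G := by
    by_contra hn
    have hdeg : G.degree ≠ 0 := by
      intro hd0
      exact hn (isUnit_iff_degree_eq_zero.2 hd0)
    obtain ⟨c, hc⟩ := IsAlgClosed.exists_root G hdeg
    have r0 : L0.eval c = 0 := eval_eq_zero_of_dvd_of_eval_eq_zero g0' hc
    have r1 : L1.eval c = 0 := eval_eq_zero_of_dvd_of_eval_eq_zero g1' hc
    have r2 : L2.eval c = 0 := eval_eq_zero_of_dvd_of_eval_eq_zero g2' hc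
    rcases h.root c with t | t | t
    · exact t r0
    · exact t r1
    · exact t r2
  obtain ⟨w, hw⟩ := hunit.exists_left_inv
  have e1 := EuclideanDomain.gcd_eq_gcd_ab L0 (EuclideanDomain.gcd L1 L2)
  have e2 := EuclideanDomain.gcd_eq_gcd_ab L1 L2
  refine ⟨w * EuclideanDomain.gcdA L0 (EuclideanDomain.gcd L1 L2),
    w * EuclideanDomain.gcdB L0 (EuclideanDomain.gcd L1 L2) * EuclideanDomain.gcdA L1 L2,
    w * EuclideanDomain.gcdB L0 (EuclideanDomain.gcd L1 L2) * EuclideanDomain.gcdB L1 L2, ?_⟩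
  rw [hG] at hw
  linear_combination hw - w * e1 -
    w * EuclideanDomain.gcdB L0 (EuclideanDomain.gcd L1 L2) * e2

theorem pl_dvd {k : Type*} [Field k] [IsAlgClosed k] {L0 L1 L2 R0 R1 R2 : k[X]} {D : ℕ}
    (h : PLPrim L0 L1 L2 D) {r r' : k[X]} (e0 : r * L0 = r' * R0) (e1 : r * L1 = r' * R1)
    (e2 : r * L2 = r' * R2) : r' ∣ r := by
  obtain ⟨a0, a1, a2, ha⟩ := pl_bezout h
  refine ⟨a0 * R0 + a1 * R1 + a2 * R2, ?_⟩
  calc r = r * (a0 * L0 + a1 * L1 + a2 * L2) := by rw [ha, mul_one]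
    _ = a0 * (r * L0) + a1 * (r * L1) + a2 * (r * L2) := by ring
    _ = r' * (a0 * R0 + a1 * R1 + a2 * R2) := by rw [e0, e1, e2]; ring

theorem pl_le {k : Type*} [Field k] {L0 L1 L2 R0 R1 R2 : k[X]} {D D' : ℕ}
    (h : PLPrim L0 L1 L2 D) (h' : PLPrim R0 R1 R2 D') {c : k[X]}
    (e0 : L0 = c * R0) (e1 : L1 = c * R1) (e2 : L2 = c * R2) (hc : c.natDegree = 0) : D ≤ D' := by
  by_contra hlt
  push Not at hlt
  have key : ∀ R : k[X], R.natDegree ≤ D' → (c * R).coeff D = 0 := by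
    intro R hR
    apply coeff_eq_zero_of_natDegree_lt
    calc (c * R).natDegree ≤ c.natDegree + R.natDegree := natDegree_mul_le
      _ ≤ 0 + D' := by rw [hc]; exact Nat.add_le_add_left hR 0
      _ < D := by rw [zero_add]; exact hlt
  rcases h.top with t | t | t
  · exact t (by rw [e0]; exact key _ h'.d0)
  · exact t (by rw [e1]; exact key _ h'.d1)
  · exact t (by rw [e2]; exact key _ h'.d2)

theorem pl_unique {k : Type*} [Field k] [IsAlgClosed k] {L0 L1 L2 R0 R1 R2 : k[X]} {D D' : ℕ}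
    (h : PLPrim L0 L1 L2 D) (h' : PLPrim R0 R1 R2 D') {r r' : k[X]} (hr : r ≠ 0)
    (e0 : r * L0 = r' * R0) (e1 : r * L1 = r' * R1) (e2 : r * L2 = r' * R2) : D = D' := by
  have d1 : r' ∣ r := pl_dvd h e0 e1 e2
  have d2 : r ∣ r' := pl_dvd h' e0.symm e1.symm e2.symm
  obtain ⟨w, hw⟩ := associated_of_dvd_dvd d2 d1
  -- `r * w = r'`
  have hwd : ((w : k[X]ˣ) : k[X]).natDegree = 0 := natDegree_eq_zero_of_isUnit w.isUnit
  have hwd' : ((w⁻¹ : k[X]ˣ) : k[X]).natDegree = 0 := natDegree_eq_zero_of_isUnit (w⁻¹).isUnit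
  have f : ∀ L R : k[X], r * L = r' * R → L = (w : k[X]) * R := by
    intro L R e
    rw [← hw, mul_assoc] at e
    exact mul_left_cancel₀ hr e
  have f' : ∀ L R : k[X], L = (w : k[X]) * R → R = ((w⁻¹ : k[X]ˣ) : k[X]) * L := by
    intro L R e
    rw [e, ← mul_assoc, Units.inv_mul, one_mul]
  exact le_antisymm (pl_le h h' (f _ _ e0) (f _ _ e1) (f _ _ e2) hwd)
    (pl_le h' h (f' _ _ (f _ _ e0)) (f' _ _ (f _ _ e1)) (f' _ _ (f _ _ e2)) hwd')

theorem pl_top_pair {k : Type*} [Field k] {p q : k[X]} (h : IsCoprime p q) :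
    p.coeff (hd p q) ≠ 0 ∨ q.coeff (hd p q) ≠ 0 := by
  have hne : p ≠ 0 ∨ q ≠ 0 := by
    by_contra hcon
    push Not at hcon
    obtain ⟨a, b, hab⟩ := h
    rw [hcon.1, hcon.2] at hab
    simp at hab
  unfold hd
  rcases le_total q.natDegree p.natDegree with hle | hle
  · rw [max_eq_left hle]
    by_cases hp : p = 0
    · right
      have hq : q ≠ 0 := hne.resolve_left (not_not.2 hp)
      rw [hp, natDegree_zero] at hle ⊢
      have : q.natDegree = 0 := Nat.le_zero.1 hle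
      rw [← this]
      exact leadingCoeff_ne_zero.2 hq
    · left
      exact leadingCoeff_ne_zero.2 hp
  · rw [max_eq_right hle]
    by_cases hq : q = 0
    · left
      have hp : p ≠ 0 := hne.resolve_right (not_not.2 hq)
      rw [hq, natDegree_zero] at hle ⊢
      have : p.natDegree = 0 := Nat.le_zero.1 hle
      rw [← this]
      exact leadingCoeff_ne_zero.2 hp
    · right
      exact leadingCoeff_ne_zero.2 hq

theorem pl_eval_pair {k : Type*} [Field k] {p q : k[X]} (h : IsCoprime p q) (c : k) :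
    p.eval c ≠ 0 ∨ q.eval c ≠ 0 := by
  by_contra hcon
  push Not at hcon
  obtain ⟨a, b, hab⟩ := h
  have := congrArg (eval c) hab
  simp [hcon.1, hcon.2] at this

theorem pl_sym {k : Type*} [Field k] {p q p' q' : k[X]} (h : IsCoprime p q) (h' : IsCoprime p' q') :
    PLPrim (q * q') (p * q' + p' * q) (p * p') (hd p q + hd p' q') := by
  have dp : p.natDegree ≤ hd p q := le_max_left _ _
  have dq : q.natDegree ≤ hd p q := le_max_right _ _
  have dp' : p'.natDegree ≤ hd p' q' := le_max_left _ _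
  have dq' : q'.natDegree ≤ hd p' q' := le_max_right _ _
  refine ⟨fun c => ?_, natDegree_mul_le_of_le dq dq', ?_, natDegree_mul_le_of_le dp dp', ?_⟩
  · simp only [eval_mul, eval_add]
    exact sym_ncz (pl_eval_pair h c) (pl_eval_pair h' c)
  · refine natDegree_add_le_of_degree_le (natDegree_mul_le_of_le dp dq') ?_
    rw [add_comm]
    exact natDegree_mul_le_of_le dp' dq
  · rw [coeff_add, coeff_mul_add_eq_of_natDegree_le dq dq', coeff_mul_add_eq_of_natDegree_le dp dq',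
      coeff_mul_add_eq_of_natDegree_le dp dp', add_comm (hd p q) (hd p' q'),
      coeff_mul_add_eq_of_natDegree_le dp' dq]
    exact sym_ncz (pl_top_pair h) (pl_top_pair h')

theorem pl_forms {k : Type*} [Field k] (h2 : (2 : k) ≠ 0) {A B : k}
    (hΔ : 4 * A ^ 3 + 27 * B ^ 2 ≠ 0) {t u v : k[X]} {D : ℕ} (h : PLPrim t u v D) :
    PLPrim (g0 t u v) (g1 (C A) (C B) t u v) (g2 (C A) (C B) t u v) (D + D) := by
  have f0 : g0 t u v = u * u - (C 4 * t) * v := by
    unfold g0; rw [map_ofNat C 4]; ring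
  have f1 : g1 (C A) (C B) t u v = (C 2 * u) * (C A * t + v) + (C (4 * B) * t) * t := by
    unfold g1; rw [map_ofNat C 2, C_mul, map_ofNat C 4]; ring
  have f2 : g2 (C A) (C B) t u v = (v - C A * t) * (v - C A * t) - (C (4 * B) * t) * u := by
    unfold g2; rw [C_mul, map_ofNat C 4]; ring
  have dC : ∀ (a : k) (w : k[X]), w.natDegree ≤ D → (C a * w).natDegree ≤ D := fun a w hw =>
    (natDegree_C_mul_le a w).trans hw
  have d1 : (C A * t + v).natDegree ≤ D := natDegree_add_le_of_degree_le (dC _ _ h.d0) h.d2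
  have d2 : (v - C A * t).natDegree ≤ D :=
    (natDegree_sub_le_of_le h.d2 (dC _ _ h.d0)).trans (max_self _).le
  refine ⟨fun c => ?_, ?_, ?_, ?_, ?_⟩
  · by_contra hcon
    push Not at hcon
    obtain ⟨c0, c1, c2⟩ := hcon
    have e0 : g0 (t.eval c) (u.eval c) (v.eval c) = 0 := by
      rw [← c0]; simp [g0]
    have e1 : g1 A B (t.eval c) (u.eval c) (v.eval c) = 0 := by
      rw [← c1]; simp [g1]
    have e2 : g2 A B (t.eval c) (u.eval c) (v.eval c) = 0 := by
      rw [← c2]; simp [g2]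
    obtain ⟨z0, z1, z2⟩ := ncz h2 hΔ e0 e1 e2
    rcases h.root c with r | r | r
    · exact r z0
    · exact r z1
    · exact r z2
  · rw [f0]
    exact (natDegree_sub_le_of_le (natDegree_mul_le_of_le h.d1 h.d1)
      (natDegree_mul_le_of_le (dC _ _ h.d0) h.d2)).trans (max_self _).le
  · rw [f1]
    exact natDegree_add_le_of_degree_le (natDegree_mul_le_of_le (dC _ _ h.d1) d1)
      (natDegree_mul_le_of_le (dC _ _ h.d0) h.d0)
  · rw [f2]
    exact (natDegree_sub_le_of_le (natDegree_mul_le_of_le d2 d2)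
      (natDegree_mul_le_of_le (dC _ _ h.d0) h.d1)).trans (max_self _).le
  · by_contra hcon
    push Not at hcon
    obtain ⟨c0, c1, c2⟩ := hcon
    rw [f0, coeff_sub, coeff_mul_add_eq_of_natDegree_le h.d1 h.d1,
      coeff_mul_add_eq_of_natDegree_le (dC _ _ h.d0) h.d2, coeff_C_mul] at c0
    rw [f1, coeff_add, coeff_mul_add_eq_of_natDegree_le (dC _ _ h.d1) d1,
      coeff_mul_add_eq_of_natDegree_le (dC _ _ h.d0) h.d0, coeff_C_mul, coeff_C_mul, coeff_add,
      coeff_C_mul] at c1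
    rw [f2, coeff_sub, coeff_mul_add_eq_of_natDegree_le d2 d2,
      coeff_mul_add_eq_of_natDegree_le (dC _ _ h.d0) h.d1, coeff_C_mul, coeff_sub,
      coeff_C_mul] at c2
    have e0 : g0 (t.coeff D) (u.coeff D) (v.coeff D) = 0 := by
      unfold g0; linear_combination c0
    have e1 : g1 A B (t.coeff D) (u.coeff D) (v.coeff D) = 0 := by
      unfold g1; linear_combination c1
    have e2 : g2 A B (t.coeff D) (u.coeff D) (v.coeff D) = 0 := by
      unfold g2; linear_combination c2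
    obtain ⟨z0, z1, z2⟩ := ncz h2 hΔ e0 e1 e2
    rcases h.top with r | r | r
    · exact r z0
    · exact r z1
    · exact r z2

/-- [S52/T-PL] -/
theorem PL {k : Type*} [Field k] [IsAlgClosed k] (h2 : (2 : k) ≠ 0) {A B : k}
    (hΔ : 4 * A ^ 3 + 27 * B ^ 2 ≠ 0) {p₁ q₁ p₂ q₂ p₃ q₃ p₄ q₄ : k[X]}
    (c₁ : IsCoprime p₁ q₁) (c₂ : IsCoprime p₂ q₂) (c₃ : IsCoprime p₃ q₃) (c₄ : IsCoprime p₄ q₄)
    {r r' : k[X]} (hr : r ≠ 0) (hr' : r' ≠ 0)
    (e0 : r * (q₃ * q₄) = r' * g0 (q₁ * q₂) (p₁ * q₂ + p₂ * q₁) (p₁ * p₂))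
    (e1 : r * (p₃ * q₄ + p₄ * q₃) = r' * g1 (C A) (C B) (q₁ * q₂) (p₁ * q₂ + p₂ * q₁) (p₁ * p₂))
    (e2 : r * (p₃ * p₄) = r' * g2 (C A) (C B) (q₁ * q₂) (p₁ * q₂ + p₂ * q₁) (p₁ * p₂)) :
    hd p₃ q₃ + hd p₄ q₄ = 2 * hd p₁ q₁ + 2 * hd p₂ q₂ := by
  have := pl_unique (pl_sym c₃ c₄) (pl_forms h2 hΔ (pl_sym c₁ c₂)) hr e0 e1 e2
  rw [this]
  ring

end Fermat.Agent.S52.T
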