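import Fermat.Agent.S52.T.Eta
import Fermat.Agent.S52.T.CompDeg

/-!
# S52/T-MANIN : Manin's count  `dg (Φη - η) = #E(𝔽_ℓ)`

`A₀ B₀ : ZMod ℓ`, `A B` their images in `k`, `f = X³ + A X + B`, `F = f^((ℓ-1)/2)`, `U = X^ℓ - X`, `R = f (F + 1)² - (X^ℓ + X) U²`.

## [S52/T-MANIN-A] `manin_x`
`Φη = (λ X^ℓ, λ² λ^((ℓ-1)/2))`, `-η = (λ X, -λ²)`; abscissae differ (`X^ℓ ≠ X`), `Point.add_of_X_ne`, `slope_of_X_ne`:
`L = λ² (λ^((ℓ-1)/2) + 1) / (λ (X^ℓ - X))`, `ξ₃ = L² - λ X^ℓ - λ X = λ [ λ (F+1)² / U² - X^ℓ - X ] = λ R / U²`.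

## [S52/T-MANIN-B] `manin_deg`
`n c := #{y : ZMod ℓ | y² = f₀ c} ∈ {0,1,2}`; Euler: `f₀(c)^((ℓ-1)/2) = 1, 0, -1` according to `n c = 2, 1, 0`
(`ZMod.euler_criterion`, `ZMod.pow_div_two_eq_neg_one_or_one`).  `U = ∏_{c : ZMod ℓ} (X - C c̃)` (`FiniteField.X_pow_card_sub_X...`/ `ZMod`: all `c̃` are roots, degree `ℓ`,
the `c̃` are distinct).  `natDegree R = 2ℓ + 1`, leading coefficient `1`:
`f (F+1)² = f^ℓ + 2 f^((ℓ+1)/2) + f`, `f^ℓ = X^(3ℓ) + A X^ℓ + B`, `(X^ℓ + X) U² = X^(3ℓ) - X^(2ℓ+1) - X^(ℓ+2) + X³`, and `3(ℓ+1)/2 < 2ℓ+1`.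
Put `D₀ = ∏_c (X - c̃)^(n c)`, `C₀ = ∏_c (X - c̃)^(2 - n c)`, `U² = D₀ C₀`.
 * `n c = 2`: `R(c̃) = 4 f(c̃) ≠ 0`.
 * `n c = 0`: `(X - c̃) ∣ F + 1`, `(X - c̃) ∣ U`, so `(X - c̃)² ∣ R`.
 * `n c = 1`: `(X - c̃) ∣ f`, `(X-c̃)² ∤ f` (`Δ ≠ 0`: `f` is separable), `(X - c̃) ∣ F` (`(ℓ-1)/2 ≥ 1`), so `R ≡ f mod (X - c̃)²`:
   `(X - c̃) ∣ R`, `(X - c̃)² ∤ R`.
So `C₀ ∣ R` (`Finset.prod_dvd_of_coprime`), `R = C₀ R₀`, `R₀` has no common root with `D₀`, hence `IsCoprime R₀ D₀`; `R / U² = R₀ / D₀`; `rdeg_div`: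
`deg D₀ = ∑ n c`, `deg R₀ = 2ℓ + 1 - (2ℓ - ∑ n c) = 1 + ∑ n c`.

## [S52/T-MANIN-C] `manin_card`
`Pt A₀ B₀ ≃ Option {(x,y) | y² = f₀ x}` (every point of the curve is non singular: `sw_nonsingular`); `Nat.card = 1 + ∑_x n x`.
-/

set_option autoImplicit false
set_option linter.unusedSectionVars false

noncomputable section

namespace Fermat.Agent.S52.T

open Polynomial WeierstrassCurve

variable {ℓ : ℕ} [Fact ℓ.Prime] {k : Type*} [Field k] [Algebra (ZMod ℓ) k]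

/-- number of square roots of `f₀ c` -/
def nsq (A₀ B₀ c : ZMod ℓ) : ℕ :=
  (Finset.univ.filter fun y : ZMod ℓ => y ^ 2 = c ^ 3 + A₀ * c + B₀).card

/-- `f` -/
def fPol (A B : k) : k[X] := X ^ 3 + C A * X + C B

/-- Manin's numerator -/
def RPol (ℓ : ℕ) (A B : k) : k[X] :=
  fPol A B * (fPol A B ^ ((ℓ - 1) / 2) + 1) ^ 2 - (X ^ ℓ + X) * (X ^ ℓ - X) ^ 2

theorem manin_euler (hℓ : ℓ ≠ 2) (v : ZMod ℓ) :
    (v = 0 ∧ (Finset.univ.filter fun y : ZMod ℓ => y ^ 2 = v).card = 1) ∨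
    (v ≠ 0 ∧ v ^ ((ℓ - 1) / 2) = 1 ∧ (Finset.univ.filter fun y : ZMod ℓ => y ^ 2 = v).card = 2) ∨
    (v ≠ 0 ∧ v ^ ((ℓ - 1) / 2) = -1 ∧
      (Finset.univ.filter fun y : ZMod ℓ => y ^ 2 = v).card = 0) := by
  have hpr : ℓ.Prime := Fact.out
  have hodd : (ℓ - 1) / 2 = ℓ / 2 := by
    rcases hpr.eq_two_or_odd' with h | ⟨j, hj⟩
    · exact absurd h hℓ
    · omega
  rw [hodd]
  by_cases hv : v = 0
  · left
    refine ⟨hv, Finset.card_eq_one.2 ⟨0, ?_⟩⟩
    ext y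
    simp [hv]
  · right
    by_cases hs : IsSquare v
    · left
      refine ⟨hv, (ZMod.euler_criterion ℓ hv).1 hs, ?_⟩
      obtain ⟨w, hw⟩ := hs
      have hw0 : w ≠ 0 := by
        rintro rfl
        exact hv (by rw [hw, mul_zero])
      have h2 : (2 : ZMod ℓ) ≠ 0 := by
        intro h
        have h3 : ((2 : ℕ) : ZMod ℓ) = 0 := by exact_mod_cast h
        rw [ZMod.natCast_eq_zero_iff] at h3
        exact hℓ ((Nat.prime_dvd_prime_iff_eq hpr Nat.prime_two).1 h3)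
      have hne : w ≠ -w := by
        intro h
        have : 2 * w = 0 := by linear_combination h
        rcases mul_eq_zero.1 this with h' | h'
        · exact h2 h'
        · exact hw0 h'
      have hset : (Finset.univ.filter fun y : ZMod ℓ => y ^ 2 = v) = {w, -w} := by
        ext y
        simp only [Finset.mem_filter, Finset.mem_univ, true_and, Finset.mem_insert,
          Finset.mem_singleton]
        rw [hw, ← sq, sq_eq_sq_iff_eq_or_eq_neg]
      rw [hset, Finset.card_pair hne]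
    · right
      refine ⟨hv, ?_, ?_⟩
      · rcases ZMod.pow_div_two_eq_neg_one_or_one ℓ hv with h | h
        · exact absurd ((ZMod.euler_criterion ℓ hv).2 h) hs
        · exact h
      · rw [Finset.card_eq_zero, Finset.filter_eq_empty_iff]
        intro y _ hy
        exact hs ⟨y, by rw [← hy, sq]⟩

theorem manin_U : (X ^ ℓ - X : k[X]) = ∏ c : ZMod ℓ, (X - C (algebraMap (ZMod ℓ) k c)) := by
  have h1 : 1 < ℓ := (Fact.out : ℓ.Prime).one_lt
  have hm : (X ^ ℓ - X : k[X]).Monic :=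
    monic_X_pow_sub (by rw [degree_X]; exact_mod_cast h1)
  have hp : (∏ c : ZMod ℓ, (X - C (algebraMap (ZMod ℓ) k c))).Monic :=
    monic_prod_of_monic _ _ fun c _ => monic_X_sub_C _
  refine eq_of_monic_of_dvd_of_natDegree_le hp hm ?_ ?_
  · apply Finset.prod_dvd_of_coprime
      (fun s _ t _ hst => pairwise_coprime_X_sub_C (algebraMap (ZMod ℓ) k).injective hst)
    intro c _
    rw [dvd_iff_isRoot, IsRoot.def, eval_sub, eval_pow, eval_X, ← map_pow, ZMod.pow_card, sub_self]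
  · rw [FiniteField.X_pow_card_sub_X_natDegree_eq k h1,
      natDegree_prod_of_monic _ _ fun c _ => monic_X_sub_C _]
    simp [ZMod.card]

theorem manin_fpow {A B : k} (H : FrobHyp k ℓ A B) :
    fPol A B ^ ℓ = X ^ (3 * ℓ) + C A * X ^ ℓ + C B := by
  have := H.char
  unfold fPol
  rw [add_pow_char, add_pow_char, mul_pow, ← C_pow, ← C_pow, H.hA, H.hB, ← pow_mul]

theorem manin_natDegree {A B : k} (H : FrobHyp k ℓ A B) : (RPol ℓ A B).natDegree = 2 * ℓ + 1 := by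
  have hpr : ℓ.Prime := Fact.out
  obtain ⟨m, hm⟩ : ∃ m, ℓ = 2 * m + 1 := by
    rcases hpr.eq_two_or_odd' with h | ⟨j, hj⟩
    · exact absurd h H.odd
    · exact ⟨j, hj⟩
  have hm2 : (ℓ - 1) / 2 = m := by omega
  have hm1 : 1 ≤ m := by
    have := hpr.two_le
    omega
  have e1 : fPol A B * (fPol A B ^ m + 1) ^ 2
      = fPol A B ^ ℓ + 2 * fPol A B ^ (m + 1) + fPol A B := by
    rw [hm]; ring
  have e : RPol ℓ A B = X ^ (2 * ℓ + 1) + (C A * X ^ ℓ + C B + 2 * fPol A B ^ (m + 1) + fPol A B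
      + X ^ (ℓ + 2) - X ^ 3) := by
    unfold RPol
    rw [hm2, e1, manin_fpow H]
    ring
  rw [e]
  have hd : (C A * X ^ ℓ + C B + 2 * fPol A B ^ (m + 1) + fPol A B
      + X ^ (ℓ + 2) - X ^ 3).natDegree ≤ 2 * ℓ := by
    unfold fPol
    compute_degree
    all_goals omega
  rw [natDegree_add_eq_left_of_natDegree_lt (by rw [natDegree_X_pow]; omega), natDegree_X_pow]

/-- abstract cancellation count -/
theorem manin_abs {k : Type*} [Field k] {T : Type*} [Fintype T] [DecidableEq T] (a : T → k)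
    (ha : Function.Injective a)
    (n : T → ℕ) (hn : ∀ t, n t ≤ 2) (R : k[X])
    (hA : ∀ t, (X - C (a t)) ^ (2 - n t) ∣ R)
    (hB : ∀ t, 1 ≤ n t → ¬ (X - C (a t)) ^ (2 - n t + 1) ∣ R)
    (hdeg : R.natDegree = 2 * Fintype.card T + 1) :
    rdeg (algebraMap k[X] (RatFunc k) R /
      algebraMap k[X] (RatFunc k) ((∏ t, (X - C (a t))) ^ 2)) = 1 + ∑ t, n t := by
  set C₀ : k[X] := ∏ t, (X - C (a t)) ^ (2 - n t) with hC₀
  set D₀ : k[X] := ∏ t, (X - C (a t)) ^ (n t) with hD₀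
  have hU : (∏ t, (X - C (a t))) ^ 2 = C₀ * D₀ := by
    rw [← Finset.prod_pow, hC₀, hD₀, ← Finset.prod_mul_distrib]
    refine Finset.prod_congr rfl fun t _ => ?_
    rw [← pow_add]
    congr 1
    have := hn t
    omega
  have hR : R ≠ 0 := by
    rintro rfl
    simp at hdeg
  obtain ⟨R₀, hR₀⟩ : C₀ ∣ R :=
    Finset.prod_dvd_of_coprime
      (fun s _ t _ hst => IsCoprime.pow (pairwise_coprime_X_sub_C ha hst)) (fun t _ => hA t)
  have hR₀ne : R₀ ≠ 0 := by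
    rintro rfl
    exact hR (by rw [hR₀, mul_zero])
  have hCm : C₀.Monic := monic_prod_of_monic _ _ fun t _ => (monic_X_sub_C _).pow _
  have hDm : D₀.Monic := monic_prod_of_monic _ _ fun t _ => (monic_X_sub_C _).pow _
  have hcop : IsCoprime R₀ D₀ := by
    refine IsCoprime.prod_right fun t _ => ?_
    rcases Nat.eq_zero_or_pos (n t) with h0 | h0
    · rw [h0, pow_zero]
      exact isCoprime_one_right
    · refine IsCoprime.pow_right ?_
      refine IsCoprime.symm ((irreducible_X_sub_C (a t)).coprime_iff_not_dvd.2 ?_)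
      intro hd
      apply hB t h0
      rw [hR₀, pow_succ]
      exact mul_dvd_mul (Finset.dvd_prod_of_mem (fun t => (X - C (a t)) ^ (2 - n t))
        (Finset.mem_univ t)) hd
  have hdC : C₀.natDegree = ∑ t, (2 - n t) := by
    rw [hC₀, natDegree_prod_of_monic _ _ fun t _ => (monic_X_sub_C _).pow _]
    exact Finset.sum_congr rfl fun t _ => by rw [natDegree_pow, natDegree_X_sub_C, mul_one]
  have hdD : D₀.natDegree = ∑ t, n t := by
    rw [hD₀, natDegree_prod_of_monic _ _ fun t _ => (monic_X_sub_C _).pow _]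
    exact Finset.sum_congr rfl fun t _ => by rw [natDegree_pow, natDegree_X_sub_C, mul_one]
  have hsum : ∑ t, (2 - n t) + ∑ t, n t = 2 * Fintype.card T := by
    rw [← Finset.sum_add_distrib]
    have : ∀ t ∈ (Finset.univ : Finset T), (2 - n t) + n t = 2 := fun t _ => by
      have := hn t
      omega
    rw [Finset.sum_congr rfl this]
    simp [mul_comm]
  have hdR : R₀.natDegree = 1 + ∑ t, n t := by
    have h1 : R.natDegree = C₀.natDegree + R₀.natDegree := by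
      rw [hR₀, hCm.natDegree_mul' hR₀ne]
    omega
  have hC0 : algebraMap k[X] (RatFunc k) C₀ ≠ 0 := by
    rw [Ne, map_eq_zero_iff _ (RatFunc.algebraMap_injective k)]
    exact hCm.ne_zero
  rw [hU, hR₀, map_mul, map_mul, mul_div_mul_left _ _ hC0, rdeg_div hcop hDm.ne_zero, hdR, hdD]
  omega


theorem manin_eval_f (A₀ B₀ c : ZMod ℓ) :
    (fPol (algebraMap (ZMod ℓ) k A₀) (algebraMap (ZMod ℓ) k B₀)).eval (algebraMap (ZMod ℓ) k c)
      = algebraMap (ZMod ℓ) k (c ^ 3 + A₀ * c + B₀) := by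
  unfold fPol
  simp only [eval_add, eval_mul, eval_pow, eval_X, eval_C, map_add, map_mul, map_pow]

theorem manin_dvd_U (c : ZMod ℓ) : (X - C (algebraMap (ZMod ℓ) k c)) ∣ (X ^ ℓ - X : k[X]) := by
  rw [dvd_iff_isRoot, IsRoot.def, eval_sub, eval_pow, eval_X, ← map_pow, ZMod.pow_card, sub_self]

theorem manin_not_sq_dvd {A B : k} (hΔ : 4 * A ^ 3 + 27 * B ^ 2 ≠ 0) (a : k) :
    ¬ (X - C a) ^ 2 ∣ fPol A B := by
  rintro ⟨h, hh⟩
  apply hΔ
  have e2 : a ^ 3 + A * a + B = 0 := by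
    have := congrArg (eval a) hh
    simpa [fPol] using this
  have e1 : 3 * a ^ 2 + A = 0 := by
    have := congrArg (fun p => eval a (derivative p)) hh
    simpa [fPol, derivative_mul, derivative_pow] using this
  linear_combination (-(18 : k) * A * a + 27 * B) * e2 + (6 * A * a ^ 2 - 9 * B * a + 4 * A ^ 2) * e1

/-- [S52/T-MANIN-B] -/
theorem manin_deg (A₀ B₀ : ZMod ℓ)
    (H : FrobHyp k ℓ (algebraMap (ZMod ℓ) k A₀) (algebraMap (ZMod ℓ) k B₀)) :
    rdeg (algebraMap k[X] (RatFunc k) (RPol ℓ (algebraMap (ZMod ℓ) k A₀) (algebraMap (ZMod ℓ) k B₀)) /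
      algebraMap k[X] (RatFunc k) ((X ^ ℓ - X) ^ 2)) = 1 + ∑ c : ZMod ℓ, nsq A₀ B₀ c := by
  classical
  have hpr : ℓ.Prime := Fact.out
  obtain ⟨m, hm⟩ : ∃ m, ℓ = 2 * m + 1 := by
    rcases hpr.eq_two_or_odd' with h | ⟨j, hj⟩
    · exact absurd h H.odd
    · exact ⟨j, hj⟩
  have hm2 : (ℓ - 1) / 2 = m := by omega
  have hm1 : 1 ≤ m := by
    have := hpr.two_le
    omega
  set A : k := algebraMap (ZMod ℓ) k A₀ with hA
  set B : k := algebraMap (ZMod ℓ) k B₀ with hB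
  have h2 : (2 : k) ≠ 0 := H.two_ne_zero
  have hef : ∀ c : ZMod ℓ, (fPol A B).eval (algebraMap (ZMod ℓ) k c)
      = algebraMap (ZMod ℓ) k (c ^ 3 + A₀ * c + B₀) := fun c => manin_eval_f A₀ B₀ c
  have hcases := fun c : ZMod ℓ => manin_euler H.odd (c ^ 3 + A₀ * c + B₀)
  rw [manin_U (k := k)]
  have hevalR : ∀ c : ZMod ℓ, (RPol ℓ A B).eval (algebraMap (ZMod ℓ) k c)
      = algebraMap (ZMod ℓ) k (c ^ 3 + A₀ * c + B₀) *
        (algebraMap (ZMod ℓ) k ((c ^ 3 + A₀ * c + B₀) ^ ((ℓ - 1) / 2)) + 1) ^ 2 := by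
    intro c
    unfold RPol
    have h0 : (algebraMap (ZMod ℓ) k c) ^ ℓ - algebraMap (ZMod ℓ) k c = 0 := by
      rw [← map_pow, ZMod.pow_card, sub_self]
    simp only [eval_sub, eval_mul, eval_pow, eval_add, eval_one, eval_X, hef, h0, map_pow]
    ring
  refine manin_abs (fun c : ZMod ℓ => algebraMap (ZMod ℓ) k c) (algebraMap (ZMod ℓ) k).injective
    (nsq A₀ B₀) ?_ (RPol ℓ A B) ?_ ?_ ?_
  · intro c
    unfold nsq
    rcases hcases c with ⟨_, h⟩ | ⟨_, _, h⟩ | ⟨_, _, h⟩ <;> omega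
  · intro c
    unfold nsq
    rcases hcases c with ⟨hv, h⟩ | ⟨_, _, h⟩ | ⟨_, hv, h⟩
    · rw [h, pow_one, dvd_iff_isRoot, IsRoot.def, hevalR, hv, map_zero, zero_mul]
    · rw [h, pow_zero]
      exact one_dvd _
    · rw [h]
      unfold RPol
      refine dvd_sub (Dvd.dvd.mul_left (pow_dvd_pow_of_dvd ?_ 2) _)
        (Dvd.dvd.mul_left (pow_dvd_pow_of_dvd (manin_dvd_U c) 2) _)
      rw [dvd_iff_isRoot, IsRoot.def, eval_add, eval_pow, eval_one, hef, ← map_pow, hv,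
        map_neg, map_one, neg_add_cancel]
  · intro c hc
    unfold nsq at hc ⊢
    rcases hcases c with ⟨hv, h⟩ | ⟨hv0, hv, h⟩ | ⟨_, _, h⟩
    · rw [h]
      intro hd
      apply manin_not_sq_dvd H.hΔ (algebraMap (ZMod ℓ) k c)
      have hL : (X - C (algebraMap (ZMod ℓ) k c)) ∣ fPol A B := by
        rw [dvd_iff_isRoot, IsRoot.def, hef, hv, map_zero]
      have e : RPol ℓ A B = fPol A B + (fPol A B * fPol A B * (fPol A B ^ (m - 1) *
          (fPol A B ^ m + 2)) - (X ^ ℓ + X) * (X ^ ℓ - X) ^ 2) := by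
        unfold RPol
        rw [hm2]
        obtain ⟨j, rfl⟩ : ∃ j, m = j + 1 := ⟨m - 1, by omega⟩
        rw [Nat.add_sub_cancel]
        ring
      have h3 : (X - C (algebraMap (ZMod ℓ) k c)) ^ 2 ∣ (fPol A B * fPol A B * (fPol A B ^ (m - 1) *
          (fPol A B ^ m + 2)) - (X ^ ℓ + X) * (X ^ ℓ - X) ^ 2) := by
        refine dvd_sub (Dvd.dvd.mul_right ?_ _)
          (Dvd.dvd.mul_left (pow_dvd_pow_of_dvd (manin_dvd_U c) 2) _)
        rw [sq]
        exact mul_dvd_mul hL hL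
      rw [e] at hd
      exact (dvd_add_left h3).1 hd
    · rw [h]
      intro hd
      rw [Nat.sub_self, zero_add, pow_one, dvd_iff_isRoot, IsRoot.def, hevalR, hv, map_one] at hd
      have h4 : algebraMap (ZMod ℓ) k (c ^ 3 + A₀ * c + B₀) ≠ 0 := by
        rw [Ne, map_eq_zero_iff _ (algebraMap (ZMod ℓ) k).injective]
        exact hv0
      rcases mul_eq_zero.1 hd with h5 | h5
      · exact h4 h5
      · apply h2
        have := pow_eq_zero_iff (two_ne_zero) |>.1 h5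
        linear_combination this
    · omega
  · rw [manin_natDegree H, ZMod.card]

theorem manin_some_congr {F : Type*} [Field F] {W : WeierstrassCurve.Affine F} {x x' y : F}
    (hx : x = x') (h : W.Nonsingular x y) :
    ∃ h' : W.Nonsingular x' y, Affine.Point.some x y h = Affine.Point.some x' y h' := by
  subst hx
  exact ⟨h, rfl⟩

theorem manin_map_f (A B : k) : algebraMap k[X] (RatFunc k) (fPol A B) = lam A B := by
  unfold fPol lam
  rw [map_add, map_add, map_mul, map_pow, RatFunc.algebraMap_X, RatFunc.algebraMap_C,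
    RatFunc.algebraMap_C]

/-- [S52/T-MANIN-A] -/
theorem manin_x {A B : k} (H : FrobHyp k ℓ A B) :
    ∃ (υ : RatFunc k) (h : (sw (TA A B) (TB A B)).toAffine.Nonsingular
        (lam A B * (algebraMap k[X] (RatFunc k) (RPol ℓ A B) /
          algebraMap k[X] (RatFunc k) ((X ^ ℓ - X) ^ 2))) υ),
      PhiPt H 1 - PhiPt H 0 = .some _ υ h := by
  have h1 : 1 < ℓ := H.prime.one_lt
  have hl : lam A B ≠ 0 := lam_ne_zero A B
  have hU : (RatFunc.X ^ ℓ - RatFunc.X : RatFunc k) ≠ 0 := by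
    have h0 := FiniteField.X_pow_card_sub_X_ne_zero k h1
    have h2 : algebraMap k[X] (RatFunc k) (X ^ ℓ - X) ≠ 0 := by
      rw [Ne, map_eq_zero_iff _ (RatFunc.algebraMap_injective k)]
      exact h0
    rwa [map_sub, map_pow, RatFunc.algebraMap_X] at h2
  have hne : xPhi A B ℓ 1 ≠ xPhi A B ℓ 0 := by
    unfold xPhi
    rw [pow_one, pow_zero, pow_one]
    intro h
    have : lam A B * (RatFunc.X ^ ℓ - RatFunc.X) = 0 := by linear_combination h
    exact (mul_ne_zero hl hU) this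
  have e : PhiPt H 1 - PhiPt H 0 = Affine.Point.some _ _
      (Affine.nonsingular_add (phi_nonsingular H 1)
        ((Affine.nonsingular_neg ..).mpr (phi_nonsingular H 0)) (fun hxy => hne hxy.left)) := by
    unfold PhiPt
    rw [sub_eq_add_neg, Affine.Point.neg_some, Affine.Point.add_of_X_ne hne]
  rw [e]
  have hx : (sw (TA A B) (TB A B)).toAffine.addX (xPhi A B ℓ 1) (xPhi A B ℓ 0)
      ((sw (TA A B) (TB A B)).toAffine.slope (xPhi A B ℓ 1) (xPhi A B ℓ 0) (yPhi A B ℓ 1)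
        ((sw (TA A B) (TB A B)).toAffine.negY (xPhi A B ℓ 0) (yPhi A B ℓ 0)))
      = lam A B * (algebraMap k[X] (RatFunc k) (RPol ℓ A B) /
          algebraMap k[X] (RatFunc k) ((X ^ ℓ - X) ^ 2)) := by
    rw [Affine.slope_of_X_ne hne, sw_negY]
    unfold Affine.addX RPol xPhi yPhi
    simp only [sw_a₁, sw_a₂, map_sub, map_mul, map_pow, map_add, map_one, manin_map_f,
      RatFunc.algebraMap_X, pow_one, pow_zero, Nat.sub_self, Nat.zero_div]
    have hd : lam A B * RatFunc.X ^ ℓ - lam A B * RatFunc.X ≠ 0 := by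
      rw [← mul_sub]
      exact mul_ne_zero hl hU
    field_simp
    ring
  obtain ⟨h', he⟩ := manin_some_congr hx _
  exact ⟨_, h', he⟩

/-- [S52/T-MANIN-C] -/
theorem manin_card (hℓ : ℓ ≠ 2) (A₀ B₀ : ZMod ℓ) (hΔ : 4 * A₀ ^ 3 + 27 * B₀ ^ 2 ≠ 0) :
    Nat.card (Pt A₀ B₀) = 1 + ∑ c : ZMod ℓ, nsq A₀ B₀ c := by
  classical
  have hpr : ℓ.Prime := Fact.out
  have h2 : (2 : ZMod ℓ) ≠ 0 := by
    intro h
    have h3 : ((2 : ℕ) : ZMod ℓ) = 0 := by exact_mod_cast h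
    rw [ZMod.natCast_eq_zero_iff] at h3
    exact hℓ ((Nat.prime_dvd_prime_iff_eq hpr Nat.prime_two).1 h3)
  let e : Pt A₀ B₀ ≃ Option (Σ x : ZMod ℓ, {y : ZMod ℓ // y ^ 2 = x ^ 3 + A₀ * x + B₀}) :=
    { toFun := fun P => match P with
        | .zero => none
        | .some x y h => some ⟨x, y, (sw_equation A₀ B₀ x y).1 h.1⟩
      invFun := fun o => match o with
        | none => .zero
        | some ⟨x, y, h⟩ => .some x y (sw_nonsingular hΔ h2 h)
      left_inv := by rintro (_ | ⟨x, y, h⟩) <;> rfl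
      right_inv := by rintro (_ | ⟨x, y, h⟩) <;> rfl }
  rw [Nat.card_congr e, Nat.card_eq_fintype_card, Fintype.card_option, Fintype.card_sigma, add_comm]
  congr 1
  refine Finset.sum_congr rfl fun c _ => ?_
  rw [Fintype.card_subtype]
  rfl

/-- **Manin's count** -/
theorem dg_Phi_sub_eta (A₀ B₀ : ZMod ℓ)
    (H : FrobHyp k ℓ (algebraMap (ZMod ℓ) k A₀) (algebraMap (ZMod ℓ) k B₀)) :
    dg _ _ (PhiPt H 1 - PhiPt H 0) = (Nat.card (Pt A₀ B₀) : ℤ) := by
  have hΔ : 4 * A₀ ^ 3 + 27 * B₀ ^ 2 ≠ 0 := by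
    intro h
    apply H.hΔ
    have := congrArg (algebraMap (ZMod ℓ) k) h
    rw [map_add, map_mul, map_mul, map_pow, map_pow, map_zero, map_ofNat, map_ofNat] at this
    exact this
  obtain ⟨υ, h, e⟩ := manin_x H
  rw [e, manin_card H.odd A₀ B₀ hΔ, ← manin_deg A₀ B₀ H]
  show ((rdeg _ : ℕ) : ℤ) = _
  rw [mul_div_cancel_left₀ _ (lam_ne_zero _ _)]

end Fermat.Agent.S52.T
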