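import Fermat.Agent.S52.T.Tw
import Fermat.Agent.S52.T.Height
import Fermat.Agent.Lib.DivPoly

/-!
# S52/T-PAR : the parallelogram law for `dg` on the twisted curve

For `Q : TPt A B` put `xp Q = (1, 0)` if `Q = 0` and `xp Q = (num 𝒳, denom 𝒳)`, `𝒳 = ξ / λ`, if `Q = (ξ, υ)`.  It is a coprime pair
(`RatFunc.isCoprime_num_denom`) and `dg Q = hd (xp Q).1 (xp Q).2`.

CLAIM (`par_prop`): for `Q₃ = Q₁ + Q₂`, `Q₄ = Q₁ - Q₂`, `(pᵢ, qᵢ) = xp Qᵢ` there are `r r' ≠ 0` in `k[X]` with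
 `r (q₃q₄, p₃q₄ + p₄q₃, p₃p₄) = r' (g0, g1, g2)(q₁q₂, p₁q₂ + p₂q₁, p₁p₂)`   (`g1 g2` with the constants `C A`, `C B`).
Then `PL` gives the theorem.  It is enough to prove the proportionality in `k(X)` with ONE factor `ρ ≠ 0` in `k(X)`
(`r = denom ρ`, `r' = num ρ`; `algebraMap k[X] (RatFunc k)` is injective).
Cases (in `k(X)`, `𝒳ᵢ = pᵢ/qᵢ`):
* `Q₂ = 0`: `Q₃ = Q₄ = Q₁`; `(t,u,v) = (0, q₁, p₁)`, `(g0,g1,g2) = (q₁², 2 q₁ p₁, p₁²)`.  `ρ = 1`.   `Q₁ = 0`: same (`x(-Q) = x(Q)`).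
* `ξ₁ ≠ ξ₂`: `DivPoly.add_sub_X` gives `(ξ₃ + ξ₄)(ξ₁ - ξ₂)² = 2(ξ₁+ξ₂)ξ₁ξ₂ + b₄(ξ₁+ξ₂) + b₆` (`b₂ = 0`, `b₄ = 2Aλ²`, `b₆ = 4Bλ³`: `sw_b₂ ..`);
  the same computation (`field_simp; linear_combination …` from the two equations of the curve, see the proof of `add_sub_X`) gives
  `ξ₃ ξ₄ (ξ₁ - ξ₂)² = (ξ₁ξ₂ - Aλ²)² - 4Bλ³(ξ₁+ξ₂)`.  Divide by `λ³`, resp. `λ⁴`:  `(𝒳₃+𝒳₄)(𝒳₁-𝒳₂)² = 2(𝒳₁+𝒳₂)(𝒳₁𝒳₂ + A) + 4B`,
  `𝒳₃𝒳₄(𝒳₁-𝒳₂)² = (𝒳₁𝒳₂ - A)² - 4B(𝒳₁+𝒳₂)`.   `ρ = q₃q₄ / (q₁q₂(𝒳₁-𝒳₂))²`.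
* `ξ₁ = ξ₂`: `Q₁ = Q₂` or `Q₁ = -Q₂` (`Point.X_eq_iff`).  Say `Q₁ = Q₂` (the other case is symmetric: exchange `Q₃`, `Q₄`): `Q₄ = 0`, `(p₄,q₄) = (1,0)`,
  LHS `= (0, q₃, p₃)`; RHS: `g0 = 0`, `g1 = dupD`, `g2 = dupN` of `(p₁,q₁)` for the curve `y² = f(x)`; `DivPoly.rep_dup` for the twisted curve with
  `r = (ξ₁, 1)` gives `Rep (Q₁+Q₁) (dupN …, dupD …)`; scale by powers of `λ`.  (If `Q₁ + Q₁ = 0` then `(p₃,q₃) = (1,0)` and `dupD = 0 ≠ dupN`.)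
`lam A B ≠ 0`: it is the image of a monic polynomial.
-/

set_option autoImplicit false

noncomputable section

namespace Fermat.Agent.S52.T

open Polynomial WeierstrassCurve

theorem sw_add_sub {F : Type*} [Field F] [DecidableEq F] {a b x₁ y₁ x₂ y₂ : F}
    (h₁ : (sw a b).toAffine.Nonsingular x₁ y₁) (h₂ : (sw a b).toAffine.Nonsingular x₂ y₂)
    (hx : x₁ ≠ x₂) :
    ∃ (X Y yX yY : F) (hX : (sw a b).toAffine.Nonsingular X yX)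
      (hY : (sw a b).toAffine.Nonsingular Y yY),
      Affine.Point.some x₁ y₁ h₁ + Affine.Point.some x₂ y₂ h₂ = Affine.Point.some X yX hX ∧
      Affine.Point.some x₁ y₁ h₁ - Affine.Point.some x₂ y₂ h₂ = Affine.Point.some Y yY hY ∧
      (X + Y) * (x₁ - x₂) ^ 2 = 2 * (x₁ + x₂) * (x₁ * x₂ + a) + 4 * b ∧
      X * Y * (x₁ - x₂) ^ 2 = (x₁ * x₂ - a) ^ 2 - 4 * b * (x₁ + x₂) := by
  have hd : x₁ - x₂ ≠ 0 := sub_ne_zero.mpr hx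
  have hs := Affine.Point.add_of_X_ne (h₁ := h₁) (h₂ := (Affine.nonsingular_neg ..).mpr h₂) hx
  rw [← Affine.Point.neg_some h₂, ← sub_eq_add_neg] at hs
  have e₁ := (sw_equation ..).mp h₁.1
  have e₂ := (sw_equation ..).mp h₂.1
  refine ⟨_, _, _, _, _, _, Affine.Point.add_of_X_ne hx, hs, ?_, ?_⟩
  · rw [Affine.slope_of_X_ne hx, Affine.slope_of_X_ne hx]
    simp only [Affine.addX, Affine.negY, sw_a₁, sw_a₂, sw_a₃]
    field_simp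
    linear_combination 2 * e₁ + 2 * e₂
  · rw [Affine.slope_of_X_ne hx, Affine.slope_of_X_ne hx]
    simp only [Affine.addX, Affine.negY, sw_a₁, sw_a₂, sw_a₃]
    field_simp
    linear_combination (y₁ ^ 2 + (x₁ ^ 3 + a * x₁ + b) - 2 * y₂ ^ 2
        - 2 * (x₁ + x₂) * (x₁ - x₂) ^ 2) * e₁
      + (y₂ ^ 2 + (x₂ ^ 3 + a * x₂ + b) - 2 * (x₁ ^ 3 + a * x₁ + b)
        - 2 * (x₁ + x₂) * (x₁ - x₂) ^ 2) * e₂

variable {k : Type*} [Field k] {A B : k}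

/-- homogeneous coordinates of `𝒳(Q)` -/
def xp (A B : k) : TPt A B → k[X] × k[X]
  | .zero => (1, 0)
  | .some ξ _ _ => ((ξ / lam A B).num, (ξ / lam A B).denom)

theorem xp_coprime (Q : TPt A B) : IsCoprime (xp A B Q).1 (xp A B Q).2 := by
  rcases Q with _ | ⟨ξ, υ, n⟩
  · exact isCoprime_one_left
  · exact RatFunc.isCoprime_num_denom _

theorem dg_eq_hd (Q : TPt A B) : dg A B Q = (hd (xp A B Q).1 (xp A B Q).2 : ℤ) := by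
  rcases Q with _ | ⟨ξ, υ, n⟩
  · show (0 : ℤ) = ((hd (1 : k[X]) 0 : ℕ) : ℤ)
    simp [hd]
  · rfl

theorem xp_neg (Q : TPt A B) : xp A B (-Q) = xp A B Q := by
  rcases Q with _ | ⟨ξ, υ, n⟩
  · rfl
  · rw [Affine.Point.neg_some]; rfl

theorem par_lam_ne_zero (A B : k) : lam A B ≠ 0 := by
  have e : lam A B = algebraMap k[X] (RatFunc k) (X ^ 3 + C A * X + C B) := by
    simp [lam, RatFunc.algebraMap_X, RatFunc.algebraMap_C]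
  rw [e]
  refine RatFunc.algebraMap_ne_zero ?_
  intro h
  have := congrArg (fun p => coeff p 3) h
  simp at this

theorem xp_some_spec {ξ υ : RatFunc k} (n : (sw (TA A B) (TB A B)).toAffine.Nonsingular ξ υ) :
    ∃ 𝒳 D : RatFunc k, D ≠ 0 ∧ ξ = 𝒳 * lam A B ∧
      algebraMap k[X] (RatFunc k) (xp A B (.some ξ υ n)).2 = D ∧
      algebraMap k[X] (RatFunc k) (xp A B (.some ξ υ n)).1 = 𝒳 * D := by
  have hd : algebraMap k[X] (RatFunc k) (ξ / lam A B).denom ≠ 0 :=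
    RatFunc.algebraMap_ne_zero (RatFunc.denom_ne_zero _)
  refine ⟨ξ / lam A B, _, hd, (div_mul_cancel₀ _ (par_lam_ne_zero A B)).symm, rfl, ?_⟩
  show algebraMap k[X] (RatFunc k) (ξ / lam A B).num = _
  exact (div_eq_iff hd).mp (RatFunc.num_div_denom _)

/-- the proportionality needed for `PL` -/
def ParProp (A B : k) (a₁ a₂ a₃ a₄ : k[X] × k[X]) : Prop :=
  ∃ r r' : k[X], r ≠ 0 ∧ r' ≠ 0 ∧
    r * (a₃.2 * a₄.2) = r' * g0 (a₁.2 * a₂.2) (a₁.1 * a₂.2 + a₂.1 * a₁.2) (a₁.1 * a₂.1) ∧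
    r * (a₃.1 * a₄.2 + a₄.1 * a₃.2) =
      r' * g1 (C A) (C B) (a₁.2 * a₂.2) (a₁.1 * a₂.2 + a₂.1 * a₁.2) (a₁.1 * a₂.1) ∧
    r * (a₃.1 * a₄.1) =
      r' * g2 (C A) (C B) (a₁.2 * a₂.2) (a₁.1 * a₂.2 + a₂.1 * a₁.2) (a₁.1 * a₂.1)

theorem ParProp.swap {a₁ a₂ a₃ a₄ : k[X] × k[X]} (h : ParProp A B a₁ a₂ a₃ a₄) :
    ParProp A B a₁ a₂ a₄ a₃ := by
  obtain ⟨r, r', hr, hr', e0, e1, e2⟩ := h
  refine ⟨r, r', hr, hr', ?_, ?_, ?_⟩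
  · rw [← e0]; ring
  · rw [← e1]; ring
  · rw [← e2]; ring

theorem par_zero_right (a : k[X] × k[X]) : ParProp A B a (1, 0) a a := by
  refine ⟨1, 1, one_ne_zero, one_ne_zero, ?_, ?_, ?_⟩
  · simp only [g0]; ring
  · simp only [g1]; ring
  · simp only [g2]; ring

theorem par_zero_left (a : k[X] × k[X]) : ParProp A B (1, 0) a a a := by
  refine ⟨1, 1, one_ne_zero, one_ne_zero, ?_, ?_, ?_⟩
  · simp only [g0]; ring
  · simp only [g1]; ring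
  · simp only [g2]; ring

theorem par_ne {ξ₁ υ₁ ξ₂ υ₂ : RatFunc k}
    (n₁ : (sw (TA A B) (TB A B)).toAffine.Nonsingular ξ₁ υ₁)
    (n₂ : (sw (TA A B) (TB A B)).toAffine.Nonsingular ξ₂ υ₂) (hx : ξ₁ ≠ ξ₂) :
    ParProp A B (xp A B (.some ξ₁ υ₁ n₁)) (xp A B (.some ξ₂ υ₂ n₂))
      (xp A B (.some ξ₁ υ₁ n₁ + .some ξ₂ υ₂ n₂)) (xp A B (.some ξ₁ υ₁ n₁ - .some ξ₂ υ₂ n₂)) := by
  have hl := par_lam_ne_zero A B
  obtain ⟨ξ₃, ξ₄, υ₃, υ₄, n₃, n₄, e₃, e₄, hs, hp⟩ := sw_add_sub n₁ n₂ hx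
  rw [e₃, e₄]
  obtain ⟨X1, D1, hD1, hξ1, hq1, hp1⟩ := xp_some_spec n₁
  obtain ⟨X2, D2, hD2, hξ2, hq2, hp2⟩ := xp_some_spec n₂
  obtain ⟨X3, D3, hD3, hξ3, hq3, hp3⟩ := xp_some_spec n₃
  obtain ⟨X4, D4, hD4, hξ4, hq4, hp4⟩ := xp_some_spec n₄
  have hX : X1 - X2 ≠ 0 := by
    intro h
    apply hx
    rw [hξ1, hξ2, sub_eq_zero.mp h]
  have hs' : (X3 + X4) * (X1 - X2) ^ 2 =
      2 * (X1 + X2) * (X1 * X2 + RatFunc.C A) + 4 * RatFunc.C B := by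
    apply mul_left_cancel₀ (pow_ne_zero 3 hl)
    rw [hξ1, hξ2, hξ3, hξ4] at hs
    simp only [TA, TB] at hs
    linear_combination hs
  have hp' : X3 * X4 * (X1 - X2) ^ 2 =
      (X1 * X2 - RatFunc.C A) ^ 2 - 4 * RatFunc.C B * (X1 + X2) := by
    apply mul_left_cancel₀ (pow_ne_zero 4 hl)
    rw [hξ1, hξ2, hξ3, hξ4] at hp
    simp only [TA, TB] at hp
    linear_combination hp
  have hinj := RatFunc.algebraMap_injective k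
  refine ⟨g0 _ _ _, _, ?_, ?_, mul_comm _ _, ?_, ?_⟩
  · intro h0
    have h1 := congrArg (algebraMap k[X] (RatFunc k)) h0
    simp only [g0, map_sub, map_mul, map_add, map_pow, map_ofNat, map_zero, hq1, hq2, hp1, hp2]
      at h1
    have h2 : (D1 * D2) ^ 2 * (X1 - X2) ^ 2 = 0 := by linear_combination h1
    exact mul_ne_zero (pow_ne_zero _ (mul_ne_zero hD1 hD2)) (pow_ne_zero _ hX) h2
  · intro h0
    have h1 := congrArg (algebraMap k[X] (RatFunc k)) h0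
    simp only [map_mul, map_zero, hq3, hq4] at h1
    exact mul_ne_zero hD3 hD4 h1
  · apply hinj
    simp only [g0, g1, map_sub, map_mul, map_add, map_pow, map_ofNat, hq1, hq2, hp1, hp2, hq3, hq4,
      hp3, hp4, RatFunc.algebraMap_C]
    linear_combination (D1 * D2) ^ 2 * D3 * D4 * hs'
  · apply hinj
    simp only [g0, g2, map_sub, map_mul, map_add, map_pow, map_ofNat, hq1, hq2, hp1, hp2, hq3, hq4,
      hp3, hp4, RatFunc.algebraMap_C]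
    linear_combination (D1 * D2) ^ 2 * D3 * D4 * hp'

theorem par_dup {ξ υ : RatFunc k} (n : (sw (TA A B) (TB A B)).toAffine.Nonsingular ξ υ) :
    ParProp A B (xp A B (.some ξ υ n)) (xp A B (.some ξ υ n))
      (xp A B (.some ξ υ n + .some ξ υ n)) (1, 0) := by
  have hl := par_lam_ne_zero A B
  have hinj := RatFunc.algebraMap_injective k
  have hr := DivPoly.rep_dup (sw (TA A B) (TB A B)).toAffine (Q := .some ξ υ n) (r := (ξ, 1))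
    ⟨one_ne_zero, (mul_one ξ).symm⟩
  obtain ⟨X1, D1, hD1, hξ1, hq1, hp1⟩ := xp_some_spec n
  obtain ⟨a, ha⟩ : ∃ a, a = xp A B (.some ξ υ n) := ⟨_, rfl⟩
  rw [← ha] at hq1 hp1 ⊢
  obtain ⟨γ1, hγ1⟩ : ∃ γ1, γ1 = g1 (C A) (C B) (a.2 * a.2) (a.1 * a.2 + a.1 * a.2) (a.1 * a.1) :=
    ⟨_, rfl⟩
  obtain ⟨γ2, hγ2⟩ : ∃ γ2, γ2 = g2 (C A) (C B) (a.2 * a.2) (a.1 * a.2 + a.1 * a.2) (a.1 * a.1) :=
    ⟨_, rfl⟩
  have hg0 : g0 (a.2 * a.2) (a.1 * a.2 + a.1 * a.2) (a.1 * a.1) = 0 := by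
    simp only [g0]; ring
  have hN : DivPoly.dupN (sw (TA A B) (TB A B)).b₄ (sw (TA A B) (TB A B)).b₆
      (sw (TA A B) (TB A B)).b₈ ξ 1 * D1 ^ 4 = lam A B ^ 4 * algebraMap k[X] (RatFunc k) γ2 := by
    rw [hγ2, sw_b₄, sw_b₆, sw_b₈]
    simp only [DivPoly.dupN, g2, map_sub, map_mul, map_add, map_pow, map_ofNat, hq1, hp1,
      RatFunc.algebraMap_C, TA, TB]
    rw [hξ1]
    ring
  have hD : DivPoly.dupD (sw (TA A B) (TB A B)).b₂ (sw (TA A B) (TB A B)).b₄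
      (sw (TA A B) (TB A B)).b₆ ξ 1 * D1 ^ 4 = lam A B ^ 3 * algebraMap k[X] (RatFunc k) γ1 := by
    rw [hγ1, sw_b₂, sw_b₄, sw_b₆]
    simp only [DivPoly.dupD, g1, map_mul, map_add, map_pow, map_ofNat, hq1, hp1,
      RatFunc.algebraMap_C, TA, TB]
    rw [hξ1]
    ring
  have hD4 : D1 ^ 4 ≠ 0 := pow_ne_zero _ hD1
  unfold ParProp
  rw [hg0, ← hγ1, ← hγ2]
  rcases hQ : (Affine.Point.some ξ υ n + Affine.Point.some ξ υ n : TPt A B) with _ | ⟨ξ₃, υ₃, n₃⟩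
  · rw [hQ] at hr
    obtain ⟨hr1, hr2⟩ := hr
    simp only at hr1 hr2
    have hG1z : γ1 = 0 := by
      have hD' := hD
      rw [show DivPoly.dupD (sw (TA A B) (TB A B)).b₂ (sw (TA A B) (TB A B)).b₄
        (sw (TA A B) (TB A B)).b₆ ξ 1 = 0 from hr1, zero_mul] at hD'
      apply hinj
      rw [map_zero]
      exact (mul_eq_zero.mp hD'.symm).resolve_left (pow_ne_zero _ hl)
    have hG2z : γ2 ≠ 0 := by
      intro h
      rw [h, map_zero, mul_zero] at hN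
      exact mul_ne_zero hr2 hD4 hN
    refine ⟨γ2, 1, hG2z, one_ne_zero, ?_, ?_, ?_⟩
    · simp
    · show _ * (1 * 0 + 1 * 0) = _
      rw [hG1z]; ring
    · show _ * (1 * 1) = _
      ring
  · rw [hQ] at hr
    obtain ⟨hr1, hr2⟩ := hr
    simp only at hr1 hr2
    obtain ⟨X3, D3, hD3, hξ3, hq3, hp3⟩ := xp_some_spec n₃
    have hG1z : γ1 ≠ 0 := by
      intro h
      rw [h, map_zero, mul_zero] at hD
      exact mul_ne_zero hr1 hD4 hD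
    have hG : algebraMap k[X] (RatFunc k) γ2 = X3 * algebraMap k[X] (RatFunc k) γ1 := by
      apply mul_left_cancel₀ (pow_ne_zero 4 hl)
      rw [← hN, show DivPoly.dupN (sw (TA A B) (TB A B)).b₄ (sw (TA A B) (TB A B)).b₆
        (sw (TA A B) (TB A B)).b₈ ξ 1 = ξ₃ * DivPoly.dupD (sw (TA A B) (TB A B)).b₂
          (sw (TA A B) (TB A B)).b₄ (sw (TA A B) (TB A B)).b₆ ξ 1 from hr2, hξ3]
      linear_combination X3 * lam A B * hD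
    refine ⟨γ1, (xp A B (.some ξ₃ υ₃ n₃)).2, hG1z, ?_, ?_, ?_, ?_⟩
    · intro h0
      apply hD3
      rw [← hq3, h0, map_zero]
    · simp
    · simp only [mul_zero, one_mul, zero_add]
      exact mul_comm _ _
    · apply hinj
      rw [map_mul, map_mul, map_mul, hG, hp3, hq3, map_one]
      ring

theorem par_prop (Q₁ Q₂ : TPt A B) :
    ParProp A B (xp A B Q₁) (xp A B Q₂) (xp A B (Q₁ + Q₂)) (xp A B (Q₁ - Q₂)) := by
  rcases Q₂ with _ | ⟨ξ₂, υ₂, n₂⟩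
  · change ParProp A B _ (xp A B 0) (xp A B (Q₁ + 0)) (xp A B (Q₁ - 0))
    rw [add_zero, sub_zero]
    exact par_zero_right _
  rcases Q₁ with _ | ⟨ξ₁, υ₁, n₁⟩
  · change ParProp A B (xp A B 0) _ (xp A B (0 + _)) (xp A B (0 - _))
    rw [zero_add, zero_sub, xp_neg]
    exact par_zero_left _
  by_cases hx : ξ₁ = ξ₂
  · rcases (Affine.Point.X_eq_iff (h₁ := n₁) (h₂ := n₂)).mp hx with he | he
    · rw [he, sub_self]
      exact par_dup n₂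
    · rw [he, neg_add_cancel, ← neg_add', xp_neg, xp_neg]
      exact (par_dup n₂).swap
  · exact par_ne n₁ n₂ hx

/-- [S52/T-PAR] -/
theorem dg_par [IsAlgClosed k] (h2 : (2 : k) ≠ 0) {A B : k} (hΔ : 4 * A ^ 3 + 27 * B ^ 2 ≠ 0)
    (P Q : TPt A B) : dg A B (P + Q) + dg A B (P - Q) = 2 * dg A B P + 2 * dg A B Q := by
  obtain ⟨r, r', hr, hr', e0, e1, e2⟩ := par_prop P Q
  have := PL h2 hΔ (xp_coprime P) (xp_coprime Q) (xp_coprime (P + Q)) (xp_coprime (P - Q)) hr hr'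
    e0 e1 e2
  rw [dg_eq_hd, dg_eq_hd, dg_eq_hd, dg_eq_hd]
  exact_mod_cast this

end Fermat.Agent.S52.T
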