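import Mathlib

/-!
# S52/T-QUAD : abstract quadratic forms (Mathlib only)

`d : G → ℤ` satisfies the parallelogram law.  Then `B x y = d (x + y) - d x - d y` is biadditive
(classical: Jordan - von Neumann; see e.g. Silverman AEC VIII.9.3 proof: apply the parallelogram law
to the four pairs `(x+y, z)`, `(x-y, z)`, `(x+z, y)`, `(y+z, x)` ... ), `d 0 = 0`, `d (-x) = d x`,
`d (m • x) = m ^ 2 * d x`, and
`d (x + a • y + b • z) = d x + a² d y + b² d z + a B x y + b B x z + a b B y z`.

`quad_key`: put `N = d (e1 - e0)`, `a = n + 1 - N`.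
* `B e1 e0 = d (e1 + e0) - n - 1 = (2 n + 2 - N) - n - 1 = a`         (parallelogram)
* `B e2 e1 = d (e2 + e1) - n² - n = n (d (e1 + e0) - n - 1) = n a`     (h21)
* `d (e2 - e0) = N (2 n + 2 - N) = (n+1)² - a²`                        (h20)
  so `d (e2 + e0) = 2 n² + 2 - (n+1)² + a²`, `B e2 e0 = a² - 2 n`.
* `d (e2 - a e1 + n e0) = n² + a² n + n² - a (n a) + n (a² - 2 n) - a n a = 0`.
-/

set_option autoImplicit false

namespace Fermat.Agent.S52.T

variable {G : Type*} [AddCommGroup G]

/-- the parallelogram law implies biadditivity of the polar form -/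
theorem quad_biadd (d : G → ℤ) (hpar : ∀ x y, d (x + y) + d (x - y) = 2 * d x + 2 * d y)
    (x y z : G) : d (x + y + z) - d (x + y) - d z = (d (x + z) - d x - d z) + (d (y + z) - d y - d z) := by
  have h1 := hpar (x + z) y
  have h2 := hpar x (z - y)
  have h3 := hpar (x + y) z
  have h4 := hpar z y
  rw [show x + z + y = x + y + z by abel] at h1
  rw [show x + (z - y) = x + z - y by abel, show x - (z - y) = x + y - z by abel] at h2
  rw [show z + y = y + z by abel] at h4
  linarith

theorem quad_zero (d : G → ℤ) (hpar : ∀ x y, d (x + y) + d (x - y) = 2 * d x + 2 * d y) :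
    d 0 = 0 := by
  have := hpar 0 0
  rw [add_zero, sub_zero] at this
  linarith

/-- the polar form as a biadditive map -/
noncomputable def quadB (d : G → ℤ) (hpar : ∀ x y, d (x + y) + d (x - y) = 2 * d x + 2 * d y) :
    G →+ G →+ ℤ :=
  AddMonoidHom.mk' (fun x => AddMonoidHom.mk' (fun y => d (x + y) - d x - d y) (fun y z => by
    have := quad_biadd d hpar y z x
    rw [show y + z + x = x + (y + z) by abel, show y + x = x + y by abel,
      show z + x = x + z by abel] at this
    linarith)) (fun x y => by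
    ext z
    exact quad_biadd d hpar x y z)

theorem quadB_apply (d : G → ℤ) (hpar : ∀ x y, d (x + y) + d (x - y) = 2 * d x + 2 * d y) (x y : G) :
    quadB d hpar x y = d (x + y) - d x - d y := rfl

theorem quadB_self (d : G → ℤ) (hpar : ∀ x y, d (x + y) + d (x - y) = 2 * d x + 2 * d y) (x : G) :
    quadB d hpar x x = 2 * d x := by
  have h1 := hpar x x
  rw [sub_self, quad_zero d hpar] at h1
  rw [quadB_apply]
  linarith

theorem quadB_comm (d : G → ℤ) (hpar : ∀ x y, d (x + y) + d (x - y) = 2 * d x + 2 * d y) (x y : G) :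
    quadB d hpar x y = quadB d hpar y x := by
  rw [quadB_apply, quadB_apply, add_comm x y]
  ring

/-- [S52/T-QUAD] -/
theorem quad_key (d : G → ℤ) (hpar : ∀ x y, d (x + y) + d (x - y) = 2 * d x + 2 * d y)
    (e0 e1 e2 : G) (n : ℤ) (h0 : d e0 = 1) (h1 : d e1 = n) (h2 : d e2 = n ^ 2)
    (h21 : d (e2 + e1) = n * d (e1 + e0)) (h20 : d (e2 - e0) = d (e1 - e0) * d (e1 + e0)) :
    d (e2 - (n + 1 - d (e1 - e0)) • e1 + n • e0) = 0 := by
  set N := d (e1 - e0) with hN
  set a := n + 1 - N with ha
  have hS : d (e1 + e0) = 2 * n + 2 - N := by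
    have := hpar e1 e0
    rw [h0, h1] at this
    linarith
  have b00 : quadB d hpar e0 e0 = 2 := by rw [quadB_self, h0]; ring
  have b11 : quadB d hpar e1 e1 = 2 * n := by rw [quadB_self, h1]
  have b22 : quadB d hpar e2 e2 = 2 * n ^ 2 := by rw [quadB_self, h2]
  have b10 : quadB d hpar e1 e0 = a := by rw [quadB_apply, hS, h0, h1]; ring
  have b01 : quadB d hpar e0 e1 = a := by rw [quadB_comm, b10]
  have b21 : quadB d hpar e2 e1 = n * a := by rw [quadB_apply, h21, hS, h1, h2]; ring
  have b12 : quadB d hpar e1 e2 = n * a := by rw [quadB_comm, b21]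
  have b20 : quadB d hpar e2 e0 = a ^ 2 - 2 * n := by
    have := hpar e2 e0
    rw [h20, hS, h0, h2] at this
    rw [quadB_apply, h0, h2]
    have e : d (e2 + e0) = 2 * n ^ 2 + 2 * 1 - N * (2 * n + 2 - N) := by linarith
    rw [e, ha]
    ring
  have b02 : quadB d hpar e0 e2 = a ^ 2 - 2 * n := by rw [quadB_comm, b20]
  have key := quadB_self d hpar (e2 - a • e1 + n • e0)
  simp only [map_add, map_sub, map_zsmul, AddMonoidHom.add_apply, AddMonoidHom.sub_apply,
    AddMonoidHom.coe_smul, Pi.smul_apply, smul_eq_mul, b00, b11, b22, b10, b01, b21, b12, b20,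
    b02] at key
  have : 2 * d (e2 - a • e1 + n • e0) = 0 := by
    rw [← key]
    ring
  linarith

end Fermat.Agent.S52.T
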