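import Fermat.Agent.S52.T.RedAdd
import Fermat.Agent.Lib.DivPoly
import Fermat.Agent.S41.Eis.Card

/-!
# S52/T-RED5 : reduction of the 5-torsion along a place of good reduction (`u = 1`)

`D : RedData K κ`, `D.u = 1`, `κ` algebraically closed, `2, 5 ≠ 0` in `κ`, `4 A'³ + 27 B'² ≠ 0`.
`W = sw D.A D.B` over `K`, `W' = sw D.A' D.B'` over `κ`, `W_O = sw ⟨A,_⟩ ⟨B,_⟩` over the ring `D.O`.
`h := DivPoly.half W_O 2 : D.O[X]` has degree `≤ 12` and coefficient of degree `12` equal to `-5` (`DivPoly.coeff_half`, `natDegree_half_le`);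
`h.map D.O.subtype = DivPoly.half W 2`, `h.map D.π = DivPoly.half W' 2` (`DivPoly.map_half`, `sw_map`, `D.eA`, `D.eB`, `u = 1`).

* `place_integral` (any place): `g : K` root of a polynomial `p : O[X]` whose leading coefficient `c` satisfies `π c ≠ 0` ⟹ `g ∈ O`.
  [otherwise `g⁻¹ ∈ O`, `π g⁻¹ = 0` (`mem_or`); `0 = g⁻ⁿ p(g) = c + c_{n-1} g⁻¹ + … = (p.reverse)(g⁻¹)`; apply `π`: `π c = 0`.]
* `red5_exists`: `P = 0` trivial.  `P = (x,y)`: `(half W 2).eval x = 0` (`DivPoly.odd_nsmul_eq_zero_iff`, `b = 2`), so `x ∈ O`; `y² = x³ + A x + B`, so `y ∈ O`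
  (monic); `(π x, π y)` satisfies the reduced equation; `sw_nonsingular`.
* `red5_tors`: `Rel P Q`, `5 P = 0` ⟹ `5 Q = 0`: `(half W' 2).eval (π x) = π (h.eval x) = 0`.
* `red5_x_inj`: `x₁ ≠ x₂` roots in `O` of `h` ⟹ `π x₁ ≠ π x₂`.  [`h = (X - x₁)(X - x₂) g` in `O[X]` (divide twice by monic linear polynomials:
  `Polynomial.mul_divByMonic_eq_iff_isRoot`; `x₂` is a root of the first quotient since `K` is a domain and `x₁ ≠ x₂`); reduce: if `π x₁ = π x₂ = c` then `(X - c)² ∣ half W' 2`;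
  but `half W' 2 = C (-5) * ∏_{x ∈ roots.toFinset} (X - C x)` (`DivPoly.half_eq_prod'` + `S41.Eis.card_torsionBy`) is squarefree/separable.]
* `red5_inj`: `Q₁ = Q₂` ⟹ `P₁ = P₂`.  Both `0`, or both affine: `x₁ = x₂` by `red5_x_inj`, `P₁ = ± P₂`; if `P₁ = -P₂`: `Q₁ = -Q₂ = -Q₁`, `2 Q₁ = 0 = 5 Q₁`, `Q₁ = 0`: absurd.
* `red5_add`: `RedData.rel_add` with `hi = red5_inj`, `hi' = red5_inj` for `(P₁, -P₂)` (`rel_neg`).
* `red5_zsmul`: induction.
-/

set_option autoImplicit false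
set_option linter.unusedSectionVars false

noncomputable section

namespace Fermat.Agent.S52.T

open Polynomial WeierstrassCurve

variable {K κ : Type*} [Field K] [Field κ]

/-- a place is "integrally closed" -/
theorem place_integral (𝔭 : Place K κ) {g : K} (p : (↥𝔭.O)[X]) (hp : 𝔭.π p.leadingCoeff ≠ 0)
    (hg : p.eval₂ 𝔭.O.subtype g = 0) : g ∈ 𝔭.O := by
  by_cases hg0 : g = 0
  · rw [hg0]; exact zero_mem _
  rcases 𝔭.mem_or g with h | ⟨h, h0⟩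
  · exact h
  · exfalso
    let _ : Invertible g := invertibleOfNonzero hg0
    have h1 : eval₂ 𝔭.O.subtype (⅟g) (reverse p) = 0 :=
      (eval₂_reverse_eq_zero_iff 𝔭.O.subtype g p).mpr hg
    have h2 : eval₂ 𝔭.O.subtype (𝔭.O.subtype ⟨g⁻¹, h⟩) (reverse p) = 0 := by
      rw [← h1, invOf_eq_inv]; rfl
    rw [eval₂_at_apply] at h2
    have h3 : (reverse p).eval ⟨g⁻¹, h⟩ = 0 := Subtype.ext h2
    have h4 := congrArg 𝔭.π h3
    rw [← eval₂_at_apply, h0, map_zero, eval₂_at_zero, coeff_zero_reverse] at h4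
    exact hp h4

/-- the 5-division polynomial over the ring of the place -/
def hO (D : RedData K κ) : (↥D.O)[X] :=
  DivPoly.half (sw (⟨D.A, D.hA⟩ : D.O) ⟨D.B, D.hB⟩) 2

theorem hO_map_subtype (D : RedData K κ) :
    (hO D).map D.O.subtype = DivPoly.half (sw D.A D.B) 2 := by
  rw [hO, DivPoly.map_half, sw_map]; rfl

theorem hO_map_π (D : RedData K κ) (hu : D.u = 1) :
    (hO D).map D.π = DivPoly.half (sw D.A' D.B') 2 := by
  rw [hO, DivPoly.map_half, sw_map, D.eA, D.eB, hu]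
  simp

theorem hO_leadingCoeff (D : RedData K κ) (h5 : (5 : κ) ≠ 0) : D.π (hO D).leadingCoeff ≠ 0 := by
  have h1 : (2 * ((2 : ℕ) : D.O) + 1) ≠ 0 := by
    intro h
    have h' := congrArg D.π h
    apply h5
    rw [map_zero] at h'
    rw [← h']
    simp only [map_add, map_mul, map_ofNat, map_one, Nat.cast_ofNat]
    norm_num
  rw [hO, DivPoly.leadingCoeff_half _ h1]
  simp only [map_neg, map_add, map_mul, map_ofNat, map_one, Nat.cast_ofNat]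
  intro h
  apply h5
  linear_combination -h

/-- evaluation of `hO` at an integral abscissa -/
theorem hO_eval (D : RedData K κ) (X₁ : D.O) :
    (((hO D).eval X₁ : D.O) : K) = (DivPoly.half (sw D.A D.B) 2).eval (X₁ : K) := by
  rw [← hO_map_subtype, eval_map]
  exact (eval₂_at_apply D.O.subtype X₁).symm

theorem hO_eval_π (D : RedData K κ) (hu : D.u = 1) (X₁ : D.O) :
    D.π ((hO D).eval X₁) = (DivPoly.half (sw D.A' D.B') 2).eval (D.π X₁) := by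
  rw [← hO_map_π D hu, eval_map]
  exact (eval₂_at_apply D.π X₁).symm

variable [DecidableEq K] [DecidableEq κ] {D : RedData K κ}

theorem red5_half_eval {F : Type*} [Field F] [DecidableEq F] {A B x y : F}
    (h : (sw A B).toAffine.Nonsingular x y) :
    5 • (Affine.Point.some x y h : Pt A B) = 0 ↔ (DivPoly.half (sw A B) 2).eval x = 0 :=
  DivPoly.odd_nsmul_eq_zero_iff (sw A B).toAffine h 2

theorem red5_exists (hu : D.u = 1) (h2 : (2 : κ) ≠ 0) (h5 : (5 : κ) ≠ 0)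
    (hΔ : 4 * D.A' ^ 3 + 27 * D.B' ^ 2 ≠ 0) {P : Pt D.A D.B} (hP : 5 • P = 0) : ∃ Q, D.Rel P Q := by
  rcases P with _ | ⟨x, y, h⟩
  · exact ⟨0, rfl⟩
  · have hx0 := (red5_half_eval h).mp hP
    have hx : x ∈ D.O := by
      refine place_integral D.toPlace (hO D) (hO_leadingCoeff D h5) ?_
      rw [← eval_map, hO_map_subtype]
      exact hx0
    have he : y ^ 2 = x ^ 3 + D.A * x + D.B := (sw_equation _ _ x y).mp h.1
    let X₁ : D.O := ⟨x, hx⟩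
    let c : D.O := X₁ ^ 3 + ⟨D.A, D.hA⟩ * X₁ + ⟨D.B, D.hB⟩
    have hy : y ∈ D.O := by
      have hm : (X ^ 2 - C c : (↥D.O)[X]).Monic := monic_X_pow_sub_C c (by norm_num)
      refine place_integral D.toPlace (X ^ 2 - C c) ?_ ?_
      · rw [hm.leadingCoeff, map_one]; exact one_ne_zero
      · rw [eval₂_sub, eval₂_pow, eval₂_X, eval₂_C, he]
        exact sub_self _
    let Y₁ : D.O := ⟨y, hy⟩
    have heO : Y₁ ^ 2 = X₁ ^ 3 + ⟨D.A, D.hA⟩ * X₁ + ⟨D.B, D.hB⟩ := Subtype.ext he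
    have he' : (D.π Y₁) ^ 2 = (D.π X₁) ^ 3 + D.A' * D.π X₁ + D.B' := by
      have := congrArg D.π heO
      rw [map_pow, map_add, map_add, map_mul, map_pow, D.eA, D.eB, hu] at this
      rw [this]; ring
    exact ⟨_, RedData.rel_some h X₁ Y₁ rfl rfl (sw_nonsingular hΔ h2 he') (by rw [hu]; ring)
      (by rw [hu]; ring)⟩

theorem red5_tors (hu : D.u = 1) {P : Pt D.A D.B} {Q : Pt D.A' D.B'} (hP : 5 • P = 0)
    (h : D.Rel P Q) : 5 • Q = 0 := by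
  rcases P with _ | ⟨x, y, hn⟩
  · have hQ : Q = 0 := h
    rw [hQ, smul_zero]
  · obtain ⟨X₁, Y₁, x', y', h', eX, eY, rfl, ex, ey⟩ := RedData.rel_some_elim h
    rw [red5_half_eval]
    have hx0 := (red5_half_eval hn).mp hP
    have h0 : (hO D).eval X₁ = 0 := by
      apply Subtype.ext
      rw [hO_eval, eX, hx0]; rfl
    have h1 := hO_eval_π D hu X₁
    rw [h0, map_zero, ex, hu, one_pow, mul_one] at h1
    exact h1.symm

/-- the 5-division polynomial of the reduced curve has simple roots -/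
theorem red5_nodup {F : Type*} [Field F] [DecidableEq F] [IsAlgClosed F] {A B : F}
    (h2 : (2 : F) ≠ 0) (h5 : (5 : F) ≠ 0) (hΔ : 4 * A ^ 3 + 27 * B ^ 2 ≠ 0) :
    (DivPoly.half (sw A B) 2).roots.Nodup := by
  have hΔ' : (sw A B).toAffine.Δ ≠ 0 := by
    show (sw A B).Δ ≠ 0
    rw [sw_Δ]
    refine mul_ne_zero ?_ hΔ
    have : (-16 : F) = -(2 ^ 4) := by norm_num
    rw [this]
    exact neg_ne_zero.mpr (pow_ne_zero _ h2)
  have hn : (((2 * 2 + 1 : ℕ)) : F) ≠ 0 := by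
    have : (((2 * 2 + 1 : ℕ)) : F) = 5 := by norm_num
    rw [this]; exact h5
  have hn' : (2 * ((2 : ℕ) : F) + 1) ≠ 0 := by
    have : (2 * ((2 : ℕ) : F) + 1) = 5 := by norm_num
    rw [this]; exact h5
  have hc := S41.Eis.card_torsionBy (sw A B).toAffine hΔ' (n := 2 * 2 + 1) ⟨2, rfl⟩ hn
  have h4 := (DivPoly.half_eq_prod' (sw A B).toAffine (b := 2) hn' hc).1
  have h5' : (DivPoly.half (sw A B) 2).roots.toFinset.card ≤
      Multiset.card (DivPoly.half (sw A B) 2).roots := Multiset.toFinset_card_le _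
  have h6 : Multiset.card (DivPoly.half (sw A B) 2).roots ≤ 2 * 2 ^ 2 + 2 * 2 :=
    (card_roots' _).trans (DivPoly.natDegree_half_le _ 2)
  rw [← Multiset.toFinset_card_eq_card_iff_nodup]
  have h4' : (DivPoly.half (sw A B) 2).roots.toFinset.card = 2 * 2 ^ 2 + 2 * 2 := h4
  omega

theorem red5_x_inj [IsAlgClosed κ] (hu : D.u = 1) (h2 : (2 : κ) ≠ 0) (h5 : (5 : κ) ≠ 0)
    (hΔ : 4 * D.A' ^ 3 + 27 * D.B' ^ 2 ≠ 0) {X₁ X₂ : D.O} (h₁ : (hO D).eval X₁ = 0)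
    (h₂ : (hO D).eval X₂ = 0) (he : D.π X₁ = D.π X₂) : X₁ = X₂ := by
  by_contra hne
  obtain ⟨g₁, hg₁⟩ := dvd_iff_isRoot.mpr h₁
  have h3 : g₁.eval X₂ = 0 := by
    rw [hg₁, eval_mul, eval_sub, eval_X, eval_C] at h₂
    exact (mul_eq_zero.mp h₂).resolve_left (sub_ne_zero.mpr (Ne.symm hne))
  obtain ⟨g₂, hg₂⟩ := dvd_iff_isRoot.mpr h3
  have h4 : DivPoly.half (sw D.A' D.B') 2 = (X - C (D.π X₁)) ^ 2 * g₂.map D.π := by
    rw [← hO_map_π D hu, hg₁, hg₂, Polynomial.map_mul, Polynomial.map_mul, Polynomial.map_sub,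
      Polynomial.map_sub, map_X, map_C, map_C, ← he]
    ring
  have hne0 : DivPoly.half (sw D.A' D.B') 2 ≠ 0 := by
    refine DivPoly.half_ne_zero _ ?_
    have : (2 * ((2 : ℕ) : κ) + 1) = 5 := by norm_num
    rw [this]; exact h5
  have h6 : 2 ≤ rootMultiplicity (D.π X₁) (DivPoly.half (sw D.A' D.B') 2) :=
    (le_rootMultiplicity_iff hne0).mpr ⟨_, h4⟩
  have h7 := Multiset.nodup_iff_count_le_one.mp (red5_nodup h2 h5 hΔ) (D.π X₁)
  rw [count_roots] at h7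
  omega

theorem red5_inj [IsAlgClosed κ] (hu : D.u = 1) (h2 : (2 : κ) ≠ 0) (h5 : (5 : κ) ≠ 0)
    (hΔ : 4 * D.A' ^ 3 + 27 * D.B' ^ 2 ≠ 0) {P₁ P₂ : Pt D.A D.B} {Q : Pt D.A' D.B'}
    (hP₁ : 5 • P₁ = 0) (hP₂ : 5 • P₂ = 0) (h₁ : D.Rel P₁ Q) (h₂ : D.Rel P₂ Q) : P₁ = P₂ := by
  have hQ5 := red5_tors hu hP₁ h₁
  rcases P₁ with _ | ⟨x₁, y₁, n₁⟩
  · have hQ : Q = 0 := h₁
    subst hQ
    exact (RedData.rel_eq_zero h₂).symm
  rcases P₂ with _ | ⟨x₂, y₂, n₂⟩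
  · have hQ : Q = 0 := h₂
    subst hQ
    exact RedData.rel_eq_zero h₁
  obtain ⟨X₁, Y₁, x', y', h', eX₁, eY₁, rfl, ex₁, ey₁⟩ := RedData.rel_some_elim h₁
  obtain ⟨X₂, Y₂, x'', y'', h'', eX₂, eY₂, e, ex₂, ey₂⟩ := RedData.rel_some_elim h₂
  rw [Affine.Point.some.injEq] at e
  obtain ⟨rfl, rfl⟩ := e
  have r₁ : (hO D).eval X₁ = 0 := by
    apply Subtype.ext
    rw [hO_eval, eX₁, (red5_half_eval n₁).mp hP₁]; rfl
  have r₂ : (hO D).eval X₂ = 0 := by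
    apply Subtype.ext
    rw [hO_eval, eX₂, (red5_half_eval n₂).mp hP₂]; rfl
  have hX : X₁ = X₂ := red5_x_inj hu h2 h5 hΔ r₁ r₂ (ex₁.trans ex₂.symm)
  have hx : x₁ = x₂ := by rw [← eX₁, ← eX₂, hX]
  subst hx
  have e₁ : y₁ ^ 2 = x₁ ^ 3 + D.A * x₁ + D.B := (sw_equation _ _ _ _).mp n₁.1
  have e₂ : y₂ ^ 2 = x₁ ^ 3 + D.A * x₁ + D.B := (sw_equation _ _ _ _).mp n₂.1
  rcases sq_eq_sq_iff_eq_or_eq_neg.mp (e₁.trans e₂.symm) with hy | hy
  · subst hy; rfl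
  · exfalso
    have hY : Y₁ = -Y₂ := Subtype.ext (by rw [eY₁, hy, ← eY₂]; rfl)
    have hy0 : y' = 0 := by
      have h3 : D.π Y₁ = - D.π Y₂ := by rw [hY, map_neg]
      rw [ey₁, ey₂, hu] at h3
      have h4 : 2 * y' = 0 := by linear_combination h3
      exact (mul_eq_zero.mp h4).resolve_left h2
    subst hy0
    have hneg : -(Affine.Point.some x' 0 h' : Pt D.A' D.B') = Affine.Point.some x' 0 h' := by
      rw [Affine.Point.neg_some, Affine.Point.some.injEq]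
      exact ⟨rfl, by rw [sw_negY, neg_zero]⟩
    have hne := Affine.Point.some_ne_zero h'
    obtain ⟨Q, hQ⟩ : ∃ Q : Pt D.A' D.B', Q = Affine.Point.some x' 0 h' := ⟨_, rfl⟩
    rw [← hQ] at hneg hne hQ5
    have h2Q : Q + Q = 0 := by
      have h3 : Q + Q = Q + -Q := by rw [hneg]
      rw [h3, add_neg_cancel]
    have h5Q : 5 • Q = Q + (Q + Q) + (Q + Q) := by abel
    rw [h2Q, add_zero, add_zero, hQ5] at h5Q
    exact hne h5Q.symm

/-- [S52/T-RED5] -/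
theorem red5_add [IsAlgClosed κ] (hu : D.u = 1) (h2 : (2 : κ) ≠ 0) (h5 : (5 : κ) ≠ 0)
    (hΔ : 4 * D.A' ^ 3 + 27 * D.B' ^ 2 ≠ 0) {P₁ P₂ : Pt D.A D.B} {Q₁ Q₂ : Pt D.A' D.B'}
    (hP₁ : 5 • P₁ = 0) (hP₂ : 5 • P₂ = 0) (h₁ : D.Rel P₁ Q₁) (h₂ : D.Rel P₂ Q₂) :
    D.Rel (P₁ + P₂) (Q₁ + Q₂) := by
  refine RedData.rel_add h2 h₁ h₂ (fun e => ?_) (fun e => ?_)
  · subst e
    exact red5_inj hu h2 h5 hΔ hP₁ hP₂ h₁ h₂
  · subst e
    exact red5_inj hu h2 h5 hΔ hP₁ (by rw [smul_neg, hP₂, neg_zero]) h₁ (RedData.rel_neg h₂)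

theorem red5_zsmul [IsAlgClosed κ] (hu : D.u = 1) (h2 : (2 : κ) ≠ 0) (h5 : (5 : κ) ≠ 0)
    (hΔ : 4 * D.A' ^ 3 + 27 * D.B' ^ 2 ≠ 0) {P : Pt D.A D.B} {Q : Pt D.A' D.B'}
    (hP : 5 • P = 0) (h : D.Rel P Q) (n : ℤ) : D.Rel (n • P) (n • Q) := by
  have h5n : ∀ m : ℤ, 5 • (m • P) = 0 := fun m => by rw [smul_comm, hP, smul_zero]
  induction n using Int.induction_on with
  | zero => rw [zero_zsmul, zero_zsmul]; exact rfl
  | succ n ih =>
    rw [add_zsmul, add_zsmul, one_zsmul, one_zsmul]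
    exact red5_add hu h2 h5 hΔ (h5n _) hP ih h
  | pred n ih =>
    rw [sub_zsmul, sub_zsmul, one_zsmul, one_zsmul]
    exact red5_add hu h2 h5 hΔ (h5n _) (by rw [smul_neg, hP, neg_zero]) ih (RedData.rel_neg h)

end Fermat.Agent.S52.T
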