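import Fermat.Agent.S52.T.Defs

/-!
# S52/T-REDADD : the reduction relation is additive (as long as no collision happens)   (Mathlib only)

`D : RedData K κ`; `D.Rel P Q` : `P = 0 = Q`, or `P = (x, y)` with `x y ∈ O` and `Q = (π x / u², π y / u³)`.

* `rel_unique`, `rel_eq_zero`, `rel_neg` : immediate from the definition (`Point.neg_some`, `sw_negY`).
* `rel_add` : if one point is `0`: trivial.  Both affine, `Pᵢ = (xᵢ, yᵢ)`, `Qᵢ = (x̄ᵢ, ȳᵢ)`.
  - `x̄₁ ≠ x̄₂`: then `π (x₁ - x₂) ≠ 0`, so `x₁ ≠ x₂` and `(x₁ - x₂)⁻¹ ∈ O` (`D.unit`), the slope `L = (y₁ - y₂)/(x₁ - x₂) ∈ O`,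
    `π L = u * L̄`; `Point.add_of_X_ne` (as in `Lib/DivPoly.lean`, `add_sub_X`) on both sides, `Affine.slope_of_X_ne`, `addX`, `addY`
    are polynomials in `L, xᵢ, y₁`; compare.
  - `x̄₁ = x̄₂`: `Q₁ = Q₂` or `Q₁ = -Q₂` (`Point.X_eq_iff`).  If `Q₁ = -Q₂`: `P₁ = -P₂` (`hi'`), both sums are `0`.
    Otherwise `Q₁ = Q₂ ≠ -Q₂`, `P₁ = P₂` (`hi`), `ȳ ≠ -ȳ`, so `π (2 y) ≠ 0`, `(2y)⁻¹ ∈ O`, slope `L = (3x² + A)/(2y) ∈ O`;
    `Point.add_self_of_Y_ne` / `Affine.slope_of_Y_ne` on both sides.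
* `exists_mapPt` : take `O = ⊤`, `π = σ`, `u = 1`; `Rel` is then the graph of a map (nonsingularity of the image: apply `σ` to the
  equation and to the partial derivatives; or `Affine.map_nonsingular` + `sw_map`), `hi`, `hi'` hold because `σ` is injective.
  (Alternative: `subst hA hB`, rewrite `sw (σ A) (σ B) = (sw A B).map σ` and use Mathlib's `Affine.Point.map`.)
-/

set_option autoImplicit false
set_option linter.unusedSectionVars false

noncomputable section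

namespace Fermat.Agent.S52.T

open WeierstrassCurve WeierstrassCurve.Affine

variable {K κ : Type*} [Field K] [Field κ] (D : RedData K κ)

theorem RedData.rel_zero : D.Rel 0 0 := rfl

variable {D}

theorem redadd_some_eq {F : Type*} [Field F] {W : Affine F} {x y x' y' : F} (h : W.Nonsingular x y)
    (hx : x' = x) (hy : y' = y) : ∃ h' : W.Nonsingular x' y', Point.some x y h = Point.some x' y' h' := by
  subst hx hy
  exact ⟨h, rfl⟩

theorem RedData.rel_unique {P : Pt D.A D.B} {Q Q' : Pt D.A' D.B'} (h : D.Rel P Q) (h' : D.Rel P Q') :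
    Q = Q' := by
  rcases P with _ | ⟨x, y, hP⟩
  · exact Eq.trans h (Eq.symm h')
  · obtain ⟨hx, hy, hn, rfl⟩ := h
    obtain ⟨hx', hy', hn', rfl⟩ := h'
    rfl

theorem RedData.rel_eq_zero {P : Pt D.A D.B} (h : D.Rel P 0) : P = 0 := by
  rcases P with _ | ⟨x, y, hP⟩
  · rfl
  · obtain ⟨hx, hy, hn, h0⟩ := h
    exact absurd h0.symm (Point.some_ne_zero hn)

theorem RedData.rel_zero_left {Q : Pt D.A' D.B'} (h : D.Rel 0 Q) : Q = 0 := h

/-- introduction rule for `Rel` on affine points -/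
theorem RedData.rel_some {x y : K} (h : (sw D.A D.B).toAffine.Nonsingular x y) (X Y : D.O)
    (eX : (X : K) = x) (eY : (Y : K) = y) {x' y' : κ}
    (h' : (sw D.A' D.B').toAffine.Nonsingular x' y') (ex : D.π X = x' * D.u ^ 2)
    (ey : D.π Y = y' * D.u ^ 3) : D.Rel (.some x y h) (.some x' y' h') := by
  subst eX eY
  have hu := D.hu
  have e1 : D.π ⟨(X : K), X.2⟩ / D.u ^ 2 = x' := by
    rw [Subtype.coe_eta, ex]; field_simp
  have e2 : D.π ⟨(Y : K), Y.2⟩ / D.u ^ 3 = y' := by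
    rw [Subtype.coe_eta, ey]; field_simp
  obtain ⟨h'', e⟩ := redadd_some_eq h' e1 e2
  exact ⟨X.2, Y.2, h'', e⟩

/-- elimination rule -/
theorem RedData.rel_some_elim {x y : K} {h : (sw D.A D.B).toAffine.Nonsingular x y}
    {Q : Pt D.A' D.B'} (hr : D.Rel (.some x y h) Q) :
    ∃ (X Y : D.O) (x' y' : κ) (h' : (sw D.A' D.B').toAffine.Nonsingular x' y'),
      (X : K) = x ∧ (Y : K) = y ∧ Q = .some x' y' h' ∧ D.π X = x' * D.u ^ 2 ∧
        D.π Y = y' * D.u ^ 3 := by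
  obtain ⟨hx, hy, hn, rfl⟩ := hr
  have hu := D.hu
  refine ⟨⟨x, hx⟩, ⟨y, hy⟩, _, _, hn, rfl, rfl, rfl, ?_, ?_⟩ <;> field_simp

variable [DecidableEq K] [DecidableEq κ]

theorem RedData.rel_neg {P : Pt D.A D.B} {Q : Pt D.A' D.B'} (h : D.Rel P Q) : D.Rel (-P) (-Q) := by
  rcases P with _ | ⟨x, y, hP⟩
  · have : Q = 0 := h
    subst this
    exact rfl
  · obtain ⟨X, Y, x', y', h', eX, eY, rfl, ex, ey⟩ := RedData.rel_some_elim h
    rw [Point.neg_some, Point.neg_some]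
    refine RedData.rel_some _ X (-Y) eX ?_ _ ex ?_
    · rw [sw_negY, ← eY]; rfl
    · rw [sw_negY, map_neg, ey]; ring

/-- the common computation -/
theorem redadd_core {x₁ y₁ x₂ y₂ : K} (h₁ : (sw D.A D.B).toAffine.Nonsingular x₁ y₁)
    (h₂ : (sw D.A D.B).toAffine.Nonsingular x₂ y₂) (X₁ Y₁ X₂ Lo : D.O)
    (eX₁ : (X₁ : K) = x₁) (eY₁ : (Y₁ : K) = y₁) (eX₂ : (X₂ : K) = x₂)
    {x₁' y₁' x₂' y₂' : κ} (h₁' : (sw D.A' D.B').toAffine.Nonsingular x₁' y₁')
    (h₂' : (sw D.A' D.B').toAffine.Nonsingular x₂' y₂')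
    (ex₁ : D.π X₁ = x₁' * D.u ^ 2) (ey₁ : D.π Y₁ = y₁' * D.u ^ 3) (ex₂ : D.π X₂ = x₂' * D.u ^ 2)
    (hxy : ¬(x₁ = x₂ ∧ y₁ = (sw D.A D.B).toAffine.negY x₂ y₂))
    (hxy' : ¬(x₁' = x₂' ∧ y₁' = (sw D.A' D.B').toAffine.negY x₂' y₂'))
    (hL : (Lo : K) = (sw D.A D.B).toAffine.slope x₁ x₂ y₁ y₂)
    (hL' : D.π Lo = (sw D.A' D.B').toAffine.slope x₁' x₂' y₁' y₂' * D.u) :
    D.Rel (Point.some x₁ y₁ h₁ + Point.some x₂ y₂ h₂)
      (Point.some x₁' y₁' h₁' + Point.some x₂' y₂' h₂') := by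
  rw [Point.add_some hxy, Point.add_some hxy']
  refine RedData.rel_some _ (Lo ^ 2 - X₁ - X₂) (-(Lo * ((Lo ^ 2 - X₁ - X₂) - X₁) + Y₁)) ?_ ?_ _ ?_ ?_
  · rw [← hL, ← eX₁, ← eX₂]
    simp [Affine.addX]
  · rw [← hL, ← eX₁, ← eX₂, ← eY₁]
    simp [Affine.addY, Affine.negAddY, Affine.addX, Affine.negY]
  · simp only [map_sub, map_pow, hL', ex₁, ex₂, Affine.addX, sw_a₁, sw_a₂]
    ring
  · simp only [map_sub, map_pow, map_neg, map_add, map_mul, hL', ex₁, ex₂, ey₁, Affine.addX,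
      Affine.addY, Affine.negAddY, Affine.negY, sw_a₁, sw_a₂, sw_a₃]
    ring

omit [DecidableEq K] [DecidableEq κ] in
theorem Place.exists_inv (𝔭 : Place K κ) (g : 𝔭.O) (hg : 𝔭.π g ≠ 0) :
    ∃ i : 𝔭.O, (i : K) = (g : K)⁻¹ ∧ 𝔭.π i = (𝔭.π g)⁻¹ := by
  have hg0 : (g : K) ≠ 0 := by
    intro h
    apply hg
    have : g = 0 := Subtype.ext h
    rw [this, map_zero]
  refine ⟨⟨_, 𝔭.unit g hg⟩, rfl, ?_⟩
  have h1 : (⟨_, 𝔭.unit g hg⟩ : 𝔭.O) * g = 1 := Subtype.ext (inv_mul_cancel₀ hg0)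
  have h := congrArg 𝔭.π h1
  rw [map_mul, map_one] at h
  exact eq_inv_of_mul_eq_one_left h

/-- [S52/T-REDADD] -/
theorem RedData.rel_add (h2 : (2 : κ) ≠ 0) {P₁ P₂ : Pt D.A D.B} {Q₁ Q₂ : Pt D.A' D.B'}
    (h₁ : D.Rel P₁ Q₁) (h₂ : D.Rel P₂ Q₂) (hi : Q₁ = Q₂ → P₁ = P₂) (hi' : Q₁ = -Q₂ → P₁ = -P₂) :
    D.Rel (P₁ + P₂) (Q₁ + Q₂) := by
  rcases P₁ with _ | ⟨x₁, y₁, hP₁⟩
  · have : Q₁ = 0 := h₁
    subst this
    change D.Rel (0 + P₂) (0 + Q₂)
    rw [zero_add, zero_add]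
    exact h₂
  rcases P₂ with _ | ⟨x₂, y₂, hP₂⟩
  · have : Q₂ = 0 := h₂
    subst this
    change D.Rel (_ + 0) (Q₁ + 0)
    rw [add_zero, add_zero]
    exact h₁
  obtain ⟨X₁, Y₁, x₁', y₁', h₁', eX₁, eY₁, rfl, ex₁, ey₁⟩ := RedData.rel_some_elim h₁
  obtain ⟨X₂, Y₂, x₂', y₂', h₂', eX₂, eY₂, rfl, ex₂, ey₂⟩ := RedData.rel_some_elim h₂
  have hu := D.hu
  have hopp : Point.some x₁' y₁' h₁' = -Point.some x₂' y₂' h₂' →
      D.Rel (Point.some x₁ y₁ hP₁ + Point.some x₂ y₂ hP₂)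
        (Point.some x₁' y₁' h₁' + Point.some x₂' y₂' h₂') := by
    intro he
    rw [hi' he, he, neg_add_cancel, neg_add_cancel]
    exact rfl
  by_cases hx' : x₁' = x₂'
  · rcases (Point.X_eq_iff (h₁ := h₁') (h₂ := h₂')).mp hx' with he | he
    · by_cases he' : Point.some x₁' y₁' h₁' = -Point.some x₂' y₂' h₂'
      · exact hopp he'
      · have hP := hi he
        rw [Point.some.injEq] at hP he
        obtain ⟨rfl, rfl⟩ := hP
        obtain ⟨rfl, rfl⟩ := he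
        have hy' : y₁' ≠ (sw D.A' D.B').toAffine.negY x₁' y₁' := by
          intro h
          apply he'
          rw [Point.neg_some, Point.some.injEq]
          exact ⟨rfl, h⟩
        have hy'0 : y₁' ≠ 0 := by
          intro h
          apply hy'
          rw [sw_negY, h, neg_zero]
        have hπ : D.π (2 * Y₁) ≠ 0 := by
          rw [map_mul, map_ofNat, ey₁]
          exact mul_ne_zero h2 (mul_ne_zero hy'0 (pow_ne_zero _ hu))
        obtain ⟨I, eI, hI⟩ := D.toPlace.exists_inv (2 * Y₁) hπ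
        have hy0 : x₁ = x₁ → y₁ ≠ (sw D.A D.B).toAffine.negY x₁ y₁ := by
          intro _ h
          rw [sw_negY] at h
          apply hπ
          have h3 : (2 * Y₁ : D.O) = 0 := by
            apply Subtype.ext
            show (2 : K) * (Y₁ : K) = 0
            rw [eY₁]
            linear_combination h
          rw [h3, map_zero]
        refine redadd_core hP₁ hP₁ X₁ Y₁ X₁ ((3 * X₁ ^ 2 + ⟨D.A, D.hA⟩) * I) eX₁ eY₁ eX₁ h₁' h₁'
          ex₁ ey₁ ex₁ (fun h => hy0 rfl h.2) (fun h => hy' h.2) ?_ ?_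
        · rw [Affine.slope_of_Y_ne rfl (hy0 rfl), sw_negY]
          simp only [sw_a₁, sw_a₂, sw_a₄]
          show ((3 : K) * (X₁ : K) ^ 2 + D.A) * (I : K) = _
          rw [eI]
          show ((3 : K) * (X₁ : K) ^ 2 + D.A) * ((2 : K) * (Y₁ : K))⁻¹ = _
          rw [eX₁, eY₁, div_eq_mul_inv]
          congr 2 <;> ring
        · rw [Affine.slope_of_Y_ne rfl hy', sw_negY]
          simp only [sw_a₁, sw_a₂, sw_a₄]
          rw [map_mul, hI, map_add, map_mul, map_mul, map_pow, map_ofNat, map_ofNat, ex₁, ey₁, D.eA]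
          have e3 : y₁' - -y₁' = 2 * y₁' := by ring
          rw [e3]
          field_simp
          ring
    · exact hopp he
  · have hπ : D.π (X₁ - X₂) ≠ 0 := by
      rw [map_sub, ex₁, ex₂, ← sub_mul]
      exact mul_ne_zero (sub_ne_zero.mpr hx') (pow_ne_zero _ hu)
    obtain ⟨I, eI, hI⟩ := D.toPlace.exists_inv (X₁ - X₂) hπ
    have hx : x₁ ≠ x₂ := by
      intro h
      apply hπ
      have h3 : X₁ - X₂ = 0 := by
        apply Subtype.ext
        show (X₁ : K) - (X₂ : K) = 0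
        rw [eX₁, eX₂, h, sub_self]
      rw [h3, map_zero]
    refine redadd_core hP₁ hP₂ X₁ Y₁ X₂ ((Y₁ - Y₂) * I) eX₁ eY₁ eX₂ h₁' h₂'
      ex₁ ey₁ ex₂ (fun h => hx h.1) (fun h => hx' h.1) ?_ ?_
    · rw [Affine.slope_of_X_ne hx]
      show ((Y₁ : K) - (Y₂ : K)) * (I : K) = _
      rw [eI]
      show ((Y₁ : K) - (Y₂ : K)) * ((X₁ : K) - (X₂ : K))⁻¹ = _
      rw [eX₁, eX₂, eY₁, eY₂, div_eq_mul_inv]
    · rw [Affine.slope_of_X_ne hx', map_mul, hI, map_sub, map_sub, ex₁, ex₂, ey₁, ey₂]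
      have h4 : x₁' - x₂' ≠ 0 := sub_ne_zero.mpr hx'
      field_simp

/-- a field homomorphism induces an injective homomorphism on points -/
theorem exists_mapPt (σ : K →+* κ) (h2 : (2 : κ) ≠ 0) {A B : K} {A' B' : κ} (hA : σ A = A')
    (hB : σ B = B') :
    ∃ F : Pt A B →+ Pt A' B', Function.Injective F ∧
      ∀ (x y : K) (h : (sw A B).toAffine.Nonsingular x y),
        ∃ h' : (sw A' B').toAffine.Nonsingular (σ x) (σ y), F (.some x y h) = .some (σ x) (σ y) h' := by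
  subst hA hB
  have key : ∀ W2 : WeierstrassCurve κ, W2 = (sw A B).map σ →
      ∃ F : Pt A B →+ W2.toAffine.Point, Function.Injective F ∧
      ∀ (x y : K) (h : (sw A B).toAffine.Nonsingular x y),
        ∃ h' : W2.toAffine.Nonsingular (σ x) (σ y), F (.some x y h) = .some (σ x) (σ y) h' := by
    rintro W2 rfl
    have hσ : Function.Injective σ := σ.injective
    let F0 : Pt A B → ((sw A B).map σ).toAffine.Point := fun P => match P with
      | .zero => 0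
      | .some x y h => .some (σ x) (σ y) ((Affine.map_nonsingular (sw A B) hσ x y).mpr h)
    have hadd : ∀ P Q, F0 (P + Q) = F0 P + F0 Q := by
      rintro (_ | ⟨x₁, y₁, h₁⟩) (_ | ⟨x₂, y₂, h₂⟩)
      any_goals rfl
      by_cases hxy : x₁ = x₂ ∧ y₁ = (sw A B).toAffine.negY x₂ y₂
      · show F0 (Point.some x₁ y₁ h₁ + Point.some x₂ y₂ h₂) = Point.some _ _ _ + Point.some _ _ _
        rw [Point.add_of_Y_eq hxy.left hxy.right,
          Point.add_of_Y_eq (congr_arg _ hxy.left) <| by rw [hxy.right, Affine.map_negY]]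
      · show F0 (Point.some x₁ y₁ h₁ + Point.some x₂ y₂ h₂) = Point.some _ _ _ + Point.some _ _ _
        have h3 : ¬ (σ x₁ = σ x₂ ∧ σ y₁ = ((sw A B).map σ).toAffine.negY (σ x₂) (σ y₂)) := by
          rintro ⟨ha, hb⟩
          rw [Affine.map_negY] at hb
          exact hxy ⟨hσ ha, hσ hb⟩
        rw [Point.add_some hxy, Point.add_some h3]
        show Point.some _ _ _ = _
        rw [Point.some.injEq]
        constructor
        · rw [Affine.map_slope, Affine.map_addX]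
        · rw [Affine.map_slope, Affine.map_addY]
    refine ⟨AddMonoidHom.mk' F0 hadd, ?_, ?_⟩
    · rintro (_ | ⟨x₁, y₁, h₁⟩) (_ | ⟨x₂, y₂, h₂⟩) h
      · rfl
      · exact absurd h.symm (Point.some_ne_zero _)
      · exact absurd h (Point.some_ne_zero _)
      · have h' : Point.some (σ x₁) (σ y₁) ((Affine.map_nonsingular (sw A B) hσ x₁ y₁).mpr h₁)
            = Point.some (σ x₂) (σ y₂) ((Affine.map_nonsingular (sw A B) hσ x₂ y₂).mpr h₂) := h
        rw [Point.some.injEq] at h'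
        rw [Point.some.injEq]
        exact ⟨hσ h'.1, hσ h'.2⟩
    · intro x y h
      exact ⟨(Affine.map_nonsingular (sw A B) hσ x y).mpr h, rfl⟩
  exact key _ (sw_map A B σ).symm

end Fermat.Agent.S52.T
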