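import Fermat.Agent.S52.T.Defs

/-!
# S52/T-REG : the place `X = a` of the rational function field `k(X)`   (Mathlib only)

`regRing a` = rational functions whose (reduced) denominator does not vanish at `a`; `rv a g` = value of `g` at `a`
(`RatFunc.eval (RingHom.id k) a g = num(a) / denom(a)`).

Proofs: closure under `+`, `*`, `-`: `RatFunc.denom_add_dvd`, `RatFunc.denom_mul_dvd`, `RatFunc.denom_neg` (a divisor of a polynomial which
does not vanish at `a` does not vanish at `a`); ring hom: `RatFunc.eval_add`, `RatFunc.eval_mul`, `RatFunc.eval_one`, `RatFunc.eval_zero`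
(`eval₂ (RingHom.id k) a = eval a`: `Polynomial.eval₂_id`).
`mem_or`: `g = p/q` reduced, `q(a) = 0` ⇒ `p(a) ≠ 0` (`RatFunc.isCoprime_num_denom`), `g⁻¹ = q/p` has a denominator dividing `p`
(`RatFunc.denom_div_dvd` / `RatFunc.denom_inv_dvd`...) and the value `q(a)/p(a) = 0`.  General tool: `rv_div`.
`unit`: `g` regular, `g(a) ≠ 0` ⇒ `num(a) ≠ 0` ⇒ `g⁻¹ = denom/num` regular.
Finiteness: roots of `denom g`, resp. of `num g`.
-/

set_option autoImplicit false

noncomputable section

namespace Fermat.Agent.S52.T

open Polynomial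

variable {k : Type*} [Field k]

/-- decidable equality on `k(X)` (needed for the group law of Mathlib) -/
instance instDecEqRatFunc : DecidableEq (RatFunc k) := Classical.decEq _

/-- the value of `g` at `a` (junk if `g` has a pole) -/
def rv (a : k) (g : RatFunc k) : k := RatFunc.eval (RingHom.id k) a g

theorem reg_ne_of_dvd {a : k} {p q : k[X]} (h : p ∣ q) (hq : q.eval a ≠ 0) : p.eval a ≠ 0 := by
  intro h0
  exact hq (Polynomial.eval_eq_zero_of_dvd_of_eval_eq_zero h h0)

/-- rational functions regular at `a` -/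
def regRing (a : k) : Subring (RatFunc k) where
  carrier := {g | g.denom.eval a ≠ 0}
  mul_mem' := by
    intro x y hx hy
    refine reg_ne_of_dvd (RatFunc.denom_mul_dvd x y) ?_
    rw [eval_mul]
    exact mul_ne_zero hx hy
  one_mem' := by simp
  add_mem' := by
    intro x y hx hy
    refine reg_ne_of_dvd (RatFunc.denom_add_dvd x y) ?_
    rw [eval_mul]
    exact mul_ne_zero hx hy
  zero_mem' := by simp
  neg_mem' := by
    intro x hx
    have h1 : -x = RatFunc.C (-1) * x := by simp
    show (-x).denom.eval a ≠ 0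
    rw [h1]
    refine reg_ne_of_dvd (RatFunc.denom_mul_dvd _ x) ?_
    rw [eval_mul, RatFunc.denom_C, eval_one, one_mul]
    exact hx

theorem mem_regRing {a : k} {g : RatFunc k} : g ∈ regRing a ↔ g.denom.eval a ≠ 0 := Iff.rfl

/-- evaluation at `a` -/
def evr (a : k) : regRing a →+* k where
  toFun g := rv a g
  map_one' := by simp [rv]
  map_mul' := by
    intro x y
    have hx : Polynomial.eval₂ (RingHom.id k) a (x : RatFunc k).denom ≠ 0 := by
      rw [eval₂_id]; exact x.2
    have hy : Polynomial.eval₂ (RingHom.id k) a (y : RatFunc k).denom ≠ 0 := by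
      rw [eval₂_id]; exact y.2
    exact RatFunc.eval_mul _ _ hx hy
  map_zero' := by simp [rv]
  map_add' := by
    intro x y
    have hx : Polynomial.eval₂ (RingHom.id k) a (x : RatFunc k).denom ≠ 0 := by
      rw [eval₂_id]; exact x.2
    have hy : Polynomial.eval₂ (RingHom.id k) a (y : RatFunc k).denom ≠ 0 := by
      rw [eval₂_id]; exact y.2
    exact RatFunc.eval_add _ _ hx hy

@[simp] theorem evr_apply (a : k) (g : regRing a) : evr a g = rv a (g : RatFunc k) := rfl

theorem algebraMap_mem_regRing (a : k) (p : k[X]) : algebraMap k[X] (RatFunc k) p ∈ regRing a := by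
  rw [mem_regRing, RatFunc.denom_algebraMap, eval_one]
  exact one_ne_zero

theorem rv_algebraMap (a : k) (p : k[X]) : rv a (algebraMap k[X] (RatFunc k) p) = p.eval a := by
  simp [rv, RatFunc.eval]

theorem div_mem_regRing {a : k} (p : k[X]) {q : k[X]} (hq : q.eval a ≠ 0) :
    algebraMap k[X] (RatFunc k) p / algebraMap k[X] (RatFunc k) q ∈ regRing a :=
  reg_ne_of_dvd (RatFunc.denom_div_dvd p q) hq

theorem rv_div {a : k} (p : k[X]) {q : k[X]} (hq : q.eval a ≠ 0) :
    rv a (algebraMap k[X] (RatFunc k) p / algebraMap k[X] (RatFunc k) q) = p.eval a / q.eval a := by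
  have hq0 : q ≠ 0 := by rintro rfl; simp at hq
  have hq1 : algebraMap k[X] (RatFunc k) q ≠ 0 := RatFunc.algebraMap_ne_zero hq0
  have h1 : evr a ⟨_, div_mem_regRing p hq⟩ * evr a ⟨_, algebraMap_mem_regRing a q⟩ =
      evr a ⟨_, algebraMap_mem_regRing a p⟩ := by
    rw [← map_mul]
    congr 1
    exact Subtype.ext (div_mul_cancel₀ _ hq1)
  simp only [evr_apply, rv_algebraMap] at h1
  rw [eq_div_iff hq, h1]

theorem C_mem_regRing (a c : k) : RatFunc.C c ∈ regRing a := by
  rw [mem_regRing, RatFunc.denom_C, eval_one]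
  exact one_ne_zero

theorem rv_C (a c : k) : rv a (RatFunc.C c) = c := by
  simp [rv]

theorem X_mem_regRing (a : k) : (RatFunc.X : RatFunc k) ∈ regRing a := by
  rw [mem_regRing, RatFunc.denom_X, eval_one]
  exact one_ne_zero

theorem rv_X (a : k) : rv a (RatFunc.X : RatFunc k) = a := by
  simp [rv]

theorem rv_eq (a : k) (g : RatFunc k) : rv a g = g.num.eval a / g.denom.eval a := by
  simp [rv, RatFunc.eval]

/-- [S52/T-REG] the place `X = a` -/
def ratPlace (a : k) : Place (RatFunc k) k where
  O := regRing a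
  π := evr a
  mem_or := by
    intro g
    by_cases hg : g ∈ regRing a
    · exact Or.inl hg
    · right
      have hd : g.denom.eval a = 0 := by
        rw [mem_regRing, not_not] at hg; exact hg
      have hn : g.num.eval a ≠ 0 := by
        intro hn
        obtain ⟨u, v, huv⟩ := RatFunc.isCoprime_num_denom g
        have := congrArg (Polynomial.eval a) huv
        simp [hn, hd] at this
      have e : g⁻¹ = algebraMap k[X] (RatFunc k) g.denom / algebraMap k[X] (RatFunc k) g.num := by
        conv_lhs => rw [← RatFunc.num_div_denom g, inv_div]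
      refine ⟨by rw [e]; exact div_mem_regRing _ hn, ?_⟩
      show rv a g⁻¹ = 0
      rw [e, rv_div _ hn, hd, zero_div]
  unit := by
    intro g hg
    have hn : (g : RatFunc k).num.eval a ≠ 0 := by
      intro hn
      apply hg
      show rv a (g : RatFunc k) = 0
      rw [rv_eq, hn, zero_div]
    have e : (g : RatFunc k)⁻¹ = algebraMap k[X] (RatFunc k) (g : RatFunc k).denom /
        algebraMap k[X] (RatFunc k) (g : RatFunc k).num := by
      conv_lhs => rw [← RatFunc.num_div_denom (g : RatFunc k), inv_div]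
    rw [e]
    exact div_mem_regRing _ hn

theorem finite_not_mem_regRing (g : RatFunc k) : {a : k | g ∉ regRing a}.Finite := by
  refine (Polynomial.finite_setOfPred_isRoot (RatFunc.denom_ne_zero g)).subset fun a ha => ?_
  rw [Set.mem_ofPred_eq, mem_regRing, not_not] at ha
  exact ha

theorem finite_rv_eq_zero {g : RatFunc k} (hg : g ≠ 0) : {a : k | g ∈ regRing a ∧ rv a g = 0}.Finite := by
  refine (Polynomial.finite_setOfPred_isRoot (RatFunc.num_ne_zero hg)).subset fun a ha => ?_
  obtain ⟨h1, h2⟩ := ha
  rw [rv_eq, div_eq_zero_iff] at h2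
  exact h2.resolve_right h1

/-- two rational functions with the same values at almost all points are equal -/
theorem eq_of_rv_eq [Infinite k] {g g' : RatFunc k} {S : Set k} (hS : S.Finite)
    (h : ∀ a, a ∉ S → g ∈ regRing a → g' ∈ regRing a → rv a g = rv a g') : g = g' := by
  by_contra hne
  have hne' : g - g' ≠ 0 := sub_ne_zero.mpr hne
  have hfin : (S ∪ {a : k | g ∉ regRing a} ∪ {a : k | g' ∉ regRing a} ∪
      {a : k | g - g' ∈ regRing a ∧ rv a (g - g') = 0}).Finite :=
    ((hS.union (finite_not_mem_regRing g)).union (finite_not_mem_regRing g')).union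
      (finite_rv_eq_zero hne')
  obtain ⟨a, ha⟩ := hfin.infinite_compl.nonempty
  simp only [Set.mem_compl_iff, Set.mem_union, Set.mem_ofPred_eq, not_or, not_not, not_and] at ha
  obtain ⟨⟨⟨h1, h2⟩, h3⟩, h4⟩ := ha
  apply h4 (sub_mem h2 h3)
  have h5 : evr a (⟨g, h2⟩ - ⟨g', h3⟩) = evr a ⟨g, h2⟩ - evr a ⟨g', h3⟩ := map_sub _ _ _
  have h6 : rv a (g - g') = rv a g - rv a g' := h5
  rw [h6, h a h1 h2 h3, sub_self]

end Fermat.Agent.S52.T
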