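import Fermat.Agent.S52.T.Star
import Fermat.Agent.S52.T.Red5

/-!
# S52/T-SP : a family of elliptic curves over `𝔽_ℓ[m]` with a `k[m]`-point of order 5 has constant `a_ℓ mod 5`

`𝒜 ℬ : (ZMod ℓ)[X]`, `ℰ : y² = x³ + 𝒜 x + ℬ` over `K = k(X)`; `x y : k[X]` with `𝒬₀ = (x, y) ∈ ℰ(K)`, `5 𝒬₀ = 0`.
For `s : ZMod ℓ` with `4 𝒜(s)³ + 27 ℬ(s)² ≠ 0` put `E_s : y² = x³ + 𝒜(s) x + ℬ(s)`, `N_s = #E_s(𝔽_ℓ)`, `a_s = ℓ + 1 - N_s`.  CLAIM: `5 ∣ N_s - N_s'`.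

* `σ : K →+* K` = Frobenius on the coefficients (`RatFunc.mapRingHom (Polynomial.mapRingHom (frobenius k ℓ)) _`), `σ (j p) = j (p.map frob)`; it fixes
  `AK`, `BK` (`ZMod.pow_card`).  `exists_mapPt σ` gives `Fσ : ℰ(K) →+ ℰ(K)`; `𝒬ᵢ := Fσ^i 𝒬₀ = (x^(σ^i), y^(σ^i))`, `5 𝒬ᵢ = 0`.
* `spData 𝒜 ℬ s` = the place `X = s̃` with `u = 1`.  `Rel_s 𝒬ᵢ (φ_s^i P_s)` where `P_s = (x(s̃), y(s̃)) ∈ E_s(k)` and `φ_s` is the Frobenius of `E_s(k)` (`exists_isFrob`):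
  `(p.map frob).eval s̃ = (p.eval s̃)^ℓ` because `s̃^ℓ = s̃` (`Polynomial.eval_map`, `eval₂_hom`/`Polynomial.map_frobenius`-type lemma, or `Polynomial.expand`...).
* `R := 𝒬₂ - a_s • 𝒬₁ + ℓ • 𝒬₀`, `5 R = 0`.  `red5_add`, `red5_zsmul`, `rel_neg`: `Rel_s R (φ_s² P_s - a_s φ_s P_s + ℓ P_s) = Rel_s R 0` (`frob_relation`), so `R = 0` (`rel_eq_zero`).
* `Rel_s' R (φ'² P' - a_s φ' P' + ℓ P')`, `R = 0`: this point is `0`; `frob_relation` at `s'`: `φ'² P' - a_s' φ' P' + ℓ P' = 0`.  Subtract: `(a_s' - a_s) • φ' P' = 0`;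
  `φ' P'` is affine (`≠ 0`) and killed by `5` (`red5_tors`): `5 ∣ a_s' - a_s` (otherwise Bezout `u (a_s' - a_s) + 5 v = 1`).
-/

set_option autoImplicit false

noncomputable section

namespace Fermat.Agent.S52.T

open Polynomial WeierstrassCurve

variable {ℓ : ℕ} [Fact ℓ.Prime] {k : Type*} [Field k] [Algebra (ZMod ℓ) k]

/-- `(ZMod ℓ)[X] → k(X)` -/
def jj (k : Type*) [Field k] [Algebra (ZMod ℓ) k] (p : (ZMod ℓ)[X]) : RatFunc k :=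
  algebraMap k[X] (RatFunc k) (p.map (algebraMap (ZMod ℓ) k))

theorem frobHyp_of_zmod (hℓ : ℓ ≠ 2) (A₀ B₀ : ZMod ℓ) (hΔ : 4 * A₀ ^ 3 + 27 * B₀ ^ 2 ≠ 0) :
    FrobHyp k ℓ (algebraMap (ZMod ℓ) k A₀) (algebraMap (ZMod ℓ) k B₀) where
  prime := Fact.out
  char := charP_of_injective_algebraMap (algebraMap (ZMod ℓ) k).injective ℓ
  odd := hℓ
  hA := by rw [← map_pow, ZMod.pow_card]
  hB := by rw [← map_pow, ZMod.pow_card]
  hΔ := by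
    have e : 4 * (algebraMap (ZMod ℓ) k A₀) ^ 3 + 27 * (algebraMap (ZMod ℓ) k B₀) ^ 2 =
        algebraMap (ZMod ℓ) k (4 * A₀ ^ 3 + 27 * B₀ ^ 2) := by
      simp only [map_add, map_mul, map_pow, map_ofNat]
    rw [e]
    exact (_root_.map_ne_zero _).mpr hΔ

theorem rv_jj (p : (ZMod ℓ)[X]) (s : ZMod ℓ) :
    rv (algebraMap (ZMod ℓ) k s) (jj k p) = algebraMap (ZMod ℓ) k (p.eval s) := by
  rw [jj, rv_algebraMap, eval_map, eval₂_at_apply]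

/-- the specialisation `X = s` -/
@[reducible] def spData (k : Type*) [Field k] [Algebra (ZMod ℓ) k] (𝒜 ℬ : (ZMod ℓ)[X]) (s : ZMod ℓ) :
    RedData (RatFunc k) k :=
  { ratPlace (algebraMap (ZMod ℓ) k s) with
    A := jj k 𝒜
    B := jj k ℬ
    hA := algebraMap_mem_regRing _ _
    hB := algebraMap_mem_regRing _ _
    A' := algebraMap (ZMod ℓ) k (𝒜.eval s)
    B' := algebraMap (ZMod ℓ) k (ℬ.eval s)
    u := 1
    hu := one_ne_zero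
    eA := by
      show rv _ (jj k 𝒜) = _
      rw [rv_jj]; ring
    eB := by
      show rv _ (jj k ℬ) = _
      rw [rv_jj]; ring }

omit [Fact ℓ.Prime] [Algebra (ZMod ℓ) k] in
/-- a ring hom of `k` acts on the coefficients of `k(X)` -/
theorem exists_sig (f : k →+* k) : ∃ σ : RatFunc k →+* RatFunc k,
    ∀ p : k[X], σ (algebraMap k[X] (RatFunc k) p) = algebraMap k[X] (RatFunc k) (p.map f) := by
  have hinj : Function.Injective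
      ((algebraMap k[X] (RatFunc k)).comp (Polynomial.mapRingHom f)) :=
    (RatFunc.algebraMap_injective k).comp (Polynomial.map_injective f f.injective)
  refine ⟨RatFunc.liftRingHom _ (nonZeroDivisors_le_comap_nonZeroDivisors_of_injective _ hinj),
    fun p => ?_⟩
  have e : algebraMap k[X] (RatFunc k) p =
      algebraMap k[X] (RatFunc k) p / algebraMap k[X] (RatFunc k) 1 := by
    rw [map_one, div_one]
  rw [e]
  refine (RatFunc.liftRingHom_apply_div _ _ p 1).trans ?_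
  rw [map_one, div_one]
  rfl

theorem sp_eval_frob [ExpChar k ℓ] (p : k[X]) (s : ZMod ℓ) :
    (p.map (frobenius k ℓ)).eval (algebraMap (ZMod ℓ) k s) =
      (p.eval (algebraMap (ZMod ℓ) k s)) ^ ℓ := by
  have hs : algebraMap (ZMod ℓ) k s = frobenius k ℓ (algebraMap (ZMod ℓ) k s) := by
    rw [frobenius_def, ← map_pow, ZMod.pow_card]
  conv_lhs => rw [hs]
  rw [eval_map, eval₂_at_apply, frobenius_def]

/-- specialisation of a 5-torsion point with polynomial coordinates -/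
theorem sp_rel [DecidableEq k] (h2 : (2 : k) ≠ 0) (h5 : (5 : k) ≠ 0) (𝒜 ℬ : (ZMod ℓ)[X])
    (s : ZMod ℓ)
    (hs : 4 * (algebraMap (ZMod ℓ) k (𝒜.eval s)) ^ 3 + 27 * (algebraMap (ZMod ℓ) k (ℬ.eval s)) ^ 2 ≠ 0)
    (x y : k[X])
    (hns : (sw (jj k 𝒜) (jj k ℬ)).toAffine.Nonsingular (algebraMap k[X] (RatFunc k) x)
      (algebraMap k[X] (RatFunc k) y))
    (h5t : 5 • (Affine.Point.some _ _ hns : Pt (jj k 𝒜) (jj k ℬ)) = 0) :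
    ∃ h' : (sw (algebraMap (ZMod ℓ) k (𝒜.eval s)) (algebraMap (ZMod ℓ) k (ℬ.eval s))).toAffine.Nonsingular
        (x.eval (algebraMap (ZMod ℓ) k s)) (y.eval (algebraMap (ZMod ℓ) k s)),
      (spData k 𝒜 ℬ s).Rel (.some _ _ hns) (.some _ _ h') := by
  obtain ⟨Q, hQ⟩ := red5_exists (D := spData k 𝒜 ℬ s) rfl h2 h5 hs h5t
  obtain ⟨X₁, Y₁, x', y', h', eX, eY, rfl, ex, ey⟩ := RedData.rel_some_elim hQ
  have e1 : x' = x.eval (algebraMap (ZMod ℓ) k s) := by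
    have : (spData k 𝒜 ℬ s).π X₁ = x.eval (algebraMap (ZMod ℓ) k s) := by
      show rv _ (X₁ : RatFunc k) = _
      rw [eX, rv_algebraMap]
    rw [← this, ex]
    show x' = x' * 1 ^ 2
    ring
  have e2 : y' = y.eval (algebraMap (ZMod ℓ) k s) := by
    have : (spData k 𝒜 ℬ s).π Y₁ = y.eval (algebraMap (ZMod ℓ) k s) := by
      show rv _ (Y₁ : RatFunc k) = _
      rw [eY, rv_algebraMap]
    rw [← this, ey]
    show y' = y' * 1 ^ 3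
    ring
  subst e1 e2
  exact ⟨h', hQ⟩

/-- the three conjugates of the 5-torsion point specialise to `P`, `φ P`, `φ² P` -/
theorem sp_main [IsAlgClosed k] [DecidableEq k] [ExpChar k ℓ] (h2 : ℓ ≠ 2) (h5 : (5 : k) ≠ 0)
    (𝒜 ℬ : (ZMod ℓ)[X]) (s : ZMod ℓ) (hs : 4 * (𝒜.eval s) ^ 3 + 27 * (ℬ.eval s) ^ 2 ≠ 0)
    (x y : k[X])
    (n₀ : (sw (jj k 𝒜) (jj k ℬ)).toAffine.Nonsingular (algebraMap k[X] (RatFunc k) x)
      (algebraMap k[X] (RatFunc k) y))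
    (n₁ : (sw (jj k 𝒜) (jj k ℬ)).toAffine.Nonsingular
      (algebraMap k[X] (RatFunc k) (x.map (frobenius k ℓ)))
      (algebraMap k[X] (RatFunc k) (y.map (frobenius k ℓ))))
    (n₂ : (sw (jj k 𝒜) (jj k ℬ)).toAffine.Nonsingular
      (algebraMap k[X] (RatFunc k) ((x.map (frobenius k ℓ)).map (frobenius k ℓ)))
      (algebraMap k[X] (RatFunc k) ((y.map (frobenius k ℓ)).map (frobenius k ℓ))))
    (t₀ : 5 • (Affine.Point.some _ _ n₀ : Pt (jj k 𝒜) (jj k ℬ)) = 0)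
    (t₁ : 5 • (Affine.Point.some _ _ n₁ : Pt (jj k 𝒜) (jj k ℬ)) = 0)
    (t₂ : 5 • (Affine.Point.some _ _ n₂ : Pt (jj k 𝒜) (jj k ℬ)) = 0) :
    ∃ T P : Pt (algebraMap (ZMod ℓ) k (𝒜.eval s)) (algebraMap (ZMod ℓ) k (ℬ.eval s)),
      T ≠ 0 ∧ 5 • T = 0 ∧
      (∀ a : ℤ, (spData k 𝒜 ℬ s).Rel
        ((Affine.Point.some _ _ n₂ : Pt (jj k 𝒜) (jj k ℬ)) - a • (Affine.Point.some _ _ n₁) +
          (ℓ : ℤ) • (Affine.Point.some _ _ n₀))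
        (P - a • T)) ∧
      P - ((ℓ : ℤ) + 1 - (Nat.card (Pt (𝒜.eval s) (ℬ.eval s)) : ℤ)) • T = 0 := by
  have H := frobHyp_of_zmod (k := k) h2 _ _ hs
  have h2' := H.two_ne_zero
  obtain ⟨φ, hφ, -⟩ := exists_isFrob H
  obtain ⟨m₀, r₀⟩ := sp_rel h2' h5 𝒜 ℬ s H.hΔ x y n₀ t₀
  obtain ⟨m₁, r₁⟩ := sp_rel h2' h5 𝒜 ℬ s H.hΔ _ _ n₁ t₁
  obtain ⟨m₂, r₂⟩ := sp_rel h2' h5 𝒜 ℬ s H.hΔ _ _ n₂ t₂
  obtain ⟨g₁, e₁⟩ := hφ _ _ m₀
  obtain ⟨g₂, e₂⟩ := hφ _ _ m₁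
  have c₁ : φ (.some _ _ m₀) = .some _ _ m₁ := by
    rw [e₁, Affine.Point.some.injEq, sp_eval_frob, sp_eval_frob]
    exact ⟨rfl, rfl⟩
  have c₂ : φ (.some _ _ m₁) = .some _ _ m₂ := by
    rw [e₂, Affine.Point.some.injEq, sp_eval_frob (x.map _), sp_eval_frob (y.map _)]
    exact ⟨rfl, rfl⟩
  have hrel := frob_relation (k := k) (𝒜.eval s) (ℬ.eval s) H hφ
  have hu : (spData k 𝒜 ℬ s).u = 1 := rfl
  refine ⟨.some _ _ m₁, .some _ _ m₂ + (ℓ : ℤ) • .some _ _ m₀, Affine.Point.some_ne_zero _,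
    red5_tors hu t₁ r₁, fun a => ?_, ?_⟩
  · have q₁ := RedData.rel_neg (red5_zsmul hu h2' h5 H.hΔ t₁ r₁ a)
    have q₀ := red5_zsmul hu h2' h5 H.hΔ t₀ r₀ (ℓ : ℤ)
    have s₁ : 5 • (-(a • (Affine.Point.some _ _ n₁ : Pt (jj k 𝒜) (jj k ℬ)))) = 0 := by
      rw [smul_neg, smul_comm, t₁, smul_zero, neg_zero]
    have s₀ : 5 • ((ℓ : ℤ) • (Affine.Point.some _ _ n₀ : Pt (jj k 𝒜) (jj k ℬ))) = 0 := by
      rw [smul_comm, t₀, smul_zero]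
    have q₂ := red5_add hu h2' h5 H.hΔ t₂ s₁ r₂ q₁
    have s₂ : 5 • ((Affine.Point.some _ _ n₂ : Pt (jj k 𝒜) (jj k ℬ)) +
        -(a • (Affine.Point.some _ _ n₁ : Pt (jj k 𝒜) (jj k ℬ)))) = 0 := by
      rw [smul_add, t₂, s₁, add_zero]
    have q₃ := red5_add hu h2' h5 H.hΔ s₂ s₀ q₂ q₀
    rw [sub_eq_add_neg]
    convert q₃ using 1
    abel
  · have h3 := congrArg (fun ψ => ψ (Affine.Point.some _ _ m₀)) hrel
    have h4 : φ (φ (.some _ _ m₀)) -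
        ((ℓ : ℤ) + 1 - (Nat.card (Pt (𝒜.eval s) (ℬ.eval s)) : ℤ)) • φ (.some _ _ m₀) +
        (ℓ : ℤ) • (.some _ _ m₀) = 0 := by
      rw [pow_two] at h3
      exact h3
    rw [c₁, c₂] at h4
    rw [← h4]
    abel

/-- [S52/T-SP] -/
theorem sp_congr [IsAlgClosed k] [DecidableEq k] (h2 : ℓ ≠ 2) (h5 : ℓ ≠ 5) (𝒜 ℬ : (ZMod ℓ)[X])
    (x y : k[X])
    (hns : (sw (jj k 𝒜) (jj k ℬ)).toAffine.Nonsingular (algebraMap k[X] (RatFunc k) x)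
      (algebraMap k[X] (RatFunc k) y))
    (h5t : 5 • (Affine.Point.some _ _ hns : Pt (jj k 𝒜) (jj k ℬ)) = 0)
    (s s' : ZMod ℓ) (hs : 4 * (𝒜.eval s) ^ 3 + 27 * (ℬ.eval s) ^ 2 ≠ 0)
    (hs' : 4 * (𝒜.eval s') ^ 3 + 27 * (ℬ.eval s') ^ 2 ≠ 0) :
    (5 : ℤ) ∣ (Nat.card (Pt (𝒜.eval s) (ℬ.eval s)) : ℤ) - (Nat.card (Pt (𝒜.eval s') (ℬ.eval s')) : ℤ) := by
  have hpr : ℓ.Prime := Fact.out
  have hchar : CharP k ℓ := charP_of_injective_algebraMap (algebraMap (ZMod ℓ) k).injective ℓ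
  have hexp : ExpChar k ℓ := ExpChar.prime hpr
  have h5' : (5 : k) ≠ 0 := by
    intro h
    have h' : ((5 : ℕ) : k) = 0 := by exact_mod_cast h
    rw [CharP.cast_eq_zero_iff k ℓ] at h'
    exact h5 ((Nat.prime_dvd_prime_iff_eq hpr (by norm_num)).mp h')
  have h2' : (2 : k) ≠ 0 := (frobHyp_of_zmod (k := k) h2 _ _ hs).two_ne_zero
  have h2K : (2 : RatFunc k) ≠ 0 := by
    have e : (2 : RatFunc k) = RatFunc.C 2 := by rw [map_ofNat]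
    rw [e]
    exact (_root_.map_ne_zero _).mpr h2'
  obtain ⟨σ, hσ⟩ := exists_sig (frobenius k ℓ)
  have hfix : ∀ p : (ZMod ℓ)[X], σ (jj k p) = jj k p := by
    intro p
    rw [jj, hσ, Polynomial.map_map]
    congr 2
    ext c
    rw [RingHom.comp_apply, frobenius_def, ← map_pow, ZMod.pow_card]
  obtain ⟨Fσ, -, hF⟩ := exists_mapPt σ h2K (hfix 𝒜) (hfix ℬ)
  obtain ⟨n₁', e₁⟩ := hF _ _ hns
  obtain ⟨n₁, e₁'⟩ := redadd_some_eq n₁' (hσ x).symm (hσ y).symm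
  have t₁ : 5 • (Affine.Point.some _ _ n₁ : Pt (jj k 𝒜) (jj k ℬ)) = 0 := by
    rw [← e₁', ← e₁, ← map_nsmul, h5t, map_zero]
  obtain ⟨n₂', e₂⟩ := hF _ _ n₁
  obtain ⟨n₂, e₂'⟩ := redadd_some_eq n₂' (hσ _).symm (hσ _).symm
  have t₂ : 5 • (Affine.Point.some _ _ n₂ : Pt (jj k 𝒜) (jj k ℬ)) = 0 := by
    rw [← e₂', ← e₂, ← map_nsmul, t₁, map_zero]
  obtain ⟨T, P, hT, hT5, hrel, h0⟩ := sp_main h2 h5' 𝒜 ℬ s hs x y hns n₁ n₂ h5t t₁ t₂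
  obtain ⟨T', P', hT', hT5', hrel', h0'⟩ := sp_main h2 h5' 𝒜 ℬ s' hs' x y hns n₁ n₂ h5t t₁ t₂
  have r := hrel ((ℓ : ℤ) + 1 - (Nat.card (Pt (𝒜.eval s) (ℬ.eval s)) : ℤ))
  rw [h0] at r
  have r' := hrel' ((ℓ : ℤ) + 1 - (Nat.card (Pt (𝒜.eval s) (ℬ.eval s)) : ℤ))
  rw [RedData.rel_eq_zero r] at r'
  have h1 := RedData.rel_zero_left r'
  have h3 : ((Nat.card (Pt (𝒜.eval s) (ℬ.eval s)) : ℤ) -
      (Nat.card (Pt (𝒜.eval s') (ℬ.eval s')) : ℤ)) • T' = 0 := by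
    have h4 : ((Nat.card (Pt (𝒜.eval s) (ℬ.eval s)) : ℤ) -
      (Nat.card (Pt (𝒜.eval s') (ℬ.eval s')) : ℤ)) • T' =
        (P' - ((ℓ : ℤ) + 1 - (Nat.card (Pt (𝒜.eval s) (ℬ.eval s)) : ℤ)) • T') -
        (P' - ((ℓ : ℤ) + 1 - (Nat.card (Pt (𝒜.eval s') (ℬ.eval s')) : ℤ)) • T') := by
      simp only [sub_smul, add_smul]
      abel
    rw [h4, h1, h0', sub_zero]
  by_contra hnd
  have hcop : IsCoprime (5 : ℤ) ((Nat.card (Pt (𝒜.eval s) (ℬ.eval s)) : ℤ) -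
      (Nat.card (Pt (𝒜.eval s') (ℬ.eval s')) : ℤ)) :=
    (Prime.coprime_iff_not_dvd (Int.prime_iff_natAbs_prime.mpr (by norm_num))).mpr hnd
  obtain ⟨u, v, huv⟩ := hcop
  apply hT'
  have h6 : (1 : ℤ) • T' = 0 := by
    rw [← huv, add_smul, mul_smul, mul_smul, h3, smul_zero, add_zero]
    have : (5 : ℤ) • T' = 5 • T' := by
      rw [← natCast_zsmul]; rfl
    rw [this, hT5', smul_zero]
  rwa [one_smul] at h6

end Fermat.Agent.S52.T
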