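import Fermat.Agent.S52.T.Quad
import Fermat.Agent.S52.T.Par
import Fermat.Agent.S52.T.Comp
import Fermat.Agent.S52.T.Manin

/-!
# S52/T-STAR : `φ² - a φ + ℓ = 0` on `E(k)`, `a = ℓ + 1 - #E(𝔽_ℓ)`

`e_n := PhiPt H n` (`n = 0, 1, 2`), realised by `φ^n`.  `quad_key` with `G = TPt A B`, `d = dg A B` (`dg_par`), `n = ℓ`:
* `h0 h1 h2` : `dg_PhiPt`.
* `h21` : `e₂ + e₁` is realised by `φ² + φ = (φ + 1) * φ`, `e₁ + e₀` by `φ + 1`, `e₁` by `φ`; `dg_comp`.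
* `h20` : `e₂ - e₀` is realised by `φ² - 1 = (φ - 1) * (φ + 1)`; `dg_comp`.
* `d (e₁ - e₀) = #E(𝔽_ℓ)` : `dg_Phi_sub_eta`.
So `dg (e₂ - a • e₁ + ℓ • e₀) = 0`, this point is realised by `φ² - a • φ + ℓ • 1` (`realizes_sub/add/zsmul`), `eq_zero_of_dg`.
-/

set_option autoImplicit false

noncomputable section

namespace Fermat.Agent.S52.T

open Polynomial WeierstrassCurve

variable {ℓ : ℕ} [Fact ℓ.Prime] {k : Type*} [Field k] [Algebra (ZMod ℓ) k] [DecidableEq k]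

/-- [S52/T-STAR] **the characteristic equation of Frobenius, pointwise** -/
theorem frob_relation [IsAlgClosed k] (A₀ B₀ : ZMod ℓ)
    (H : FrobHyp k ℓ (algebraMap (ZMod ℓ) k A₀) (algebraMap (ZMod ℓ) k B₀))
    {φ : AddMonoid.End (Pt (algebraMap (ZMod ℓ) k A₀) (algebraMap (ZMod ℓ) k B₀))}
    (hφ : IsFrob ℓ φ) :
    φ ^ 2 - ((ℓ : ℤ) + 1 - (Nat.card (Pt A₀ B₀) : ℤ)) • φ + (ℓ : ℤ) • 1 = 0 := by
  have h2 := H.two_ne_zero
  have hΔ := H.hΔ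
  have r0 := realizes_PhiPt H hφ 0
  have r1 := realizes_PhiPt H hφ 1
  have r2 := realizes_PhiPt H hφ 2
  rw [pow_zero] at r0
  rw [pow_one] at r1
  have h21 : dg _ _ (PhiPt H 2 + PhiPt H 1) = (ℓ : ℤ) * dg _ _ (PhiPt H 1 + PhiPt H 0) := by
    have h := dg_comp h2 hΔ (realizes_add h2 r1 r0) r1 (Q₃ := PhiPt H 2 + PhiPt H 1) (by
      have e : (φ + 1) * φ = φ ^ 2 + φ := by noncomm_ring
      rw [e]; exact realizes_add h2 r2 r1)
    rw [h, dg_PhiPt, pow_one, mul_comm]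
  have h20 : dg _ _ (PhiPt H 2 - PhiPt H 0) =
      dg _ _ (PhiPt H 1 - PhiPt H 0) * dg _ _ (PhiPt H 1 + PhiPt H 0) :=
    dg_comp h2 hΔ (realizes_sub h2 r1 r0) (realizes_add h2 r1 r0) (by
      have e : (φ - 1) * (φ + 1) = φ ^ 2 - 1 := by
        rw [sub_mul, mul_add, mul_one, one_mul, pow_two]; abel
      rw [e]; exact realizes_sub h2 r2 r0)
  have key := quad_key (dg _ _) (dg_par h2 hΔ) (PhiPt H 0) (PhiPt H 1) (PhiPt H 2) (ℓ : ℤ)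
    (by rw [dg_PhiPt, pow_zero]) (by rw [dg_PhiPt, pow_one]) (dg_PhiPt H 2) h21 h20
  rw [dg_Phi_sub_eta A₀ B₀ H] at key
  exact eq_zero_of_dg h2 hΔ (realizes_add h2 (realizes_sub h2 r2 (realizes_zsmul h2 r1 _))
    (realizes_zsmul h2 r0 _)) key

end Fermat.Agent.S52.T
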