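import Fermat.Agent.S52.T.Reg
import Fermat.Agent.S52.T.RedAdd

/-!
# S52, block T : Manin's twisted curve over `k(X)`; definitions (no key)

`E : y² = f(x) = x³ + A x + B` over `k`;  `λ = f(X) ∈ k(X)`;  `E^λ : υ² = ξ³ + A λ² ξ + B λ³` over `k(X)`.
A point `(ξ, υ)` of `E^λ` corresponds to `(𝒳, 𝒴) = (ξ/λ, υ/λ²)` with `λ 𝒴² = f(𝒳)`, i.e. to the rational map
`(x, y) ↦ (𝒳(x), y 𝒴(x))` of `E`.
* `dg Q` = degree of the rational function `𝒳 = ξ / λ` (`0` for `Q = 0`).
* `evData A B x₀ y₀` = the place `X = x₀` + the scaling `u = y₀` (`λ(x₀) = y₀²`): `Rel (ξ, υ) (ξ(x₀)/y₀², υ(x₀)/y₀³)`.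
* `Realizes Q α` : the endomorphism `α` of the group `E(k)` is given by `Q` at almost all points.
* `xPhi`, `yPhi` : coordinates of the point `Φⁿ η = (X^(ℓⁿ), λ^((ℓⁿ-1)/2))`.
-/

set_option autoImplicit false

noncomputable section

namespace Fermat.Agent.S52.T

open Polynomial WeierstrassCurve

variable {k : Type*} [Field k]

/-- `λ = f(X)` -/
def lam (A B : k) : RatFunc k := RatFunc.X ^ 3 + RatFunc.C A * RatFunc.X + RatFunc.C B

/-- coefficients of the twisted curve -/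
abbrev TA (A B : k) : RatFunc k := RatFunc.C A * lam A B ^ 2
abbrev TB (A B : k) : RatFunc k := RatFunc.C B * lam A B ^ 3

/-- points of the twisted curve -/
abbrev TPt (A B : k) := Pt (TA A B) (TB A B)

/-- the degree of a rational function -/
def rdeg (g : RatFunc k) : ℕ := max g.num.natDegree g.denom.natDegree

/-- the degree of a point of the twisted curve -/
def dg (A B : k) : TPt A B → ℤ
  | .zero => 0
  | .some ξ _ _ => (rdeg (ξ / lam A B) : ℤ)

theorem lam_mem_regRing (A B a : k) : lam A B ∈ regRing a :=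
  add_mem (add_mem (pow_mem (X_mem_regRing a) 3) (mul_mem (C_mem_regRing a A) (X_mem_regRing a)))
    (C_mem_regRing a B)

theorem rv_lam (A B a : k) : rv a (lam A B) = a ^ 3 + A * a + B := by
  have h : evr a ⟨lam A B, lam_mem_regRing A B a⟩ =
      (evr a ⟨RatFunc.X, X_mem_regRing a⟩) ^ 3 +
        evr a ⟨RatFunc.C A, C_mem_regRing a A⟩ * evr a ⟨RatFunc.X, X_mem_regRing a⟩ +
        evr a ⟨RatFunc.C B, C_mem_regRing a B⟩ := by
    rw [← map_pow, ← map_mul, ← map_add, ← map_add]; rfl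
  simpa [rv_X, rv_C] using h

theorem TA_mem_regRing (A B a : k) : TA A B ∈ regRing a :=
  mul_mem (C_mem_regRing a A) (pow_mem (lam_mem_regRing A B a) 2)

theorem TB_mem_regRing (A B a : k) : TB A B ∈ regRing a :=
  mul_mem (C_mem_regRing a B) (pow_mem (lam_mem_regRing A B a) 3)

theorem rv_TA (A B a : k) : rv a (TA A B) = A * (a ^ 3 + A * a + B) ^ 2 := by
  have h : evr a ⟨TA A B, TA_mem_regRing A B a⟩ =
      evr a ⟨RatFunc.C A, C_mem_regRing a A⟩ * (evr a ⟨lam A B, lam_mem_regRing A B a⟩) ^ 2 := by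
    rw [← map_pow, ← map_mul]; rfl
  simpa [rv_lam, rv_C] using h

theorem rv_TB (A B a : k) : rv a (TB A B) = B * (a ^ 3 + A * a + B) ^ 3 := by
  have h : evr a ⟨TB A B, TB_mem_regRing A B a⟩ =
      evr a ⟨RatFunc.C B, C_mem_regRing a B⟩ * (evr a ⟨lam A B, lam_mem_regRing A B a⟩) ^ 3 := by
    rw [← map_pow, ← map_mul]; rfl
  simpa [rv_lam, rv_C] using h

/-- evaluation of the points of the twisted curve at the point `(x₀, y₀)` of `E` -/
@[reducible] def evData (A B x₀ y₀ : k) (hy : y₀ ≠ 0) (h : y₀ ^ 2 = x₀ ^ 3 + A * x₀ + B) :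
    RedData (RatFunc k) k :=
  { ratPlace x₀ with
    A := TA A B
    B := TB A B
    hA := TA_mem_regRing A B x₀
    hB := TB_mem_regRing A B x₀
    A' := A
    B' := B
    u := y₀
    hu := hy
    eA := by
      show rv x₀ (TA A B) = _
      rw [rv_TA, ← h]; ring
    eB := by
      show rv x₀ (TB A B) = _
      rw [rv_TB, ← h]; ring }

/-- the endomorphism `α` of `E(k)` is given by the point `Q` of the twisted curve at almost all points -/
def Realizes (A B : k) [DecidableEq k] (Q : TPt A B) (α : AddMonoid.End (Pt A B)) : Prop :=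
  ∃ S : Set k, S.Finite ∧ ∀ (x₀ y₀ : k) (hy : y₀ ≠ 0) (h : y₀ ^ 2 = x₀ ^ 3 + A * x₀ + B)
    (hn : (sw A B).toAffine.Nonsingular x₀ y₀), x₀ ∉ S →
      (evData A B x₀ y₀ hy h).Rel Q (α (.some x₀ y₀ hn))

/-- abscissa of `Φⁿ η` -/
def xPhi (A B : k) (ℓ n : ℕ) : RatFunc k := lam A B * RatFunc.X ^ (ℓ ^ n)

/-- ordinate of `Φⁿ η` -/
def yPhi (A B : k) (ℓ n : ℕ) : RatFunc k := lam A B ^ 2 * lam A B ^ ((ℓ ^ n - 1) / 2)

end Fermat.Agent.S52.T
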