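import Fermat.Agent.S52.T.Gen

/-!
# S52/T-ZERO : a point of degree `0` realises only the zero endomorphism

`Q = 0`: `realizes_unique` with `realizes_zero`.
`Q = (ξ, υ)`, `rdeg (ξ/λ) = 0`: `𝒳 = ξ/λ = C c` is constant (`num`, `denom` of degree `0`; `RatFunc.num_div_denom`).  `𝒴 = υ/λ²` satisfies
`λ 𝒴² = C (f c)`, `f c = c³ + A c + B`.  If `f c ≠ 0`: `RatFunc.intDegree`: `3 + 2 intDegree 𝒴 = 0`, impossible (`RatFunc.intDegree_mul`,
`intDegree_C`, `intDegree_polynomial`: `lam = algebraMap (X³ + C A X + C B)`).  So `f c = 0`, `𝒴 = 0`, `υ = 0`: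
for almost all `P = (x₀,y₀)`: `α P = T := (c, 0)`, an affine point (`≠ 0`).  Choose `P₁`, `P₂` with `P₁, P₂, P₁ + P₂` outside the finite exceptional
set (`finite_pts`, `infinite_pts`): `T = α (P₁ + P₂) = T + T`, so `T = 0`.  Contradiction.
`const_false` is the last step.
-/

set_option autoImplicit false

noncomputable section

namespace Fermat.Agent.S52.T

open Polynomial WeierstrassCurve

variable {k : Type*} [Field k] [DecidableEq k] {A B : k}

/-- an endomorphism of an infinite group cannot be a non zero constant outside a finite set -/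
theorem const_false {G : Type*} [AddCommGroup G] [Infinite G] (α : AddMonoid.End G) {T : Set G}
    (hT : T.Finite) (c : G) (h : ∀ P, P ∉ T → α P = c) : c = 0 := by
  obtain ⟨P₁, hP₁⟩ := hT.infinite_compl.nonempty
  have hfin : (T ∪ (fun P' => P₁ + P') ⁻¹' T).Finite :=
    hT.union (hT.preimage (add_right_injective P₁).injOn)
  obtain ⟨P₂, hP₂⟩ := hfin.infinite_compl.nonempty
  simp only [Set.mem_compl_iff, Set.mem_union, Set.mem_preimage, not_or] at hP₁ hP₂
  have h1 := h _ hP₁
  have h2 := h _ hP₂.1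
  have h3 := h _ hP₂.2
  rw [map_add, h1, h2] at h3
  exact add_eq_left.mp h3

omit [DecidableEq k] in
/-- a rational function of degree `0` is constant -/
theorem eq_C_of_rdeg {g : RatFunc k} (h : rdeg g = 0) : ∃ c : k, g = RatFunc.C c := by
  have h1 : g.num.natDegree = 0 := Nat.le_zero.mp (h ▸ le_max_left _ _)
  have h2 : g.denom.natDegree = 0 := Nat.le_zero.mp (h ▸ le_max_right _ _)
  refine ⟨g.num.coeff 0 / g.denom.coeff 0, ?_⟩
  conv_lhs => rw [← RatFunc.num_div_denom g, Polynomial.eq_C_of_natDegree_eq_zero h1,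
    Polynomial.eq_C_of_natDegree_eq_zero h2]
  rw [RatFunc.algebraMap_C, RatFunc.algebraMap_C, map_div₀]

omit [DecidableEq k] in
theorem intDegree_lam (A B : k) : (lam A B).intDegree = 3 := by
  rw [gen_lam_eq, RatFunc.intDegree_polynomial]
  have : (X ^ 3 + C A * X + C B : k[X]).natDegree = 3 := by compute_degree!
  rw [this]; rfl

/-- [S52/T-ZERO] -/
theorem eq_zero_of_dg [IsAlgClosed k] (h2 : (2 : k) ≠ 0) (hΔ : 4 * A ^ 3 + 27 * B ^ 2 ≠ 0)
    {Q : TPt A B} {α : AddMonoid.End (Pt A B)} (h : Realizes A B Q α) (hd : dg A B Q = 0) :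
    α = 0 := by
  rcases Q with _ | ⟨ξ, υ, hn⟩
  · exact realizes_unique h2 hΔ h realizes_zero
  · exfalso
    have hl := gen_lam_ne_zero A B
    have hd' : rdeg (ξ / lam A B) = 0 := by
      have hd2 : (rdeg (ξ / lam A B) : ℤ) = 0 := hd
      exact_mod_cast hd2
    obtain ⟨c, hc⟩ := eq_C_of_rdeg hd'
    have hξ : ξ = RatFunc.C c * lam A B := by rw [← hc, div_mul_cancel₀ _ hl]
    have heq : υ ^ 2 = lam A B ^ 3 * RatFunc.C (c ^ 3 + A * c + B) := by
      have := (sw_equation _ _ ξ υ).mp hn.1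
      rw [this, hξ]
      simp only [TA, TB, map_add, map_mul, map_pow]
      ring
    have hfc : c ^ 3 + A * c + B = 0 := by
      by_contra hne
      have hC : RatFunc.C (c ^ 3 + A * c + B) ≠ 0 := (_root_.map_ne_zero _).mpr hne
      have hυ : υ ≠ 0 := by
        rintro rfl
        rw [zero_pow (by norm_num)] at heq
        exact mul_ne_zero (pow_ne_zero _ hl) hC heq.symm
      have h3 := congrArg RatFunc.intDegree heq
      rw [pow_two, RatFunc.intDegree_mul hυ hυ, RatFunc.intDegree_mul (pow_ne_zero _ hl) hC,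
        RatFunc.intDegree_C, pow_succ, pow_two, RatFunc.intDegree_mul (mul_ne_zero hl hl) hl,
        RatFunc.intDegree_mul hl hl, intDegree_lam] at h3
      omega
    have hυ : υ = 0 := by
      rw [hfc, map_zero, mul_zero] at heq
      exact pow_eq_zero_iff (by norm_num) |>.mp heq
    subst hυ
    have hc0 : (sw A B).toAffine.Nonsingular c 0 :=
      sw_nonsingular hΔ h2 (by rw [hfc]; ring)
    obtain ⟨S, hS, h⟩ := h
    have := infinite_pts (A := A) (B := B) h2 hΔ
    refine Affine.Point.some_ne_zero hc0 (const_false α (finite_pts (A := A) (B := B) hS) _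
      fun P hP => ?_)
    rw [Set.mem_ofPred_eq, not_or] at hP
    rcases P with _ | ⟨x, y, hn'⟩
    · exact absurd rfl hP.1
    · have hxy : ¬ (x ∈ S ∨ y = 0) := fun hc => hP.2 ⟨x, y, hn', rfl, hc⟩
      rw [not_or] at hxy
      have he : y ^ 2 = x ^ 3 + A * x + B := (sw_equation A B x y).mp hn'.1
      have hr := h x y hxy.2 he hn' hxy.1
      obtain ⟨X₁, Y₁, x', y', h', eX, eY, e, ex, ey⟩ := RedData.rel_some_elim hr
      rw [e, Affine.Point.some.injEq]
      have hy3 : y ^ 3 ≠ 0 := pow_ne_zero _ hxy.2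
      have hy2 : y ^ 2 ≠ 0 := pow_ne_zero _ hxy.2
      constructor
      · have e1 : (evData A B x y hxy.2 he).π X₁ = c * y ^ 2 := by
          have e2 : X₁ = (⟨RatFunc.C c, C_mem_regRing x c⟩ : (evData A B x y hxy.2 he).O) *
              ⟨lam A B, lam_mem_regRing A B x⟩ := Subtype.ext (eX.trans hξ)
          rw [e2, map_mul]
          show rv x (RatFunc.C c) * rv x (lam A B) = _
          rw [rv_C, rv_lam, he]
        rw [e1] at ex
        exact (mul_right_cancel₀ hy2 ex).symm
      · have e1 : (evData A B x y hxy.2 he).π Y₁ = 0 := by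
          have e2 : Y₁ = 0 := Subtype.ext eY
          rw [e2, map_zero]
        rw [e1] at ey
        exact ((mul_eq_zero.mp ey.symm).resolve_right hy3)

/-- a variant: a realised point of degree `0` is `0` -/
theorem eq_zero_of_dg' [IsAlgClosed k] (h2 : (2 : k) ≠ 0) (hΔ : 4 * A ^ 3 + 27 * B ^ 2 ≠ 0)
    {Q : TPt A B} {α : AddMonoid.End (Pt A B)} (h : Realizes A B Q α) (hd : dg A B Q = 0) :
    Q = 0 :=
  realizes_inj h2 hΔ (by rw [eq_zero_of_dg h2 hΔ h hd] at h; exact h) realizes_zero

end Fermat.Agent.S52.T
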